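import Mathlib
import Fermat.Prelude.Def_AlgebraicCurve_Repartitions
import Fermat.Prelude.Def_ModularCurve_ReductionModL

/-!
# Program L (S18): interface definitions

Hypothesis-form interfaces between the tracks L-FF, L-VAL, L-GEN and L-RED.

* `RiemannPkg K F` : Riemann's theorem for the Prelude objects (produced by L-FF).
* `RedSetup A π`   : a valued function field with residue function field and a place
  reduction map satisfying conservation of principal divisors (produced by L-VAL).
* `NoTorsionInKernel S` : the target of L-RED.
-/

set_option autoImplicit false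

namespace Fermat.Agent.Red

open AlgebraicCurve

/-- Riemann's theorem package for a function field `F/K` in the Prelude language
(every place of degree one, principal divisors of degree zero, finiteness of `L(D)`,
Riemann's inequality, equality in large degree with the repartition genus `genusFF`). -/
structure RiemannPkg (K F : Type*) [Field K] [Field F] [Algebra K F] : Prop where
  deg_one : ∀ P : Place K F, P.deg = 1
  principal : HasPrincipalDivisors K F
  infinite_places : Infinite (Place K F)
  finite_L : ∀ D : Divisor K F, Module.Finite K (riemannRochSpace D)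
  L_eq_bot_of_neg : ∀ D : Divisor K F, Divisor.degree D < 0 → riemannRochSpace D = ⊥
  L_zero : ∀ f : F, f ∈ riemannRochSpace (0 : Divisor K F) → ∃ a : K, f = algebraMap K F a
  riemann_le : ∀ D : Divisor K F,
    Divisor.degree D + 1 - (genusFF K F : ℤ) ≤ (Module.finrank K (riemannRochSpace D) : ℤ)
  riemann_eq : ∃ c : ℤ, ∀ D : Divisor K F, c ≤ Divisor.degree D →
    (Module.finrank K (riemannRochSpace D) : ℤ) = Divisor.degree D + 1 - (genusFF K F : ℤ)

/-- A valued function field `F/K` (valuation subring `O` of `F` over the valuation subring `A`
of `K`) with residue function field `Ft/k`, residue map `res`, and a degree-preserving place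
reduction `r` with conservation of principal divisors, plus the best-approximation property
`approx` (every finite-dimensional `K`-subspace of `F` is orthogonally complemented). -/
structure RedSetup {K F k Ft : Type*} [Field K] [Field F] [Algebra K F] [Field k] [Field Ft]
    [Algebra k Ft] (A : ValuationSubring K) (π : A →+* k) where
  /-- the valuation ring of the constant-reduction valuation `v` on `F` -/
  O : ValuationSubring F
  /-- the residue map -/
  res : O →+* Ft
  res_surjective : Function.Surjective res
  res_eq_zero_iff : ∀ x : O, res x = 0 ↔ ¬ IsUnit x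
  algebraMap_mem_iff : ∀ a : K, algebraMap K F a ∈ O ↔ a ∈ A
  res_algebraMap : ∀ (a : K) (ha : a ∈ A) (ha' : algebraMap K F a ∈ O),
    res ⟨algebraMap K F a, ha'⟩ = algebraMap k Ft (π ⟨a, ha⟩)
  /-- the reduction of places -/
  r : Place K F → Place k Ft
  deg_r : ∀ P, (r P).deg = P.deg
  conservation : ∀ y : O, res y ≠ 0 → ∀ D : Divisor K F, (∀ P, D P = P.ord (y : F)) →
    ∀ Q, Finsupp.mapDomain r D Q = Q.ord (res y)
  approx : ∀ V : Submodule K F, Module.Finite K V → ∀ y : F, y ∉ V →
    ∃ w ∈ V, ∃ c : K, c ≠ 0 ∧ ∃ h : c • (y - w) ∈ O,
      ∀ z : O, (z : F) ∈ V → res z ≠ res ⟨c • (y - w), h⟩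

section Targets

variable {K F k Ft : Type*} [Field K] [Field F] [Algebra K F] [Field k] [Field Ft]
  [Algebra k Ft] {A : ValuationSubring K} {π : A →+* k}

/-- Target of L-RED: a degree-zero divisor killed by `m` (prime to the residue characteristic)
in the class group whose reduction is principal is principal. -/
def NoTorsionInKernel (S : RedSetup (F := F) (Ft := Ft) A π) : Prop :=
  ∀ m : ℕ, (m : k) ≠ 0 → ∀ D : Divisor K F, Divisor.degree D = 0 →
    m • D ∈ Divisor.principal (K := K) (F := F) →
    Finsupp.mapDomain S.r D ∈ Divisor.principal (K := k) (F := Ft) →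
    D ∈ Divisor.principal (K := K) (F := F)

/-- The valuation ring `A` has rank one (archimedean value group). -/
def IsRankOne (A : ValuationSubring K) : Prop :=
  ∀ a : A, ¬ IsUnit a → ∀ b : A, b ≠ 0 → ∃ n : ℕ, b ∣ a ^ n

/-- Exact shape of the main theorem of L-RED (to be proved in `Red/Main.lean`). -/
def MainStatement (S : RedSetup (F := F) (Ft := Ft) A π) : Prop :=
  IsAlgClosed K → IsAlgClosed k → IsRankOne A → RiemannPkg K F → RiemannPkg k Ft →
    genusFF k Ft = genusFF K F → NoTorsionInKernel S

end Targets

section Modular

open ModularCurve

set_option synthInstance.maxHeartbeats 400000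

/-- Exact shape of the deliverable of L-VAL for S18: every place reduction as in the
hypothesis of S18 extends to a `RedSetup`. -/
def ValDeliverable (N : ℕ) [NeZero N] (A : ValuationSubring (AlgebraicClosure ℚ)) : Prop :=
  ∀ r : Place (AlgebraicClosure ℚ) (modularFunctionFieldBar N) →
      Place (IsLocalRing.ResidueField A) (modularFunctionFieldFullC (IsLocalRing.ResidueField A) N),
    IsPlaceReductionModL A N r →
    ∃ S : RedSetup (K := AlgebraicClosure ℚ) (F := modularFunctionFieldBar N)
        (k := IsLocalRing.ResidueField A)
        (Ft := modularFunctionFieldFullC (IsLocalRing.ResidueField A) N)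
        A (IsLocalRing.residue A), S.r = r

/-- Exact shape of the deliverable of L-GEN for S18 (Igusa genus preservation). -/
def GenDeliverable (N : ℕ) [NeZero N] (A : ValuationSubring (AlgebraicClosure ℚ)) : Prop :=
  ModularCurve.ReductionInputsModL A N →
    genusFF (IsLocalRing.ResidueField A)
        (modularFunctionFieldFullC (IsLocalRing.ResidueField A) N) =
      genusFF (AlgebraicClosure ℚ) (modularFunctionFieldBar N)

end Modular

end Fermat.Agent.Red
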