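import Mathlib
import Fermat.Agent.Red.Basic

/-!
# Program L (S18), L-RED, node R0: reduction of lattices

* `RedSetup.mem_of_sum_smul_mem` : residue-independent elements of `O` are valuation-independent.
* `RedSetup.linearIndependent_of_resF` : residue-independent ⇒ `K`-linearly independent.
* `RedSetup.resSpace` : the `k`-space of residues of `V ∩ O`, and
  `RedSetup.finrank_resSpace : finrank k (resSpace V) = finrank K V` (uses `approx`).
* `RedSetup.exists_reducedBasis` : reduced bases.
-/

set_option autoImplicit false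

namespace Fermat.Agent.Red

open AlgebraicCurve Module

variable {K F k Ft : Type*} [Field K] [Field F] [Algebra K F] [Field k] [Field Ft]
  [Algebra k Ft] {A : ValuationSubring K} {π : A →+* k}

namespace RedSetup

variable (S : RedSetup (F := F) (Ft := Ft) A π)

/-- Residue of an `A`-linear combination of elements of `O`. -/
theorem resF_sum_smul {ι : Type*} [Fintype ι] (x : ι → F) (hx : ∀ i, x i ∈ S.O)
    (b : ι → K) (hb : ∀ i, b i ∈ A) :
    (∑ i, b i • x i) ∈ S.O ∧
      S.resF (∑ i, b i • x i) = ∑ i, π ⟨b i, hb i⟩ • S.resF (x i) := by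
  refine ⟨S.O.sum_mem fun i _ => S.smul_mem (hb i) (hx i), ?_⟩
  rw [S.resF_sum Finset.univ _ fun i _ => S.smul_mem (hb i) (hx i)]
  exact Finset.sum_congr rfl fun i _ => S.resF_smul (hb i) (hx i)

/-- Normalisation of a coefficient vector by a coefficient of maximal valuation. -/
theorem exists_normalise {ι : Type*} [Fintype ι] (a : ι → K) (i₀ : ι) (h₀ : a i₀ ≠ 0) :
    ∃ j, a j ≠ 0 ∧ (∀ i, (a j)⁻¹ * a i ∈ A) ∧ A.valuation (a i₀) ≤ A.valuation (a j) := by
  obtain ⟨j, -, hj⟩ := Finset.exists_max_image Finset.univ (fun i => A.valuation (a i))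
    ⟨i₀, Finset.mem_univ _⟩
  have hj0 : a j ≠ 0 := by
    intro h
    have h1 := hj i₀ (Finset.mem_univ _)
    rw [h, map_zero] at h1
    exact h₀ ((map_eq_zero _).mp (le_antisymm h1 zero_le'))
  refine ⟨j, hj0, fun i => ?_, hj i₀ (Finset.mem_univ _)⟩
  rw [← A.valuation_le_one_iff, map_mul, map_inv₀]
  have hv : A.valuation (a j) ≠ 0 := (map_ne_zero _).mpr hj0
  rw [inv_mul_le_iff₀ (lt_of_le_of_ne zero_le' hv.symm), mul_one]
  exact hj i (Finset.mem_univ _)

/-- **(R0a)** Residue-independent elements of `O` are valuation-independent: a `K`-linear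
combination lies in `O` only if all coefficients lie in `A`. -/
theorem mem_of_sum_smul_mem {ι : Type*} [Fintype ι] (x : ι → F) (hx : ∀ i, x i ∈ S.O)
    (hind : LinearIndependent k fun i => S.resF (x i)) (a : ι → K)
    (h : ∑ i, a i • x i ∈ S.O) : ∀ i, a i ∈ A := by
  by_contra hcon
  push Not at hcon
  obtain ⟨i₀, hi₀⟩ := hcon
  have h₀ : a i₀ ≠ 0 := fun h => hi₀ (h ▸ A.zero_mem)
  obtain ⟨j, hj0, hb, hle⟩ := exists_normalise (A := A) a i₀ h₀
  have hjA : a j ∉ A := by
    rw [← A.valuation_le_one_iff, not_le]
    have : 1 < A.valuation (a i₀) := by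
      rw [← not_le, A.valuation_le_one_iff]; exact hi₀
    exact lt_of_lt_of_le this hle
  obtain ⟨hmem, hres⟩ := S.resF_sum_smul x hx (fun i => (a j)⁻¹ * a i) hb
  have hsum : ∑ i, ((a j)⁻¹ * a i) • x i = (a j)⁻¹ • ∑ i, a i • x i := by
    rw [Finset.smul_sum]
    exact Finset.sum_congr rfl fun i _ => by rw [mul_smul]
  have hzero : S.resF (∑ i, ((a j)⁻¹ * a i) • x i) = 0 := by
    rw [hsum]
    exact (S.resF_smul_eq_zero_of_not_mem hjA h).2
  rw [hres] at hzero
  have := Fintype.linearIndependent_iff.mp hind _ hzero j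
  have h1 : (⟨(a j)⁻¹ * a j, hb j⟩ : A) = 1 := by
    ext
    simp [inv_mul_cancel₀ hj0]
  rw [h1, map_one] at this
  exact one_ne_zero this

/-- **(R0a')** Residue-independent elements of `O` are `K`-linearly independent. -/
theorem linearIndependent_of_resF {ι : Type*} [Fintype ι] (x : ι → F) (hx : ∀ i, x i ∈ S.O)
    (hind : LinearIndependent k fun i => S.resF (x i)) : LinearIndependent K x := by
  rw [Fintype.linearIndependent_iff]
  intro a ha
  by_contra hcon
  push Not at hcon
  obtain ⟨i₀, hi₀⟩ := hcon
  obtain ⟨j, hj0, hb, -⟩ := exists_normalise (A := A) a i₀ hi₀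
  obtain ⟨-, hres⟩ := S.resF_sum_smul x hx (fun i => (a j)⁻¹ * a i) hb
  have hsum : ∑ i, ((a j)⁻¹ * a i) • x i = (a j)⁻¹ • ∑ i, a i • x i := by
    rw [Finset.smul_sum]
    exact Finset.sum_congr rfl fun i _ => by rw [mul_smul]
  rw [hsum, ha, smul_zero, S.resF_zero] at hres
  have := Fintype.linearIndependent_iff.mp hind _ hres.symm j
  have h1 : (⟨(a j)⁻¹ * a j, hb j⟩ : A) = 1 := by
    ext
    simp [inv_mul_cancel₀ hj0]
  rw [h1, map_one] at this
  exact one_ne_zero this

section ResSpace

variable (hπ : Function.Surjective π)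

/-- The `k`-space of residues of the elements of `V ∩ O`. -/
def resSpace (V : Submodule K F) : Submodule k Ft where
  carrier := {t | ∃ z ∈ V, z ∈ S.O ∧ S.resF z = t}
  zero_mem' := ⟨0, V.zero_mem, S.O.zero_mem, S.resF_zero⟩
  add_mem' := by
    rintro _ _ ⟨z, hz, hzO, rfl⟩ ⟨w, hw, hwO, rfl⟩
    exact ⟨z + w, V.add_mem hz hw, S.O.add_mem _ _ hzO hwO, S.resF_add hzO hwO⟩
  smul_mem' := by
    rintro c _ ⟨z, hz, hzO, rfl⟩
    obtain ⟨a, rfl⟩ := hπ c
    exact ⟨(a : K) • z, V.smul_mem _ hz, S.smul_mem a.2 hzO, S.resF_smul a.2 hzO⟩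

theorem mem_resSpace {V : Submodule K F} {t : Ft} :
    t ∈ S.resSpace hπ V ↔ ∃ z ∈ V, z ∈ S.O ∧ S.resF z = t := Iff.rfl

theorem resF_mem_resSpace {V : Submodule K F} {z : F} (hz : z ∈ V) (hzO : z ∈ S.O) :
    S.resF z ∈ S.resSpace hπ V := ⟨z, hz, hzO, rfl⟩

theorem resSpace_mono {V W : Submodule K F} (h : V ≤ W) :
    S.resSpace hπ V ≤ S.resSpace hπ W := by
  rintro _ ⟨z, hz, hzO, rfl⟩
  exact ⟨z, h hz, hzO, rfl⟩

/-- A `k`-independent family in `resSpace V` has at most `finrank K V` elements. -/
theorem card_le_finrank_of_linearIndependent_resSpace (V : Submodule K F)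
    [FiniteDimensional K V] {ι : Type*} [Fintype ι] (t : ι → Ft)
    (ht : ∀ i, t i ∈ S.resSpace hπ V) (hind : LinearIndependent k t) :
    Fintype.card ι ≤ finrank K V := by
  choose z hzV hzO hzt using ht
  have hind' : LinearIndependent k fun i => S.resF (z i) := by
    have : (fun i => S.resF (z i)) = t := funext hzt
    rw [this]; exact hind
  have hK := S.linearIndependent_of_resF z hzO hind'
  have hK' : LinearIndependent K fun i => (⟨z i, hzV i⟩ : V) := by
    apply LinearIndependent.of_comp V.subtype
    exact hK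
  exact hK'.fintype_card_le_finrank

theorem rank_resSpace_le (V : Submodule K F) [FiniteDimensional K V] :
    Module.rank k (S.resSpace hπ V) ≤ (finrank K V : Cardinal) := by
  apply rank_le
  intro s hs
  have h1 : LinearIndependent k fun i : s => ((i : S.resSpace hπ V) : Ft) := by
    have := hs.map' (S.resSpace hπ V).subtype (Submodule.ker_subtype _)
    exact this
  have := S.card_le_finrank_of_linearIndependent_resSpace hπ V
    (fun i : s => ((i : S.resSpace hπ V) : Ft)) (fun i => (i : S.resSpace hπ V).2) h1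
  simpa using this

instance finite_resSpace (V : Submodule K F) [FiniteDimensional K V] :
    Module.Finite k (S.resSpace hπ V) := by
  rw [← Module.rank_lt_aleph0_iff]
  exact lt_of_le_of_lt (S.rank_resSpace_le hπ V) (Cardinal.nat_lt_aleph0 _)

theorem finrank_resSpace_le (V : Submodule K F) [FiniteDimensional K V] :
    finrank k (S.resSpace hπ V) ≤ finrank K V := by
  have h := S.rank_resSpace_le hπ V
  haveI := S.finite_resSpace hπ V
  rw [← finrank_eq_rank] at h
  exact_mod_cast h


include hπ in
/-- **Reduced families.** Every `K`-independent family can be replaced by a family in `O`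
with `k`-independent residues and the same `K`-span (Gram–Schmidt with `approx`). -/
theorem exists_reduced_of_linearIndependent :
    ∀ (n : ℕ) (x : Fin n → F), LinearIndependent K x →
      ∃ z : Fin n → F, (∀ i, z i ∈ S.O) ∧ (LinearIndependent k fun i => S.resF (z i)) ∧
        Submodule.span K (Set.range z) = Submodule.span K (Set.range x) := by
  intro n
  induction n with
  | zero =>
    intro x _
    refine ⟨x, fun i => i.elim0, linearIndependent_empty_type, rfl⟩
  | succ n ih =>
    intro x hx
    have hxs : x = Fin.snoc (Fin.init x) (x (Fin.last n)) := (Fin.snoc_init_self x).symm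
    rw [hxs, linearIndependent_fin_snoc] at hx
    obtain ⟨hx', hy⟩ := hx
    obtain ⟨z', hz'O, hz'ind, hz'span⟩ := ih (Fin.init x) hx'
    set W := Submodule.span K (Set.range (Fin.init x)) with hW
    set y := x (Fin.last n) with hydef
    have hWfin : Module.Finite K W := Module.Finite.span_of_finite K (Set.finite_range _)
    obtain ⟨w, hw, c, hc, h, hne⟩ := S.approx W hWfin y hy
    refine ⟨Fin.snoc z' (c • (y - w)), ?_, ?_, ?_⟩
    · intro i
      refine Fin.lastCases ?_ (fun j => ?_) i
      · rw [Fin.snoc_last]; exact h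
      · rw [Fin.snoc_castSucc]; exact hz'O j
    · have hfun : (fun i => S.resF ((Fin.snoc z' (c • (y - w)) : Fin (n + 1) → F) i)) =
          Fin.snoc (fun j => S.resF (z' j)) (S.resF (c • (y - w))) := by
        funext i
        refine Fin.lastCases ?_ (fun j => ?_) i
        · simp only [Fin.snoc_last]
        · simp only [Fin.snoc_castSucc]
      rw [hfun, linearIndependent_fin_snoc]
      refine ⟨hz'ind, fun hmem => ?_⟩
      have hle : Submodule.span k (Set.range fun j => S.resF (z' j)) ≤ S.resSpace hπ W := by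
        rw [Submodule.span_le]
        rintro _ ⟨j, rfl⟩
        refine S.resF_mem_resSpace hπ ?_ (hz'O j)
        have hj : z' j ∈ Submodule.span K (Set.range z') := Submodule.subset_span ⟨j, rfl⟩
        rw [hz'span] at hj
        exact hj
      obtain ⟨z₀, hz₀W, hz₀O, hz₀⟩ := hle hmem
      apply hne ⟨z₀, hz₀O⟩ hz₀W
      rw [← S.resF_of_mem hz₀O, ← S.resF_of_mem h]
      exact hz₀
    · rw [hxs, Fin.range_snoc, Fin.range_snoc, Submodule.span_insert, Submodule.span_insert,
        hz'span]
      apply le_antisymm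
      · apply sup_le
        · rw [Submodule.span_singleton_le_iff_mem]
          have h1 : c • (y - w) = c • y - c • w := smul_sub c y w
          rw [h1]
          refine Submodule.sub_mem _ ?_ ?_
          · exact Submodule.mem_sup_left (Submodule.smul_mem _ _ (Submodule.mem_span_singleton_self y))
          · exact Submodule.mem_sup_right (Submodule.smul_mem _ _ hw)
        · exact le_sup_right
      · apply sup_le
        · rw [Submodule.span_singleton_le_iff_mem]
          have h1 : c⁻¹ • (c • (y - w)) + w = y := by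
            rw [smul_smul, inv_mul_cancel₀ hc, one_smul, sub_add_cancel]
          have h2 : c⁻¹ • (c • (y - w)) + w ∈
              (Submodule.span K {c • (y - w)}) ⊔ W := by
            refine Submodule.add_mem _ ?_ ?_
            · exact Submodule.mem_sup_left
                (Submodule.smul_mem _ _ (Submodule.mem_span_singleton_self _))
            · exact Submodule.mem_sup_right hw
          rwa [h1] at h2
        · exact le_sup_right

include hπ in
/-- **Reduced bases.** A finite-dimensional `K`-subspace `V` of `F` has a `K`-basis in `O`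
with `k`-independent residues. -/
theorem exists_reducedBasis (V : Submodule K F) [FiniteDimensional K V] :
    ∃ z : Fin (finrank K V) → F, (∀ i, z i ∈ V) ∧ (∀ i, z i ∈ S.O) ∧
      (LinearIndependent k fun i => S.resF (z i)) ∧ LinearIndependent K z ∧
      Submodule.span K (Set.range z) = V := by
  set b := Module.finBasis K V with hb
  have hx : LinearIndependent K fun i => ((b i : V) : F) :=
    b.linearIndependent.map' V.subtype (Submodule.ker_subtype V)
  have hspan : Submodule.span K (Set.range fun i => ((b i : V) : F)) = V := by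
    have h1 : (Set.range fun i => ((b i : V) : F)) = V.subtype '' Set.range b := by
      rw [← Set.range_comp]; rfl
    rw [h1, Submodule.span_image, b.span_eq, Submodule.map_top, Submodule.range_subtype]
  obtain ⟨z, hzO, hzind, hzspan⟩ :=
    S.exists_reduced_of_linearIndependent hπ _ (fun i => ((b i : V) : F)) hx
  rw [hspan] at hzspan
  refine ⟨z, fun i => ?_, hzO, hzind, S.linearIndependent_of_resF z hzO hzind, hzspan⟩
  rw [← hzspan]
  exact Submodule.subset_span ⟨i, rfl⟩

/-- **(R0b)** `dim_k res(V ∩ O) = dim_K V`. -/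
theorem finrank_resSpace (V : Submodule K F) [FiniteDimensional K V] :
    finrank k (S.resSpace hπ V) = finrank K V := by
  apply le_antisymm (S.finrank_resSpace_le hπ V)
  obtain ⟨z, hzV, hzO, hzind, -, -⟩ := S.exists_reducedBasis hπ V
  have h1 : LinearIndependent k fun i =>
      (⟨S.resF (z i), S.resF_mem_resSpace hπ (hzV i) (hzO i)⟩ : S.resSpace hπ V) := by
    apply LinearIndependent.of_comp (S.resSpace hπ V).subtype
    exact hzind
  haveI := S.finite_resSpace hπ V
  simpa using h1.fintype_card_le_finrank

/-- `V ∩ O` is the `A`-span of a reduced basis. -/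
theorem exists_coeff_of_mem {n : ℕ} (z : Fin n → F) (hzO : ∀ i, z i ∈ S.O)
    (hzind : LinearIndependent k fun i => S.resF (z i)) {y : F}
    (hy : y ∈ Submodule.span K (Set.range z)) (hyO : y ∈ S.O) :
    ∃ a : Fin n → K, (∀ i, a i ∈ A) ∧ y = ∑ i, a i • z i := by
  obtain ⟨a, ha⟩ := (Submodule.mem_span_range_iff_exists_fun K).mp hy
  refine ⟨a, S.mem_of_sum_smul_mem z hzO hzind a ?_, ha.symm⟩
  rw [ha]; exact hyO

end ResSpace

end RedSetup

end Fermat.Agent.Red
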