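import Mathlib
import Fermat.Agent.Red.LatticeReduction

/-!
# Program L (S18), L-RED, node R0 (second half): reduction of Riemann–Roch spaces

Interface (I8) of the blueprint:
* `RedSetup.resF_mem_riemannRochSpace` : `res (L(E) ∩ O) ⊆ L(r_* E)`;
* `RedSetup.finrank_riemannRochSpace_le` : `l(E) ≤ l~(r_* E)`;
* `RedSetup.genusFF_le` : `genusFF k Ft ≤ genusFF K F`;
* `RedSetup.resSpace_riemannRochSpace_eq` : under genus equality, `res (L(E) ∩ O) = L(r_* E)`
  in large degree.
-/

set_option autoImplicit false

namespace Fermat.Agent.Red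

open AlgebraicCurve Module

variable {K F k Ft : Type*} [Field K] [Field F] [Algebra K F] [Field k] [Field Ft]
  [Algebra k Ft] {A : ValuationSubring K} {π : A →+* k}

namespace RedSetup

variable (S : RedSetup (F := F) (Ft := Ft) A π)

/-- The reduction of divisors preserves degrees. -/
theorem degree_mapDomain (E : Divisor K F) :
    Divisor.degree (Finsupp.mapDomain S.r E) = Divisor.degree E := by
  induction E using Finsupp.induction with
  | zero => simp
  | single_add P n D _ _ ih =>
    rw [Finsupp.mapDomain_add, map_add, map_add, ih, Finsupp.mapDomain_single,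
      Divisor.degree_single, Divisor.degree_single, S.deg_r]

/-- Conservation, in `resF` form: if `y ∈ O` has nonzero residue and `D = div y` then
`r_* D = div (res y)`. -/
theorem mapDomain_div_apply {y : F} (hy : S.resF y ≠ 0) (D : Divisor K F)
    (hD : ∀ P, D P = P.ord y) (Q : Place k Ft) :
    Finsupp.mapDomain S.r D Q = Q.ord (S.resF y) := by
  have hyO := S.mem_of_resF_ne_zero hy
  have h := S.conservation ⟨y, hyO⟩ (by rwa [← S.resF_of_mem hyO]) D hD Q
  rwa [← S.resF_of_mem hyO] at h

/-- **(R0c)** The residue of an element of `L(E) ∩ O` lies in `L(r_* E)`. -/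
theorem resF_mem_riemannRochSpace (hF : RiemannPkg K F) (E : Divisor K F) {y : F}
    (hy : y ∈ riemannRochSpace E) :
    S.resF y ∈ riemannRochSpace (Finsupp.mapDomain S.r E) := by
  rw [mem_riemannRochSpace_iff]
  intro Q
  by_cases h0 : S.resF y = 0
  · exact Or.inl h0
  right
  have hy0 : y ≠ 0 := S.ne_zero_of_resF_ne_zero h0
  obtain ⟨D, hD, -⟩ := hF.principal.exists_divisor y hy0
  have hcons := S.mapDomain_div_apply h0 D hD Q
  have hnonneg : (0 : Divisor K F) ≤ D + E := by
    intro P
    rw [Finsupp.zero_apply, Finsupp.add_apply, hD P]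
    have := (mem_riemannRochSpace_iff.mp hy P).resolve_left hy0
    linarith
  have h1 := Finsupp.mapDomain_nonneg (f := S.r) hnonneg
  have h2 := h1 Q
  rw [Finsupp.zero_apply, Finsupp.mapDomain_add, Finsupp.add_apply, hcons] at h2
  linarith

section

variable (hπ : Function.Surjective π)

theorem resSpace_riemannRochSpace_le (hF : RiemannPkg K F) (E : Divisor K F) :
    S.resSpace hπ (riemannRochSpace E) ≤ riemannRochSpace (Finsupp.mapDomain S.r E) := by
  rintro _ ⟨z, hz, -, rfl⟩
  exact S.resF_mem_riemannRochSpace hF E hz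

include hπ in
/-- **(I8a)** `l(E) ≤ l~(r_* E)`. -/
theorem finrank_riemannRochSpace_le (hF : RiemannPkg K F) (hFt : RiemannPkg k Ft)
    (E : Divisor K F) :
    finrank K (riemannRochSpace E) ≤
      finrank k (riemannRochSpace (Finsupp.mapDomain S.r E)) := by
  haveI := hF.finite_L E
  haveI := hFt.finite_L (Finsupp.mapDomain S.r E)
  rw [← S.finrank_resSpace hπ (riemannRochSpace E)]
  exact Submodule.finrank_mono (S.resSpace_riemannRochSpace_le hπ hF E)

omit S in
/-- Divisors of arbitrary degree exist. -/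
theorem exists_divisor_degree (hF : RiemannPkg K F) (n : ℤ) :
    ∃ E : Divisor K F, Divisor.degree E = n := by
  haveI := hF.infinite_places
  obtain ⟨P⟩ : Nonempty (Place K F) := inferInstance
  refine ⟨Finsupp.single P n, ?_⟩
  rw [Divisor.degree_single, hF.deg_one P, Nat.cast_one, mul_one]

include S hπ in
/-- **(I8b)** semicontinuity of the genus: `g~ ≤ g`. -/
theorem genusFF_le (hF : RiemannPkg K F) (hFt : RiemannPkg k Ft) :
    genusFF k Ft ≤ genusFF K F := by
  obtain ⟨c, hc⟩ := hF.riemann_eq
  obtain ⟨c', hc'⟩ := hFt.riemann_eq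
  obtain ⟨E, hE⟩ := exists_divisor_degree hF (max c c')
  have h1 := hc E (by rw [hE]; exact le_max_left _ _)
  have h2 := hc' (Finsupp.mapDomain S.r E)
    (by rw [S.degree_mapDomain, hE]; exact le_max_right _ _)
  have h3 := S.finrank_riemannRochSpace_le hπ hF hFt E
  rw [S.degree_mapDomain] at h2
  have h4 : (finrank K (riemannRochSpace E) : ℤ) ≤
      (finrank k (riemannRochSpace (Finsupp.mapDomain S.r E)) : ℤ) := by exact_mod_cast h3
  rw [h1, h2] at h4
  have : (genusFF k Ft : ℤ) ≤ (genusFF K F : ℤ) := by linarith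
  exact_mod_cast this

/-- **(I8c)** Under genus equality, in large degree every element of `L(r_* E)` is the
residue of an element of `L(E) ∩ O`. -/
theorem exists_bound_resSpace_eq (hF : RiemannPkg K F) (hFt : RiemannPkg k Ft)
    (hg : genusFF k Ft = genusFF K F) :
    ∃ c : ℤ, ∀ E : Divisor K F, c ≤ Divisor.degree E →
      S.resSpace hπ (riemannRochSpace E) = riemannRochSpace (Finsupp.mapDomain S.r E) := by
  obtain ⟨c, hc⟩ := hF.riemann_eq
  obtain ⟨c', hc'⟩ := hFt.riemann_eq
  refine ⟨max c c', fun E hE => ?_⟩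
  haveI := hF.finite_L E
  haveI := hFt.finite_L (Finsupp.mapDomain S.r E)
  apply Submodule.eq_of_le_of_finrank_eq (S.resSpace_riemannRochSpace_le hπ hF E)
  rw [S.finrank_resSpace hπ]
  have h1 := hc E (le_trans (le_max_left _ _) hE)
  have h2 := hc' (Finsupp.mapDomain S.r E)
    (by rw [S.degree_mapDomain]; exact le_trans (le_max_right _ _) hE)
  rw [S.degree_mapDomain, hg] at h2
  have : (finrank K (riemannRochSpace E) : ℤ) =
      (finrank k (riemannRochSpace (Finsupp.mapDomain S.r E)) : ℤ) := by rw [h1, h2]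
  exact_mod_cast this

include hπ in
/-- Elementwise form of (I8c). -/
theorem exists_bound_lift (hF : RiemannPkg K F) (hFt : RiemannPkg k Ft)
    (hg : genusFF k Ft = genusFF K F) :
    ∃ c : ℤ, ∀ E : Divisor K F, c ≤ Divisor.degree E →
      ∀ t ∈ riemannRochSpace (Finsupp.mapDomain S.r E),
        ∃ y ∈ riemannRochSpace E, y ∈ S.O ∧ S.resF y = t := by
  obtain ⟨c, hc⟩ := S.exists_bound_resSpace_eq hπ hF hFt hg
  refine ⟨c, fun E hE t ht => ?_⟩
  rw [← hc E hE] at ht
  exact ht

end

end RedSetup

end Fermat.Agent.Red
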