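import Mathlib
import Fermat.Agent.Red.RRReduction

/-!
# Program L (S18), L-RED, node R1 (part 1): charts

* `regularOutside Z E` : functions `f` with `div f + E ≥ 0` outside the set of places `Z`.
* `regularRing Z` : the `K`-algebra of functions regular outside `Z`.
* `RedSetup.resF_mem_regularOutside` : reduction maps `O ∩ regularOutside Z E` into
  `regularOutside (r '' Z) (r_* E)`.
* `smul_mem_regularOutside_iff` : saturation with respect to constants.
* `RedSetup.exists_lift_regular` : under genus equality every function on the special fibre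
  regular outside `r(Z)` (`Z` finite nonempty) lifts to an element of `O` regular outside `Z`.
-/

set_option autoImplicit false

namespace Fermat.Agent.Red

open AlgebraicCurve Module WithZero

variable {K F k Ft : Type*} [Field K] [Field F] [Algebra K F] [Field k] [Field Ft]
  [Algebra k Ft] {A : ValuationSubring K} {π : A →+* k}

section Regular

/-- Functions `f` with `ord_P f ≥ -E P` at all places `P ∉ Z` (no condition on `Z`). -/
def regularOutside (Z : Set (Place K F)) (E : Divisor K F) : Submodule K F where
  carrier := {f | ∀ P : Place K F, P ∉ Z → P.adicValuation f ≤ exp (E P)}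
  zero_mem' := by
    intro P _
    simp
  add_mem' := by
    intro f g hf hg P hP
    exact (Valuation.map_add _ _ _).trans (max_le (hf P hP) (hg P hP))
  smul_mem' := by
    intro c f hf P hP
    show P.adicValuation (c • f) ≤ exp (E P)
    rw [Algebra.smul_def, map_mul]
    exact (mul_le_of_le_one_left' (P.adicValuation_algebraMap_le_one c)).trans (hf P hP)

theorem mem_regularOutside_iff {Z : Set (Place K F)} {E : Divisor K F} {f : F} :
    f ∈ regularOutside Z E ↔ ∀ P : Place K F, P ∉ Z → f = 0 ∨ -E P ≤ P.ord f := by
  show (∀ P : Place K F, P ∉ Z → P.adicValuation f ≤ exp (E P)) ↔ _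
  exact forall_congr' fun P => imp_congr_right fun _ => P.adicValuation_le_exp_iff

theorem mem_regularOutside_zero_iff {Z : Set (Place K F)} {f : F} :
    f ∈ regularOutside Z (0 : Divisor K F) ↔
      ∀ P : Place K F, P ∉ Z → P.adicValuation f ≤ 1 := by
  show (∀ P : Place K F, P ∉ Z → P.adicValuation f ≤ exp ((0 : Divisor K F) P)) ↔ _
  simp

theorem regularOutside_mono {Z Z' : Set (Place K F)} {E E' : Divisor K F} (hZ : Z ⊆ Z')
    (hE : E ≤ E') : regularOutside Z E ≤ regularOutside Z' E' := by
  intro f hf P hP
  exact (hf P fun h => hP (hZ h)).trans (exp_le_exp.mpr (Finsupp.le_def.mp hE P))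

theorem riemannRochSpace_le_regularOutside (Z : Set (Place K F)) (E : Divisor K F) :
    riemannRochSpace E ≤ regularOutside Z E := fun _ hf P _ => hf P

theorem regularOutside_empty (E : Divisor K F) :
    regularOutside (∅ : Set (Place K F)) E = riemannRochSpace E := by
  ext f
  exact ⟨fun h P => h P (Set.notMem_empty P), fun h P _ => h P⟩

/-- If `E` is supported in `Z` then `L(E)` consists of functions regular outside `Z`. -/
theorem riemannRochSpace_le_regularOutside_zero {Z : Set (Place K F)} {E : Divisor K F}
    (hE : ∀ P, P ∉ Z → E P = 0) :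
    riemannRochSpace E ≤ regularOutside Z (0 : Divisor K F) := by
  intro f hf P hP
  have := hf P
  rw [hE P hP] at this
  simpa using this

/-- The ring of functions regular outside `Z`. -/
def regularRing (Z : Set (Place K F)) : Subalgebra K F where
  carrier := {f | ∀ P : Place K F, P ∉ Z → P.adicValuation f ≤ 1}
  zero_mem' := by intro P _; simp
  one_mem' := by intro P _; simp
  add_mem' := by
    intro f g hf hg P hP
    exact (Valuation.map_add _ _ _).trans (max_le (hf P hP) (hg P hP))
  mul_mem' := by
    intro f g hf hg P hP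
    rw [map_mul]
    exact mul_le_one' (hf P hP) (hg P hP)
  algebraMap_mem' := by
    intro c P _
    exact P.adicValuation_algebraMap_le_one c

theorem mem_regularRing_iff {Z : Set (Place K F)} {f : F} :
    f ∈ regularRing Z ↔ ∀ P : Place K F, P ∉ Z → P.adicValuation f ≤ 1 := Iff.rfl

theorem mem_regularRing_iff_mem_regularOutside {Z : Set (Place K F)} {f : F} :
    f ∈ regularRing Z ↔ f ∈ regularOutside Z (0 : Divisor K F) :=
  mem_regularOutside_zero_iff.symm

theorem mem_regularRing_iff_ord {Z : Set (Place K F)} {f : F} :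
    f ∈ regularRing Z ↔ ∀ P : Place K F, P ∉ Z → f = 0 ∨ 0 ≤ P.ord f := by
  rw [mem_regularRing_iff_mem_regularOutside, mem_regularOutside_iff]
  simp

/-- Valuation of a nonzero constant at a place is `1`. -/
theorem adicValuation_algebraMap_eq_one (P : Place K F) {a : K} (ha : a ≠ 0) :
    P.adicValuation (algebraMap K F a) = 1 := by
  apply le_antisymm (P.adicValuation_algebraMap_le_one a)
  have h1 := P.adicValuation_algebraMap_le_one a⁻¹
  rw [map_inv₀, map_inv₀] at h1
  have hne : P.adicValuation (algebraMap K F a) ≠ 0 :=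
    (map_ne_zero _).mpr ((map_ne_zero _).mpr ha)
  rwa [inv_le_one₀ (lt_of_le_of_ne zero_le' hne.symm)] at h1

/-- **Saturation**: membership in `regularOutside Z E` is insensitive to nonzero constants. -/
theorem smul_mem_regularOutside_iff {Z : Set (Place K F)} {E : Divisor K F} {a : K}
    (ha : a ≠ 0) {f : F} : a • f ∈ regularOutside Z E ↔ f ∈ regularOutside Z E := by
  constructor
  · intro h P hP
    have := h P hP
    rwa [Algebra.smul_def, map_mul, adicValuation_algebraMap_eq_one P ha, one_mul] at this
  · exact fun h => Submodule.smul_mem _ a h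

theorem smul_mem_regularRing_iff {Z : Set (Place K F)} {a : K} (ha : a ≠ 0) {f : F} :
    a • f ∈ regularRing Z ↔ f ∈ regularRing Z := by
  rw [mem_regularRing_iff_mem_regularOutside, mem_regularRing_iff_mem_regularOutside,
    smul_mem_regularOutside_iff ha]

end Regular

section MapDomain

/-- Pointwise formula for `Finsupp.mapDomain`. -/
theorem mapDomain_apply_eq_sum {α β : Type*} (f : α → β) (x : α →₀ ℤ) (b : β) :
    Finsupp.mapDomain f x b =
      ∑ a ∈ x.support, (letI := Classical.propDecidable (f a = b); if f a = b then x a else 0) := by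
  classical
  rw [Finsupp.mapDomain, Finsupp.sum, Finsupp.finset_sum_apply]
  refine Finset.sum_congr rfl fun a _ => ?_
  rw [Finsupp.single_apply]

/-- `mapDomain f x b ≥ 0` as soon as `x a ≥ 0` for all `a` in the fibre over `b`. -/
theorem mapDomain_apply_nonneg {α β : Type*} (f : α → β) (x : α →₀ ℤ) (b : β)
    (h : ∀ a, f a = b → 0 ≤ x a) : 0 ≤ Finsupp.mapDomain f x b := by
  classical
  rw [mapDomain_apply_eq_sum]
  refine Finset.sum_nonneg fun a _ => ?_
  split_ifs with hab
  · exact h a hab
  · exact le_rfl

end MapDomain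

namespace RedSetup

variable (S : RedSetup (F := F) (Ft := Ft) A π)

/-- **(C1)** Reduction maps `O ∩ regularOutside Z E` into `regularOutside (r '' Z) (r_* E)`. -/
theorem resF_mem_regularOutside (hF : RiemannPkg K F) (Z : Set (Place K F)) (E : Divisor K F)
    {h : F} (hh : h ∈ regularOutside Z E) :
    S.resF h ∈ regularOutside (S.r '' Z) (Finsupp.mapDomain S.r E) := by
  rw [mem_regularOutside_iff]
  intro Q hQ
  by_cases h0 : S.resF h = 0
  · exact Or.inl h0
  right
  have hh0 : h ≠ 0 := S.ne_zero_of_resF_ne_zero h0
  obtain ⟨D, hD, -⟩ := hF.principal.exists_divisor h hh0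
  have hcons := S.mapDomain_div_apply h0 D hD Q
  have h1 : 0 ≤ Finsupp.mapDomain S.r (D + E) Q := by
    apply mapDomain_apply_nonneg
    intro P hPQ
    have hPZ : P ∉ Z := fun hP => hQ ⟨P, hP, hPQ⟩
    rw [Finsupp.add_apply, hD P]
    have := ((mem_regularOutside_iff.mp hh) P hPZ).resolve_left hh0
    linarith
  rw [Finsupp.mapDomain_add, Finsupp.add_apply, hcons] at h1
  linarith

theorem resF_mem_regularRing (hF : RiemannPkg K F) (Z : Set (Place K F)) {h : F}
    (hh : h ∈ regularRing Z) : S.resF h ∈ regularRing (S.r '' Z) := by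
  rw [mem_regularRing_iff_mem_regularOutside] at hh ⊢
  have := S.resF_mem_regularOutside hF Z 0 hh
  rwa [Finsupp.mapDomain_zero] at this

/-- The chart ring `B_Z = O ∩ regularRing Z`. -/
def chart (Z : Set (Place K F)) : Subring F := S.O.toSubring ⊓ (regularRing Z).toSubring

theorem mem_chart {Z : Set (Place K F)} {h : F} :
    h ∈ S.chart Z ↔ h ∈ S.O ∧ h ∈ regularRing Z := Iff.rfl

theorem chart_mono {Z Z' : Set (Place K F)} (hZ : Z ⊆ Z') : S.chart Z ≤ S.chart Z' := by
  intro h hh
  refine ⟨hh.1, fun P hP => hh.2 P fun hPZ => hP (hZ hPZ)⟩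

theorem algebraMap_mem_chart (Z : Set (Place K F)) {a : K} (ha : a ∈ A) :
    algebraMap K F a ∈ S.chart Z :=
  ⟨S.algebraMap_mem ha, (regularRing Z).algebraMap_mem a⟩

/-- **(C2)** Saturation of the chart rings: if `a ≠ 0` is a constant, `x ∈ O` and
`a • x ∈ B_Z` then `x ∈ B_Z`. -/
theorem mem_chart_of_smul_mem {Z : Set (Place K F)} {a : K} (ha : a ≠ 0) {x : F}
    (hx : x ∈ S.O) (hax : a • x ∈ S.chart Z) : x ∈ S.chart Z :=
  ⟨hx, (smul_mem_regularRing_iff ha).mp hax.2⟩

end RedSetup

end Fermat.Agent.Red
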