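import Mathlib
import Fermat.Agent.Red.Setup
import Fermat.Agent.X0.Alg.PlaceBasic

/-!
# Program L / L-RED (N1): consequences of `RiemannPkg K F`

All statements are for the Prelude objects (`Place.ord`, `Divisor`, `riemannRochSpace`).

* (a) `divOf K f` : the divisor of a function (zero for `f = 0`), its algebra, and
  `mem_riemannRochSpace_iff_divOf`.
* (b) `exists_const_of_forall_ord_nonneg` : a function without poles is constant.
* (c) `mem_principal_of_degree_eq_zero_of_ne_bot` : `deg D = 0` and `L(D) ≠ ⊥` imply `D` principal.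
* (d) `exists_mem_riemannRochSpace_ord_eq` (core), `exists_ord_eq_on_finset` : functions with
  prescribed orders on a finite set of places (weak approximation for orders).
* (e) `exists_localParameter` : a local parameter at `P` which is a unit at the other points of a
  given finite set.
* (f) `exists_poles_exactly` : a function whose poles are exactly a given nonempty finite set and
  which is a unit on another given finite set.
* (g) `exists_place_notMem` : a place outside a given finite set.
-/

set_option autoImplicit false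

namespace Fermat.Agent.Red

open AlgebraicCurve Fermat.Agent.X0

variable {K F : Type*} [Field K] [Field F] [Algebra K F]

/-! ### (a) the divisor of a function -/

section DivOf

open Classical in
variable (K) in
/-- The divisor of a function `f` (the zero divisor if `f = 0`). -/
noncomputable def divOf [HasPrincipalDivisors K F] (f : F) : Divisor K F :=
  if hf : f = 0 then 0 else Classical.choose (HasPrincipalDivisors.exists_divisor (K := K) f hf)

variable [HasPrincipalDivisors K F]

@[simp]
theorem divOf_zero : divOf K (0 : F) = 0 := by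
  rw [divOf, dif_pos rfl]

theorem divOf_apply (f : F) (P : Place K F) : divOf K f P = P.ord f := by
  by_cases hf : f = 0
  · subst hf
    rw [divOf_zero, Place.ord_zero, Finsupp.zero_apply]
  · rw [divOf, dif_neg hf]
    exact (Classical.choose_spec (HasPrincipalDivisors.exists_divisor (K := K) f hf)).1 P

theorem degree_divOf (f : F) : Divisor.degree (divOf K f) = 0 := by
  by_cases hf : f = 0
  · subst hf
    rw [divOf_zero, map_zero]
  · rw [divOf, dif_neg hf]
    exact (Classical.choose_spec (HasPrincipalDivisors.exists_divisor (K := K) f hf)).2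

theorem divOf_eq_of_forall {f : F} {D : Divisor K F} (h : ∀ P : Place K F, D P = P.ord f) :
    divOf K f = D := by
  ext P
  rw [divOf_apply, h]

@[simp]
theorem divOf_one : divOf K (1 : F) = 0 := by
  ext P
  rw [divOf_apply, Place.ord_one, Finsupp.zero_apply]

theorem divOf_mul {f g : F} (hf : f ≠ 0) (hg : g ≠ 0) :
    divOf K (f * g) = divOf K f + divOf K g := by
  ext P
  rw [Finsupp.add_apply, divOf_apply, divOf_apply, divOf_apply, P.ord_mul hf hg]

theorem divOf_inv (f : F) : divOf K f⁻¹ = -divOf K f := by
  ext P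
  rw [Finsupp.neg_apply, divOf_apply, divOf_apply, P.ord_inv]

theorem divOf_div {f g : F} (hf : f ≠ 0) (hg : g ≠ 0) :
    divOf K (f / g) = divOf K f - divOf K g := by
  rw [div_eq_mul_inv, divOf_mul hf (inv_ne_zero hg), divOf_inv, sub_eq_add_neg]

theorem divOf_pow (f : F) (n : ℕ) : divOf K (f ^ n) = n • divOf K f := by
  ext P
  rw [Finsupp.smul_apply, divOf_apply, divOf_apply, Place.ord_pow, nsmul_eq_mul]

theorem divOf_zpow (f : F) (n : ℤ) : divOf K (f ^ n) = n • divOf K f := by
  ext P
  rw [Finsupp.smul_apply, divOf_apply, divOf_apply, P.ord_zpow, smul_eq_mul]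

@[simp]
theorem divOf_algebraMap (a : K) : divOf K (algebraMap K F a) = 0 := by
  ext P
  rw [divOf_apply, Place.ord_algebraMap, Finsupp.zero_apply]

theorem divOf_algebraMap_mul (a : K) (ha : a ≠ 0) (f : F) :
    divOf K (algebraMap K F a * f) = divOf K f := by
  by_cases hf : f = 0
  · subst hf
    rw [mul_zero]
  · rw [divOf_mul ((map_ne_zero _).mpr ha) hf, divOf_algebraMap, zero_add]

theorem divOf_smul (a : K) (ha : a ≠ 0) (f : F) : divOf K (a • f) = divOf K f := by
  rw [Algebra.smul_def, divOf_algebraMap_mul a ha]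

theorem divOf_neg (f : F) : divOf K (-f) = divOf K f := by
  ext P
  rw [divOf_apply, divOf_apply, Place.ord_neg]

theorem divOf_mem_principal {f : F} (hf : f ≠ 0) :
    divOf K f ∈ Divisor.principal (K := K) (F := F) :=
  ⟨f, hf, fun P => divOf_apply f P⟩

theorem mem_principal_iff_exists_divOf {D : Divisor K F} :
    D ∈ Divisor.principal (K := K) (F := F) ↔ ∃ f : F, f ≠ 0 ∧ D = divOf K f := by
  constructor
  · rintro ⟨f, hf, h⟩
    exact ⟨f, hf, (divOf_eq_of_forall h).symm⟩
  · rintro ⟨f, hf, rfl⟩
    exact divOf_mem_principal hf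

/-- Principal divisors have degree zero. -/
theorem degree_eq_zero_of_mem_principal {D : Divisor K F}
    (hD : D ∈ Divisor.principal (K := K) (F := F)) : Divisor.degree D = 0 := by
  obtain ⟨f, -, rfl⟩ := mem_principal_iff_exists_divOf.mp hD
  exact degree_divOf f

theorem mem_riemannRochSpace_iff_divOf {D : Divisor K F} {f : F} :
    f ∈ riemannRochSpace D ↔ f = 0 ∨ 0 ≤ divOf K f + D := by
  rw [mem_riemannRochSpace_iff]
  constructor
  · intro h
    by_cases hf : f = 0
    · exact Or.inl hf
    · right
      intro P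
      rw [Finsupp.zero_apply, Finsupp.add_apply, divOf_apply]
      have := (h P).resolve_left hf
      linarith
  · rintro (rfl | h) P
    · exact Or.inl rfl
    · right
      have := h P
      rw [Finsupp.zero_apply, Finsupp.add_apply, divOf_apply] at this
      linarith

/-- The set of zeros and poles of a nonzero function is the support of its divisor. -/
theorem mem_support_divOf_iff {f : F} {P : Place K F} :
    P ∈ (divOf K f).support ↔ P.ord f ≠ 0 := by
  rw [Finsupp.mem_support_iff, divOf_apply]

end DivOf

/-! ### monotonicity of `L(D)` and degrees -/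

theorem riemannRochSpace_mono {D D' : Divisor K F} (h : D ≤ D') :
    riemannRochSpace D ≤ riemannRochSpace D' := by
  intro f hf
  rw [mem_riemannRochSpace_iff] at hf ⊢
  intro P
  rcases hf P with h0 | h1
  · exact Or.inl h0
  · right
    have := h P
    linarith

theorem one_mem_riemannRochSpace_zero : (1 : F) ∈ riemannRochSpace (0 : Divisor K F) := by
  rw [mem_riemannRochSpace_iff]
  intro P
  right
  rw [Place.ord_one, Finsupp.zero_apply, neg_zero]

/-- Degree of the push-forward of a divisor along a degree-preserving map of places. -/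
theorem degree_mapDomain_eq {k Ft : Type*} [Field k] [Field Ft] [Algebra k Ft]
    (r : Place K F → Place k Ft) (hr : ∀ P, (r P).deg = P.deg) (D : Divisor K F) :
    Divisor.degree (Finsupp.mapDomain r D) = Divisor.degree D := by
  induction D using Finsupp.induction with
  | zero => simp
  | single_add P n D _ _ ih =>
    rw [Finsupp.mapDomain_add, map_add, map_add, ih, Finsupp.mapDomain_single,
      Divisor.degree_single, Divisor.degree_single, hr]

section Pkg

variable (hF : RiemannPkg K F)
include hF

theorem degree_single_of_pkg (P : Place K F) (n : ℤ) :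
    Divisor.degree (Finsupp.single P n) = n := by
  rw [Divisor.degree_single, hF.deg_one, Nat.cast_one, mul_one]

/-- With all places of degree one, the degree of a divisor is the sum of its coefficients. -/
theorem degree_eq_sum (D : Divisor K F) : Divisor.degree D = D.sum fun _ n => n := by
  induction D using Finsupp.induction with
  | zero => simp
  | single_add P n D hP hn ih =>
    rw [map_add, ih, degree_single_of_pkg hF, Finsupp.sum_add_index' (fun _ => rfl)
      (fun _ _ _ => rfl), Finsupp.sum_single_index rfl]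

/-- A nonnegative divisor of degree zero is zero. -/
theorem eq_zero_of_nonneg_of_degree_eq_zero {E : Divisor K F} (hE : 0 ≤ E)
    (hdeg : Divisor.degree E = 0) : E = 0 := by
  rw [degree_eq_sum hF, Finsupp.sum] at hdeg
  ext P
  rw [Finsupp.zero_apply]
  by_cases hP : P ∈ E.support
  · have h0 : ∀ Q ∈ E.support, 0 ≤ E Q := fun Q _ => hE Q
    exact (Finset.sum_eq_zero_iff_of_nonneg h0).mp hdeg P hP
  · exact Finsupp.notMem_support_iff.mp hP

/-! ### (b) functions without poles are constant -/

theorem exists_const_of_forall_ord_nonneg {f : F} (h : ∀ P : Place K F, 0 ≤ P.ord f) :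
    ∃ a : K, f = algebraMap K F a := by
  apply hF.L_zero
  rw [mem_riemannRochSpace_iff]
  intro P
  right
  rw [Finsupp.zero_apply, neg_zero]
  exact h P

/-- A function without zeros is constant. -/
theorem exists_const_of_forall_ord_nonpos {f : F} (h : ∀ P : Place K F, P.ord f ≤ 0) :
    ∃ a : K, f = algebraMap K F a := by
  obtain ⟨a, ha⟩ := exists_const_of_forall_ord_nonneg hF (f := f⁻¹) (fun P => by
    rw [P.ord_inv]
    linarith [h P])
  refine ⟨a⁻¹, ?_⟩
  rw [map_inv₀, ← ha, inv_inv]

/-- A non-constant function has a pole. -/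
theorem exists_ord_neg_of_not_const {f : F} (h : ∀ a : K, f ≠ algebraMap K F a) :
    ∃ P : Place K F, P.ord f < 0 := by
  by_contra hcon
  push Not at hcon
  obtain ⟨a, ha⟩ := exists_const_of_forall_ord_nonneg hF hcon
  exact h a ha

/-- A non-constant function has a zero. -/
theorem exists_ord_pos_of_not_const {f : F} (h : ∀ a : K, f ≠ algebraMap K F a) :
    ∃ P : Place K F, 0 < P.ord f := by
  by_contra hcon
  push Not at hcon
  obtain ⟨a, ha⟩ := exists_const_of_forall_ord_nonpos hF hcon
  exact h a ha

/-! ### (c) degree zero and a nonzero section imply principal -/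

theorem exists_divOf_eq_neg_of_degree_eq_zero {D : Divisor K F} (hdeg : Divisor.degree D = 0)
    {s : F} (hs : s ≠ 0) (hsD : s ∈ riemannRochSpace D) :
    haveI := hF.principal
    divOf K s = -D := by
  haveI := hF.principal
  have h1 := (mem_riemannRochSpace_iff_divOf.mp hsD).resolve_left hs
  have h2 : Divisor.degree (divOf K s + D) = 0 := by
    rw [map_add, degree_divOf, hdeg, add_zero]
  have h3 := eq_zero_of_nonneg_of_degree_eq_zero hF h1 h2
  exact eq_neg_of_add_eq_zero_left h3

theorem mem_principal_of_degree_eq_zero_of_ne_bot {D : Divisor K F}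
    (hdeg : Divisor.degree D = 0) (hne : riemannRochSpace D ≠ ⊥) :
    D ∈ Divisor.principal (K := K) (F := F) := by
  haveI := hF.principal
  obtain ⟨s, hsD, hs⟩ := (Submodule.ne_bot_iff _).mp hne
  have h := exists_divOf_eq_neg_of_degree_eq_zero hF hdeg hs hsD
  have : D = divOf K s⁻¹ := by
    rw [divOf_inv, h, neg_neg]
  rw [this]
  exact divOf_mem_principal (inv_ne_zero hs)

/-- Converse: a principal divisor `D` has `L(D) ≠ ⊥`. -/
theorem riemannRochSpace_ne_bot_of_mem_principal {D : Divisor K F}
    (hD : D ∈ Divisor.principal (K := K) (F := F)) : riemannRochSpace D ≠ ⊥ := by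
  haveI := hF.principal
  obtain ⟨f, hf, rfl⟩ := mem_principal_iff_exists_divOf.mp hD
  rw [Submodule.ne_bot_iff]
  refine ⟨f⁻¹, ?_, inv_ne_zero hf⟩
  rw [mem_riemannRochSpace_iff_divOf]
  right
  rw [divOf_inv, neg_add_cancel]

/-! ### (g) places outside a finite set -/

theorem exists_place_notMem (Z : Finset (Place K F)) : ∃ P : Place K F, P ∉ Z :=
  haveI := hF.infinite_places
  Infinite.exists_notMem_finset Z

/-! ### (d) sections with exact prescribed orders on a finite set -/

/-- Removing a point from a divisor of large degree drops `l(D)` by exactly one. -/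
theorem finrank_riemannRochSpace_sub_single {c : ℤ}
    (hc : ∀ D : Divisor K F, c ≤ Divisor.degree D →
      (Module.finrank K (riemannRochSpace D) : ℤ) = Divisor.degree D + 1 - (genusFF K F : ℤ))
    (D : Divisor K F) (hD : c + 1 ≤ Divisor.degree D) (P : Place K F) :
    (Module.finrank K (riemannRochSpace (D - Finsupp.single P 1)) : ℤ) + 1 =
      Module.finrank K (riemannRochSpace D) := by
  have hdeg : Divisor.degree (D - Finsupp.single P 1) = Divisor.degree D - 1 := by
    rw [map_sub, degree_single_of_pkg hF]
  rw [hc D (by linarith), hc _ (by rw [hdeg]; linarith), hdeg]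
  ring

omit hF in
theorem sub_single_le (D : Divisor K F) (P : Place K F) : D - Finsupp.single P 1 ≤ D := by
  intro Q
  rw [Finsupp.sub_apply]
  have : (0 : ℤ) ≤ Finsupp.single P (1 : ℤ) Q := by
    classical
    rw [Finsupp.single_apply]
    split_ifs <;> norm_num
  linarith

/-- **Core lemma**: if `deg D` is large, there is a section of `L(D)` with exact order `-D P` at
every point `P` of a given finite set. -/
theorem exists_mem_riemannRochSpace_ord_eq [Infinite K] {c : ℤ}
    (hc : ∀ D : Divisor K F, c ≤ Divisor.degree D →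
      (Module.finrank K (riemannRochSpace D) : ℤ) = Divisor.degree D + 1 - (genusFF K F : ℤ))
    (D : Divisor K F) (hD : c + 1 ≤ Divisor.degree D) (Z : Finset (Place K F)) :
    ∃ g : F, g ≠ 0 ∧ g ∈ riemannRochSpace D ∧ ∀ P ∈ Z, P.ord g = -D P := by
  classical
  haveI := hF.infinite_places
  obtain ⟨P₀⟩ : Nonempty (Place K F) := inferInstance
  haveI := hF.finite_L D
  by_contra hcon
  push Not at hcon
  -- the subspaces `L(D - P)`, `P ∈ insert P₀ Z`, of `L(D)`
  let W : (↥(insert P₀ Z : Finset (Place K F))) → Submodule K (riemannRochSpace D) := fun P =>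
    Submodule.comap (riemannRochSpace D).subtype (riemannRochSpace (D - Finsupp.single P.1 1))
  have hW : ∀ P, W P ≠ ⊤ := by
    intro P htop
    have hle : riemannRochSpace D ≤ riemannRochSpace (D - Finsupp.single P.1 1) := by
      intro x hx
      have hmem : (⟨x, hx⟩ : riemannRochSpace D) ∈ W P := by
        rw [htop]
        exact Submodule.mem_top
      exact hmem
    have heq : riemannRochSpace (D - Finsupp.single P.1 1) = riemannRochSpace D :=
      le_antisymm (riemannRochSpace_mono (sub_single_le D P.1)) hle
    have h1 := finrank_riemannRochSpace_sub_single hF hc D hD P.1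
    rw [heq] at h1
    linarith
  have hcover : ⋃ P, (W P : Set (riemannRochSpace D)) = Set.univ := by
    rw [Set.eq_univ_iff_forall]
    rintro ⟨x, hx⟩
    rw [Set.mem_iUnion]
    by_cases hx0 : x = 0
    · refine ⟨⟨P₀, Finset.mem_insert_self _ _⟩, ?_⟩
      subst hx0
      exact (W _).zero_mem
    · obtain ⟨P, hPZ, hP⟩ := hcon x hx0 hx
      refine ⟨⟨P, Finset.mem_insert_of_mem hPZ⟩, ?_⟩
      show x ∈ riemannRochSpace (D - Finsupp.single P 1)
      rw [mem_riemannRochSpace_iff] at hx ⊢
      intro Q
      right
      have hQ := (hx Q).resolve_left hx0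
      rw [Finsupp.sub_apply, Finsupp.single_apply]
      split_ifs with hPQ
      · subst hPQ
        have : -D P ≠ P.ord x := fun h => hP h.symm
        omega
      · linarith
  obtain ⟨P, hP⟩ := Subspace.exists_eq_top_of_iUnion_eq_univ hcover
  exact hW P hP

/-- **Weak approximation for orders** (d): for a finite set `Z` of places, a place `P∞ ∉ Z` and
prescribed orders `n`, there is a function `g ≠ 0` with `ord_P g = n P` on `Z` whose only possible
pole outside `Z` is `P∞`. -/
theorem exists_ord_eq_on_finset' [Infinite K] (Z : Finset (Place K F)) (n : Place K F → ℤ)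
    {Pinf : Place K F} (hPinf : Pinf ∉ Z) :
    ∃ g : F, g ≠ 0 ∧ (∀ P ∈ Z, P.ord g = n P) ∧
      ∀ Q : Place K F, Q ∉ Z → Q ≠ Pinf → 0 ≤ Q.ord g := by
  classical
  obtain ⟨c, hc⟩ := hF.riemann_eq
  -- `D = M • P∞ - ∑_{P ∈ Z} n P • P`
  let E : Divisor K F := ∑ P ∈ Z, Finsupp.single P (n P)
  have hE : ∀ Q, E Q = if Q ∈ Z then n Q else 0 := by
    intro Q
    show (∑ P ∈ Z, Finsupp.single P (n P)) Q = _
    rw [Finsupp.finset_sum_apply]
    simp only [Finsupp.single_apply]
    rw [Finset.sum_ite_eq' Z Q]
  let M : ℤ := c + 1 + Divisor.degree E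
  let D : Divisor K F := Finsupp.single Pinf M - E
  have hDdeg : c + 1 ≤ Divisor.degree D := by
    show c + 1 ≤ Divisor.degree (Finsupp.single Pinf M - E)
    rw [map_sub, degree_single_of_pkg hF]
    show c + 1 ≤ c + 1 + Divisor.degree E - Divisor.degree E
    linarith
  obtain ⟨g, hg0, hgD, hgZ⟩ := exists_mem_riemannRochSpace_ord_eq hF hc D hDdeg Z
  refine ⟨g, hg0, fun P hP => ?_, fun Q hQZ hQinf => ?_⟩
  · rw [hgZ P hP]
    show -((Finsupp.single Pinf M - E) P) = n P
    rw [Finsupp.sub_apply, hE, if_pos hP, Finsupp.single_apply,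
      if_neg (fun h : Pinf = P => hPinf (h ▸ hP))]
    ring
  · have := ((mem_riemannRochSpace_iff.mp hgD) Q).resolve_left hg0
    have hDQ : D Q = 0 := by
      show (Finsupp.single Pinf M - E) Q = 0
      rw [Finsupp.sub_apply, hE, if_neg hQZ, Finsupp.single_apply, if_neg (Ne.symm hQinf), sub_zero]
    rw [hDQ] at this
    linarith

/-- **Weak approximation for orders** (d), short form. -/
theorem exists_ord_eq_on_finset [Infinite K] (Z : Finset (Place K F)) (n : Place K F → ℤ) :
    ∃ g : F, g ≠ 0 ∧ ∀ P ∈ Z, P.ord g = n P := by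
  obtain ⟨Pinf, hPinf⟩ := exists_place_notMem hF Z
  obtain ⟨g, hg0, hg, -⟩ := exists_ord_eq_on_finset' hF Z n hPinf
  exact ⟨g, hg0, hg⟩

/-! ### (e) local parameters -/

/-- (e) A local parameter at `P` which is a unit at every other point of a given finite set. -/
theorem exists_localParameter [Infinite K] (P : Place K F) (Z : Finset (Place K F)) :
    ∃ t : F, t ≠ 0 ∧ P.ord t = 1 ∧ ∀ Q ∈ Z, Q ≠ P → Q.ord t = 0 := by
  classical
  obtain ⟨t, ht0, ht⟩ := exists_ord_eq_on_finset hF (insert P Z) (fun Q => if Q = P then 1 else 0)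
  refine ⟨t, ht0, ?_, fun Q hQ hQP => ?_⟩
  · rw [ht P (Finset.mem_insert_self _ _), if_pos rfl]
  · rw [ht Q (Finset.mem_insert_of_mem hQ), if_neg hQP]

/-! ### (f) functions with poles exactly on a given finite set -/

/-- (f) For a nonempty finite set `Z'` and a finite set `Z` there is, for every large `M`,
a function with a pole of exact order `M` at each point of `Z'`, no other pole, and which is a unit
at every point of `Z \ Z'`. -/
theorem exists_poles_exactly [Infinite K] (Z' Z : Finset (Place K F)) (hZ' : Z'.Nonempty) :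
    ∃ M₀ : ℕ, ∀ M : ℕ, M₀ ≤ M → ∃ h : F, h ≠ 0 ∧ (∀ Q ∈ Z', Q.ord h = -(M : ℤ)) ∧
      (∀ Q : Place K F, Q ∉ Z' → 0 ≤ Q.ord h) ∧ ∀ P ∈ Z, P ∉ Z' → P.ord h = 0 := by
  classical
  obtain ⟨c, hc⟩ := hF.riemann_eq
  refine ⟨(c + 1).toNat, fun M hM => ?_⟩
  let D : Divisor K F := ∑ Q ∈ Z', Finsupp.single Q (M : ℤ)
  have hD : ∀ Q, D Q = if Q ∈ Z' then (M : ℤ) else 0 := by
    intro Q
    show (∑ P ∈ Z', Finsupp.single P (M : ℤ)) Q = _
    rw [Finsupp.finset_sum_apply]
    simp only [Finsupp.single_apply]
    rw [Finset.sum_ite_eq' Z' Q]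
  have hDdeg : Divisor.degree D = Z'.card * (M : ℤ) := by
    show Divisor.degree (∑ Q ∈ Z', Finsupp.single Q (M : ℤ)) = _
    rw [map_sum]
    simp only [degree_single_of_pkg hF]
    rw [Finset.sum_const, nsmul_eq_mul]
  have hcard : (1 : ℤ) ≤ Z'.card := by exact_mod_cast hZ'.card_pos
  have hM' : c + 1 ≤ (M : ℤ) := by
    have := Int.self_le_toNat (c + 1)
    have h2 : ((c + 1).toNat : ℤ) ≤ M := by exact_mod_cast hM
    linarith
  have hDdeg' : c + 1 ≤ Divisor.degree D := by
    rw [hDdeg]
    have hM0 : (0 : ℤ) ≤ M := Int.natCast_nonneg M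
    nlinarith
  obtain ⟨h, hh0, hhD, hhZ⟩ := exists_mem_riemannRochSpace_ord_eq hF hc D hDdeg' (Z' ∪ Z)
  refine ⟨h, hh0, fun Q hQ => ?_, fun Q hQ => ?_, fun P hP hPZ' => ?_⟩
  · rw [hhZ Q (Finset.mem_union_left _ hQ), hD, if_pos hQ]
  · have := ((mem_riemannRochSpace_iff.mp hhD) Q).resolve_left hh0
    rw [hD, if_neg hQ] at this
    linarith
  · rw [hhZ P (Finset.mem_union_right _ hP), hD, if_neg hPZ', neg_zero]

end Pkg

end Fermat.Agent.Red
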