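import Mathlib
import Fermat.Agent.Red.Charts
import Fermat.Agent.Red.FFLemmas

/-!
# Program L (S18), L-RED, node [V]: values of functions at places and their reduction

* `IsValueAt P h c` : the function `h` is regular at the place `P` and takes the value `c : K`
  there (`h ≡ c` modulo the maximal ideal of `P`); uniqueness, additivity, multiplicativity.
* `exists_isValueAt` : at a place of degree one every regular function has a value.
* `evalAt P h` : the value of `h` at `P` (junk value `0` if there is none).
* `RedSetup.adicValuation_resF_lt_one` : **key lemma** — a function of `B_Z = S.chart Z` vanishing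
  at `P` with `r P ∉ r(Z)` has a reduction vanishing at `r P` (conservation).
* `RedSetup.mem_of_isValueAt` : **(i) integrality of values** — `h ∈ B_Z`, `r P ∉ r(Z)` ⇒ `h(P) ∈ A`.
* `RedSetup.isValueAt_resF` : **(ii) compatibility** — `(res h)(r P) = π (h(P))`.
-/

set_option autoImplicit false

namespace Fermat.Agent.Red

open AlgebraicCurve Fermat.Agent.X0 WithZero

section Value

variable {K F : Type*} [Field K] [Field F] [Algebra K F]

/-- `h` is regular at `P` with value `c`: `h ≡ c` modulo the maximal ideal of `P`. -/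
def IsValueAt (P : Place K F) (h : F) (c : K) : Prop :=
  P.adicValuation (h - algebraMap K F c) < 1

theorem isValueAt_iff_adicValuation {P : Place K F} {h : F} {c : K} :
    IsValueAt P h c ↔ P.adicValuation (h - algebraMap K F c) < 1 := Iff.rfl

/-- Valuation `< 1` means zero or positive order. -/
theorem adicValuation_lt_one_iff (P : Place K F) {f : F} :
    P.adicValuation f < 1 ↔ f = 0 ∨ 0 < P.ord f := by
  rcases eq_or_ne f 0 with rfl | hf
  · simp
  · rw [AlgebraicCurve.Place.adicValuation_eq_exp_neg_ord P hf, ← exp_zero, exp_lt_exp,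
      or_iff_right hf]
    omega

theorem isValueAt_iff {P : Place K F} {h : F} {c : K} :
    IsValueAt P h c ↔ h = algebraMap K F c ∨ 0 < P.ord (h - algebraMap K F c) := by
  rw [IsValueAt, adicValuation_lt_one_iff, sub_eq_zero]

theorem isValueAt_algebraMap (P : Place K F) (c : K) : IsValueAt P (algebraMap K F c) c := by
  rw [IsValueAt, sub_self, map_zero]
  exact zero_lt_one

theorem isValueAt_zero (P : Place K F) : IsValueAt P (0 : F) 0 := by
  simpa using isValueAt_algebraMap P (0 : K)

theorem isValueAt_one (P : Place K F) : IsValueAt P (1 : F) 1 := by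
  simpa using isValueAt_algebraMap P (1 : K)

/-- The valuation of a nonzero constant is `1`. -/
theorem adicValuation_algebraMap_of_ne_zero (P : Place K F) {a : K} (ha : a ≠ 0) :
    P.adicValuation (algebraMap K F a) = 1 :=
  adicValuation_algebraMap_eq_one P ha

theorem IsValueAt.adicValuation_le_one {P : Place K F} {h : F} {c : K} (hc : IsValueAt P h c) :
    P.adicValuation h ≤ 1 := by
  have h1 : h = (h - algebraMap K F c) + algebraMap K F c := by ring
  rw [h1]
  exact (Valuation.map_add _ _ _).trans
    (max_le (le_of_lt hc) (P.adicValuation_algebraMap_le_one c))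

theorem IsValueAt.mem {P : Place K F} {h : F} {c : K} (hc : IsValueAt P h c) :
    h ∈ P.toValuationSubring := by
  rcases eq_or_ne h 0 with rfl | h0
  · exact zero_mem _
  apply Place.mem_of_ord_nonneg
  have := (P.adicValuation_le_one_iff).1 hc.adicValuation_le_one
  exact this.resolve_left h0

/-- The value at a place is unique. -/
theorem IsValueAt.unique {P : Place K F} {h : F} {c c' : K} (hc : IsValueAt P h c)
    (hc' : IsValueAt P h c') : c = c' := by
  by_contra hne
  have h1 : algebraMap K F (c - c') = (h - algebraMap K F c') - (h - algebraMap K F c) := by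
    rw [map_sub]; ring
  have h2 : P.adicValuation (algebraMap K F (c - c')) < 1 := by
    rw [h1]
    exact (Valuation.map_sub _ _ _).trans_lt (max_lt hc' hc)
  rw [adicValuation_algebraMap_of_ne_zero P (sub_ne_zero.mpr hne)] at h2
  exact lt_irrefl _ h2

theorem IsValueAt.add {P : Place K F} {h h' : F} {c c' : K} (hc : IsValueAt P h c)
    (hc' : IsValueAt P h' c') : IsValueAt P (h + h') (c + c') := by
  have h1 : h + h' - algebraMap K F (c + c') =
      (h - algebraMap K F c) + (h' - algebraMap K F c') := by
    rw [map_add]; ring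
  rw [IsValueAt, h1]
  exact (Valuation.map_add _ _ _).trans_lt (max_lt hc hc')

theorem IsValueAt.neg {P : Place K F} {h : F} {c : K} (hc : IsValueAt P h c) :
    IsValueAt P (-h) (-c) := by
  have h1 : -h - algebraMap K F (-c) = -(h - algebraMap K F c) := by
    rw [map_neg]; ring
  rw [IsValueAt, h1, Valuation.map_neg]
  exact hc

theorem IsValueAt.sub {P : Place K F} {h h' : F} {c c' : K} (hc : IsValueAt P h c)
    (hc' : IsValueAt P h' c') : IsValueAt P (h - h') (c - c') := by
  rw [sub_eq_add_neg, sub_eq_add_neg]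
  exact hc.add hc'.neg

theorem IsValueAt.mul {P : Place K F} {h h' : F} {c c' : K} (hc : IsValueAt P h c)
    (hc' : IsValueAt P h' c') : IsValueAt P (h * h') (c * c') := by
  have h1 : h * h' - algebraMap K F (c * c') =
      (h - algebraMap K F c) * h' + algebraMap K F c * (h' - algebraMap K F c') := by
    rw [map_mul]; ring
  rw [IsValueAt, h1]
  refine (Valuation.map_add _ _ _).trans_lt (max_lt ?_ ?_)
  · rw [map_mul]
    calc P.adicValuation (h - algebraMap K F c) * P.adicValuation h'
        ≤ P.adicValuation (h - algebraMap K F c) * 1 :=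
          mul_le_mul_right hc'.adicValuation_le_one _
      _ = P.adicValuation (h - algebraMap K F c) := mul_one _
      _ < 1 := hc
  · rw [map_mul]
    calc P.adicValuation (algebraMap K F c) * P.adicValuation (h' - algebraMap K F c')
        ≤ 1 * P.adicValuation (h' - algebraMap K F c') :=
          mul_le_mul_left (P.adicValuation_algebraMap_le_one c) _
      _ = P.adicValuation (h' - algebraMap K F c') := one_mul _
      _ < 1 := hc'

theorem IsValueAt.smul {P : Place K F} {h : F} {c : K} (a : K) (hc : IsValueAt P h c) :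
    IsValueAt P (a • h) (a * c) := by
  rw [Algebra.smul_def]
  exact (isValueAt_algebraMap P a).mul hc

theorem IsValueAt.pow {P : Place K F} {h : F} {c : K} (hc : IsValueAt P h c) (n : ℕ) :
    IsValueAt P (h ^ n) (c ^ n) := by
  induction n with
  | zero => simpa using isValueAt_one P
  | succ n ih => rw [pow_succ, pow_succ]; exact ih.mul hc

/-- `h` vanishes at `P` iff its valuation is `< 1`. -/
theorem isValueAt_zero_iff {P : Place K F} {h : F} :
    IsValueAt P h 0 ↔ P.adicValuation h < 1 := by
  rw [IsValueAt, map_zero, sub_zero]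

/-- A function regular at `P` with nonzero value is a unit at `P`. -/
theorem IsValueAt.adicValuation_eq_one {P : Place K F} {h : F} {c : K} (hc : IsValueAt P h c)
    (hc0 : c ≠ 0) : P.adicValuation h = 1 := by
  have h1 : h = (h - algebraMap K F c) + algebraMap K F c := by ring
  rw [h1, add_comm]
  rw [Valuation.map_add_eq_of_lt_left]
  · exact adicValuation_algebraMap_of_ne_zero P hc0
  · rw [adicValuation_algebraMap_of_ne_zero P hc0]
    exact hc

theorem IsValueAt.ord_eq_zero {P : Place K F} {h : F} {c : K} (hc : IsValueAt P h c)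
    (hc0 : c ≠ 0) : P.ord h = 0 := by
  rw [Place.ord, hc.adicValuation_eq_one hc0]
  simp

/-- At a place of degree one every function regular at the place has a value. -/
theorem exists_isValueAt (P : Place K F) (hdeg : P.deg = 1) {h : F}
    (hh : h ∈ P.toValuationSubring) : ∃ c : K, IsValueAt P h c := by
  have hfin : Module.finrank K P.ResidueField = 1 := hdeg
  have : FiniteDimensional K P.ResidueField :=
    Module.finite_of_finrank_pos (by rw [hfin]; exact Nat.one_pos)
  have hinj : Function.Injective (Algebra.linearMap K P.ResidueField) :=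
    (algebraMap K P.ResidueField).injective
  have hsurj : Function.Surjective (Algebra.linearMap K P.ResidueField) :=
    (LinearMap.injective_iff_surjective_of_finrank_eq_finrank
      (by rw [hfin, Module.finrank_self])).1 hinj
  obtain ⟨c, hc⟩ := hsurj (IsLocalRing.residue P.toValuationSubring ⟨h, hh⟩)
  refine ⟨c, ?_⟩
  have hmem : (⟨h, hh⟩ - algebraMap K P.toValuationSubring c : P.toValuationSubring) ∈
      IsLocalRing.maximalIdeal P.toValuationSubring := by
    rw [← IsLocalRing.residue_eq_zero_iff, map_sub, sub_eq_zero]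
    exact hc.symm
  have hnu : ¬ IsUnit (⟨h, hh⟩ - algebraMap K P.toValuationSubring c : P.toValuationSubring) :=
    (IsLocalRing.mem_maximalIdeal _).1 hmem
  have hle : P.adicValuation (h - algebraMap K F c) ≤ 1 :=
    P.adicValuation_le_one_of_mem
      (sub_mem hh (P.algebraMap_mem' c))
  refine lt_of_le_of_ne hle fun heq => hnu ?_
  exact (P.adicValuation_coe_eq_one_iff _).1 heq

open Classical in
/-- The value of `h` at `P` (junk value `0` if `h` has no value at `P`). -/
noncomputable def evalAt (P : Place K F) (h : F) : K :=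
  if hex : ∃ c : K, IsValueAt P h c then hex.choose else 0

theorem evalAt_eq_of_isValueAt {P : Place K F} {h : F} {c : K} (hc : IsValueAt P h c) :
    evalAt P h = c := by
  have hex : ∃ c : K, IsValueAt P h c := ⟨c, hc⟩
  rw [evalAt, dif_pos hex]
  exact hex.choose_spec.unique hc

theorem isValueAt_evalAt (P : Place K F) (hdeg : P.deg = 1) {h : F}
    (hh : h ∈ P.toValuationSubring) : IsValueAt P h (evalAt P h) := by
  obtain ⟨c, hc⟩ := exists_isValueAt P hdeg hh
  rwa [evalAt_eq_of_isValueAt hc]

theorem evalAt_algebraMap (P : Place K F) (c : K) : evalAt P (algebraMap K F c) = c :=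
  evalAt_eq_of_isValueAt (isValueAt_algebraMap P c)

theorem evalAt_add (P : Place K F) (hdeg : P.deg = 1) {h h' : F}
    (hh : h ∈ P.toValuationSubring) (hh' : h' ∈ P.toValuationSubring) :
    evalAt P (h + h') = evalAt P h + evalAt P h' :=
  evalAt_eq_of_isValueAt ((isValueAt_evalAt P hdeg hh).add (isValueAt_evalAt P hdeg hh'))

theorem evalAt_mul (P : Place K F) (hdeg : P.deg = 1) {h h' : F}
    (hh : h ∈ P.toValuationSubring) (hh' : h' ∈ P.toValuationSubring) :
    evalAt P (h * h') = evalAt P h * evalAt P h' :=
  evalAt_eq_of_isValueAt ((isValueAt_evalAt P hdeg hh).mul (isValueAt_evalAt P hdeg hh'))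

theorem evalAt_sub (P : Place K F) (hdeg : P.deg = 1) {h h' : F}
    (hh : h ∈ P.toValuationSubring) (hh' : h' ∈ P.toValuationSubring) :
    evalAt P (h - h') = evalAt P h - evalAt P h' :=
  evalAt_eq_of_isValueAt ((isValueAt_evalAt P hdeg hh).sub (isValueAt_evalAt P hdeg hh'))

theorem evalAt_smul (P : Place K F) (hdeg : P.deg = 1) (a : K) {h : F}
    (hh : h ∈ P.toValuationSubring) : evalAt P (a • h) = a * evalAt P h :=
  evalAt_eq_of_isValueAt ((isValueAt_evalAt P hdeg hh).smul a)

/-- `ord_P (h - h(P)) ≥ 1` (or `h` is the constant `h(P)`). -/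
theorem ord_sub_evalAt_pos (P : Place K F) (hdeg : P.deg = 1) {h : F}
    (hh : h ∈ P.toValuationSubring) :
    h = algebraMap K F (evalAt P h) ∨ 0 < P.ord (h - algebraMap K F (evalAt P h)) :=
  isValueAt_iff.1 (isValueAt_evalAt P hdeg hh)

/-- Functions regular outside `Z` are regular at every place not in `Z`. -/
theorem mem_toValuationSubring_of_mem_regularRing {Z : Set (Place K F)} {h : F}
    (hh : h ∈ regularRing Z) {P : Place K F} (hP : P ∉ Z) : h ∈ P.toValuationSubring := by
  rcases eq_or_ne h 0 with rfl | h0
  · exact zero_mem _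
  apply Place.mem_of_ord_nonneg
  exact ((mem_regularRing_iff_ord.1 hh) P hP).resolve_left h0

end Value

namespace RedSetup

variable {K F k Ft : Type*} [Field K] [Field F] [Algebra K F] [Field k] [Field Ft]
  [Algebra k Ft] {A : ValuationSubring K} {π : A →+* k}

variable (S : RedSetup (F := F) (Ft := Ft) A π)

/-- **Key lemma** (conservation): if `y ∈ B_Z` vanishes at a place `P` whose reduction is not in
`r(Z)`, then the reduction of `y` vanishes at `r P`. -/
theorem adicValuation_resF_lt_one (hF : RiemannPkg K F) {Z : Set (Place K F)} {y : F}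
    (hy : y ∈ S.chart Z) {P : Place K F} (hP : S.r P ∉ S.r '' Z)
    (hlt : P.adicValuation y < 1) : (S.r P).adicValuation (S.resF y) < 1 := by
  classical
  rw [adicValuation_lt_one_iff]
  by_cases h0 : S.resF y = 0
  · exact Or.inl h0
  right
  have hy0 : y ≠ 0 := S.ne_zero_of_resF_ne_zero h0
  have hordP : 0 < P.ord y := ((adicValuation_lt_one_iff P).1 hlt).resolve_left hy0
  obtain ⟨D, hD, -⟩ := hF.principal.exists_divisor y hy0
  rw [← S.mapDomain_div_apply h0 D hD (S.r P), mapDomain_apply_eq_sum]
  have hPsupp : P ∈ D.support := by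
    rw [Finsupp.mem_support_iff, hD P]
    omega
  have hnonneg : ∀ a ∈ D.support, (0 : ℤ) ≤ (if S.r a = S.r P then D a else 0) := by
    intro a _
    split_ifs with ha
    · have haZ : a ∉ Z := fun haZ => hP ⟨a, haZ, ha⟩
      rw [hD a]
      exact ((mem_regularRing_iff_ord.1 hy.2) a haZ).resolve_left hy0
    · exact le_rfl
  have hle := Finset.single_le_sum hnonneg hPsupp
  rw [if_pos rfl, hD P] at hle
  convert lt_of_lt_of_le hordP hle using 2

/-- **(i) Integrality of values.** If `h ∈ B_Z` and `r P ∉ r(Z)` then the value of `h` at `P` lies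
in the valuation ring `A`. -/
theorem mem_of_isValueAt (hF : RiemannPkg K F) {Z : Set (Place K F)} {h : F}
    (hh : h ∈ S.chart Z) {P : Place K F} (hP : S.r P ∉ S.r '' Z) {c : K}
    (hc : IsValueAt P h c) : c ∈ A := by
  by_contra hcA
  have hc0 : c ≠ 0 := fun h0 => hcA (h0 ▸ A.zero_mem)
  obtain ⟨hmem, hres⟩ := S.resF_smul_eq_zero_of_not_mem hcA hh.1
  -- `y = c⁻¹ h - 1`
  have hyO : c⁻¹ • h - 1 ∈ S.O := sub_mem hmem S.O.one_mem
  have hyR : c⁻¹ • h - 1 ∈ regularRing Z :=
    sub_mem ((regularRing Z).smul_mem hh.2 _) (one_mem _)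
  have hyres : S.resF (c⁻¹ • h - 1) = -1 := by
    rw [S.resF_sub hmem S.O.one_mem, hres, S.resF_one, zero_sub]
  have hyval : P.adicValuation (c⁻¹ • h - 1) < 1 := by
    have h1 : c⁻¹ • h - 1 = algebraMap K F c⁻¹ * (h - algebraMap K F c) := by
      rw [Algebra.smul_def, mul_sub, ← map_mul, inv_mul_cancel₀ hc0, map_one]
    rw [h1, map_mul, adicValuation_algebraMap_of_ne_zero P (inv_ne_zero hc0), one_mul]
    exact hc
  have := S.adicValuation_resF_lt_one hF ⟨hyO, hyR⟩ hP hyval
  rw [hyres, Valuation.map_neg, map_one] at this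
  exact lt_irrefl _ this

/-- **(ii) Compatibility of values with reduction.** If `h ∈ B_Z`, `r P ∉ r(Z)` and `h(P) = c`
(which lies in `A` by (i)) then `res h` is regular at `r P` with value `π c`. -/
theorem isValueAt_resF (hF : RiemannPkg K F) {Z : Set (Place K F)} {h : F}
    (hh : h ∈ S.chart Z) {P : Place K F} (hP : S.r P ∉ S.r '' Z) {c : K}
    (hc : IsValueAt P h c) (hcA : c ∈ A) :
    IsValueAt (S.r P) (S.resF h) (π ⟨c, hcA⟩) := by
  have hcchart : algebraMap K F c ∈ S.chart Z := S.algebraMap_mem_chart Z hcA
  have hy : h - algebraMap K F c ∈ S.chart Z := sub_mem hh hcchart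
  have := S.adicValuation_resF_lt_one hF hy hP hc
  rwa [S.resF_sub hh.1 hcchart.1, S.resF_algebraMap hcA] at this

/-- (ii), `evalAt` form. -/
theorem evalAt_resF (hF : RiemannPkg K F) {Z : Set (Place K F)} {h : F}
    (hh : h ∈ S.chart Z) {P : Place K F} (hP : S.r P ∉ S.r '' Z) :
    ∃ hcA : evalAt P h ∈ A, evalAt (S.r P) (S.resF h) = π ⟨evalAt P h, hcA⟩ := by
  have hPZ : P ∉ Z := fun hPZ => hP ⟨P, hPZ, rfl⟩
  have hc := isValueAt_evalAt P (hF.deg_one P) (mem_toValuationSubring_of_mem_regularRing hh.2 hPZ)
  have hcA := S.mem_of_isValueAt hF hh hP hc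
  exact ⟨hcA, evalAt_eq_of_isValueAt (S.isValueAt_resF hF hh hP hc hcA)⟩

/-- (i), `evalAt` form. -/
theorem evalAt_mem (hF : RiemannPkg K F) {Z : Set (Place K F)} {h : F}
    (hh : h ∈ S.chart Z) {P : Place K F} (hP : S.r P ∉ S.r '' Z) : evalAt P h ∈ A :=
  (S.evalAt_resF hF hh hP).1

end RedSetup

end Fermat.Agent.Red
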