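import Mathlib.RingTheory.Valuation.ValuationSubring
import Mathlib.LinearAlgebra.Basis.VectorSpace
import Mathlib.LinearAlgebra.Basis.Basic

/-!
# Track L-RED, step (R4), abstract core: approximate kernel vectors give exact kernel vectors

`A` a valuation subring of a field `K` which is not `K` (there is a nonzero non-unit `t`);
`W`, `V` finite-dimensional `K`-vector spaces with bases `bW`, `bV` (the `A`-lattices
`M = ⊕ A·bW i`, `N = ⊕ A·bV j`), `T : W → V` a `K`-linear map.

If for every nonzero non-unit `a ∈ A` there is a *primitive* vector `s ∈ M` (all coordinates in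
`A`, one of them a unit) with `T s ∈ a N`, then `T` has a primitive kernel vector
(`exists_primitive_kernel`).  No Smith normal form, no rank-one hypothesis.

In (R4): `W = L(D + E₀)`, `M = W ∩ O` (reduced basis), `T` = principal parts at `P₀`, so that
`ker T = L(D)`; the approximate sections come from (R3) + integral vanishing of `H¹` in large
degree.
-/

set_option autoImplicit false

namespace Fermat.Agent.Red

open Module

variable {K : Type*} [Field K] (A : ValuationSubring K)

/-- A finite family of elements of `K` has a common nonzero denominator in `A`. -/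
theorem exists_common_denominator {ι : Type*} (s : Finset ι) (c : ι → K) :
    ∃ δ : K, δ ∈ A ∧ δ ≠ 0 ∧ ∀ i ∈ s, δ * c i ∈ A := by
  classical
  induction s using Finset.induction_on with
  | empty => exact ⟨1, A.one_mem, one_ne_zero, fun i hi => by simp at hi⟩
  | insert i₀ s hi₀ ih =>
    obtain ⟨δ, hδ, hδ0, h⟩ := ih
    by_cases hc : c i₀ ∈ A
    · refine ⟨δ, hδ, hδ0, fun i hi => ?_⟩
      rcases Finset.mem_insert.mp hi with rfl | hi
      · exact mul_mem hδ hc
      · exact h i hi
    · have hinv : (c i₀)⁻¹ ∈ A := (A.mem_or_inv_mem (c i₀)).resolve_left hc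
      have hc0 : c i₀ ≠ 0 := fun h0 => hc (h0 ▸ A.zero_mem)
      refine ⟨δ * (c i₀)⁻¹, mul_mem hδ hinv, mul_ne_zero hδ0 (inv_ne_zero hc0),
        fun i hi => ?_⟩
      rcases Finset.mem_insert.mp hi with rfl | hi
      · rw [mul_assoc, inv_mul_cancel₀ hc0, mul_one]; exact hδ
      · have : δ * (c i₀)⁻¹ * c i = (c i₀)⁻¹ * (δ * c i) := by ring
        rw [this]
        exact mul_mem hinv (h i hi)

/-- A nonzero finitely supported family can be normalised: there is an index `i₀` with
`x i₀ ≠ 0` and `x i / x i₀ ∈ A` for all `i`. -/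
theorem exists_pivot {ι : Type*} [Fintype ι] (x : ι → K) (hx : ∃ i, x i ≠ 0) :
    ∃ i₀, x i₀ ≠ 0 ∧ ∀ i, x i / x i₀ ∈ A := by
  classical
  obtain ⟨j, hj⟩ := hx
  obtain ⟨i₀, -, hmax⟩ := Finset.exists_max_image (Finset.univ : Finset ι)
    (fun i => A.valuation (x i)) ⟨j, Finset.mem_univ j⟩
  have hi₀ : x i₀ ≠ 0 := by
    intro h0
    have := hmax j (Finset.mem_univ j)
    rw [h0, map_zero] at this
    exact hj ((map_eq_zero _).mp (le_antisymm this zero_le))
  refine ⟨i₀, hi₀, fun i => ?_⟩
  rw [← A.valuation_le_one_iff, map_div₀]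
  exact div_le_one_of_le₀ (hmax i (Finset.mem_univ i)) zero_le

variable {W V : Type*} [AddCommGroup W] [Module K W] [AddCommGroup V] [Module K V]
  {ι κ : Type*} [Fintype ι] [Fintype κ]

/-- **(R4), abstract core.** Approximate primitive kernel vectors modulo every nonzero non-unit
give an exact primitive kernel vector. -/
theorem exists_primitive_kernel (bW : Basis ι K W) (bV : Basis κ K V) (T : W →ₗ[K] V)
    {t : K} (ht : t ∈ A) (ht0 : t ≠ 0) (htu : t⁻¹ ∉ A)
    (happrox : ∀ a : K, a ∈ A → a ≠ 0 → a⁻¹ ∉ A →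
      ∃ s : W, (∀ i, bW.repr s i ∈ A) ∧ (∃ i, bW.repr s i ≠ 0 ∧ (bW.repr s i)⁻¹ ∈ A) ∧
        ∀ j, ∃ c ∈ A, bV.repr (T s) j = a * c) :
    ∃ s : W, T s = 0 ∧ (∀ i, bW.repr s i ∈ A) ∧ ∃ i, bW.repr s i = 1 := by
  classical
  by_cases hker : ∃ s₀ : W, s₀ ≠ 0 ∧ T s₀ = 0
  · -- normalise a nonzero kernel vector
    obtain ⟨s₀, hs₀, hT⟩ := hker
    have hx : ∃ i, bW.repr s₀ i ≠ 0 := by
      by_contra hall
      push Not at hall
      apply hs₀
      apply bW.repr.injective
      ext i
      rw [hall i, map_zero, Finsupp.zero_apply]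
    obtain ⟨i₀, hi₀, hdiv⟩ := exists_pivot A (fun i => bW.repr s₀ i) hx
    refine ⟨(bW.repr s₀ i₀)⁻¹ • s₀, by rw [map_smul, hT, smul_zero], fun i => ?_, i₀, ?_⟩
    · rw [map_smul, Finsupp.smul_apply, smul_eq_mul, mul_comm, ← div_eq_mul_inv]
      exact hdiv i
    · rw [map_smul, Finsupp.smul_apply, smul_eq_mul, inv_mul_cancel₀ hi₀]
  · -- otherwise `T` is injective, which contradicts the approximate kernel vectors
    exfalso
    have hinj : LinearMap.ker T = ⊥ := by
      rw [LinearMap.ker_eq_bot']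
      intro s hs
      by_contra hne
      exact hker ⟨s, hne, hs⟩
    obtain ⟨S, hS⟩ := LinearMap.exists_leftInverse_of_injective T hinj
    -- a common denominator for the matrix of `S`
    obtain ⟨δ, hδ, hδ0, hδc⟩ := exists_common_denominator A
      (Finset.univ : Finset (ι × κ)) (fun p => bW.repr (S (bV p.2)) p.1)
    have ha : δ * t ∈ A := mul_mem hδ ht
    have ha0 : δ * t ≠ 0 := mul_ne_zero hδ0 ht0
    have hau : (δ * t)⁻¹ ∉ A := by
      intro h
      apply htu
      have : t⁻¹ = δ * (δ * t)⁻¹ := by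
        rw [mul_inv, ← mul_assoc, mul_inv_cancel₀ hδ0, one_mul]
      rw [this]
      exact mul_mem hδ h
    obtain ⟨s, -, ⟨i, hi0, hiu⟩, hTs⟩ := happrox (δ * t) ha ha0 hau
    choose c hcA hc using hTs
    -- `s = S (T s)`, so the coordinates of `s` are divisible by `t`
    have hs : s = S (T s) := by
      have := congrArg (fun f : W →ₗ[K] W => f s) hS
      simpa using this.symm
    have hTs' : T s = ∑ j, (δ * t * c j) • bV j := by
      conv_lhs => rw [← bV.sum_repr (T s)]
      exact Finset.sum_congr rfl fun j _ => by rw [hc j]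
    have hcoord : bW.repr s i = t * ∑ j, c j * (δ * bW.repr (S (bV j)) i) := by
      conv_lhs => rw [hs, hTs']
      rw [map_sum, map_sum, Finsupp.coe_finsetSum, Finset.sum_apply, Finset.mul_sum]
      refine Finset.sum_congr rfl fun j _ => ?_
      rw [map_smul, map_smul, Finsupp.smul_apply, smul_eq_mul]
      ring
    have hsum : (∑ j, c j * (δ * bW.repr (S (bV j)) i)) ∈ A :=
      sum_mem fun j _ => mul_mem (hcA j) (hδc (i, j) (Finset.mem_univ _))
    apply htu
    have : t⁻¹ = (∑ j, c j * (δ * bW.repr (S (bV j)) i)) * (bW.repr s i)⁻¹ := by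
      rw [hcoord, mul_inv, ← mul_assoc, mul_comm _ t⁻¹, mul_assoc]
      have hne : (∑ j, c j * (δ * bW.repr (S (bV j)) i)) ≠ 0 := by
        intro h0
        rw [h0, mul_zero] at hcoord
        exact hi0 hcoord
      rw [mul_inv_cancel₀ hne, mul_one]
    rw [this]
    exact mul_mem hsum hiu

end Fermat.Agent.Red
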