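import Mathlib.Algebra.Ring.GeomSum
import Mathlib.RingTheory.Ideal.Quotient.Operations
import Mathlib.Algebra.Ring.Subring.Basic
import Mathlib.Tactic.LinearCombination
import Mathlib.Tactic.Ring

/-!
# Track L-RED, steps (R3) + (R4): the two-chart theorem (abstract commutative algebra)

Setting (two affine charts of an arithmetic curve over a discrete valuation ring, in pure algebra):
`R` a commutative ring (functions on the overlap `U₁ ∩ U₂`, integral at the Gauss valuation),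
`π ∈ R` a non-zero-divisor (the uniformiser), subrings `O ≤ B₁, B₂ ≤ R` (constants, functions on
`U₁`, on `U₂`), `π`-saturated in `R`, with `H⁰(special fibre, 𝒪) = O/π`
(`h0 : x₁ - x₂ ∈ π R → x₁ ∈ O + π B₁`).

A line bundle is given by a transition function `u ∈ R`.  If its `m`-th power is trivial
(`u ^ m * a₂ = a₁`, `aᵢ ∈ Bᵢ` with unit reduction), `m` is invertible modulo `π`, the bundle is
trivial on the special fibre (`u * b₂ ≡ b₁ mod π`), and `H¹ = R / (B₁ + u B₂)` has bounded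
`π`-power torsion, then the bundle has a global section `(s₁, s₂)`, `u * s₂ = s₁`, whose reduction
generates the special fibre.

* `URed B π b` : "`b` has unit reduction": `b * b' = 1 + π * w` with `b', w ∈ B`;
* `exists_approx` : (R3) the `π`-adic induction: `u * b₂ ≡ b₁ mod π ^ n` for every `n ≥ 1`;
* `exists_section_of_torsion` : (R3) + (R4), the two-chart theorem.
-/

set_option autoImplicit false

namespace Fermat.Agent.Red

variable {R : Type*} [CommRing R]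

/-- `b` has unit reduction modulo `π` in the subring `B`. -/
def URed (B : Subring R) (π b : R) : Prop :=
  ∃ b' ∈ B, ∃ w ∈ B, b * b' = 1 + π * w

namespace URed

variable {B : Subring R} {π : R}

theorem mul (hπ : π ∈ B) {b c : R} (hb : URed B π b) (hc : URed B π c) : URed B π (b * c) := by
  obtain ⟨b', hb', w, hw, h1⟩ := hb
  obtain ⟨c', hc', z, hz, h2⟩ := hc
  refine ⟨b' * c', B.mul_mem hb' hc', w + z + π * (w * z),
    B.add_mem (B.add_mem hw hz) (B.mul_mem hπ (B.mul_mem hw hz)), ?_⟩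
  linear_combination (1 + π * z) * h1 + (b * b') * h2

theorem one_add_mul {y : R} (hy : y ∈ B) : URed B π (1 + π * y) :=
  ⟨1, B.one_mem, y, hy, by ring⟩

theorem pow (hπ : π ∈ B) {b : R} (hb : URed B π b) (m : ℕ) : URed B π (b ^ m) := by
  induction m with
  | zero => exact ⟨1, B.one_mem, 0, B.zero_mem, by ring⟩
  | succ m ih => rw [pow_succ]; exact ih.mul hπ hb

/-- Unit reduction only depends on the class modulo `π B`. -/
theorem congr {b b₀ z : R} (hb : URed B π b) (hz : z ∈ B) (h : b₀ = b + π * z) :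
    URed B π b₀ := by
  obtain ⟨b', hb', w, hw, h1⟩ := hb
  refine ⟨b', hb', w + z * b', B.add_mem hw (B.mul_mem hz hb'), ?_⟩
  rw [h]
  linear_combination h1

/-- An element with unit reduction is invertible modulo every power of `π`. -/
theorem exists_inv_pow (hπ : π ∈ B) {b : R} (hb : URed B π b) (N : ℕ) :
    ∃ b'' ∈ B, ∃ z ∈ B, b * b'' = 1 + π ^ N * z := by
  obtain ⟨b', hb', w, hw, h1⟩ := hb
  have hx : -(π * w) ∈ B := B.neg_mem (B.mul_mem hπ hw)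
  have hsum : (∑ i ∈ Finset.range N, (-(π * w)) ^ i) ∈ B :=
    B.sum_mem fun i _ => B.pow_mem hx i
  refine ⟨b' * ∑ i ∈ Finset.range N, (-(π * w)) ^ i, B.mul_mem hb' hsum,
    -((-1) ^ N * w ^ N), B.neg_mem (B.mul_mem (B.pow_mem (B.neg_mem B.one_mem) N)
      (B.pow_mem hw N)), ?_⟩
  have hg := mul_neg_geom_sum (-(π * w)) N
  have e : b * (b' * ∑ i ∈ Finset.range N, (-(π * w)) ^ i) =
      (1 - -(π * w)) * ∑ i ∈ Finset.range N, (-(π * w)) ^ i := by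
    rw [← mul_assoc, h1]; ring
  rw [e, hg]
  have : (-(π * w)) ^ N = (-1) ^ N * (π ^ N * w ^ N) := by
    rw [neg_eq_neg_one_mul, mul_pow, mul_pow]
  rw [this]; ring

end URed

section Basic

variable (π : R)

/-- Cancelling a power of a non-zero-divisor. -/
theorem pow_mul_eq_zero (hnzd : ∀ x : R, π * x = 0 → x = 0) (n : ℕ) (x : R)
    (h : π ^ n * x = 0) : x = 0 := by
  induction n with
  | zero => simpa using h
  | succ n ih =>
    apply ih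
    apply hnzd
    rw [← mul_assoc, ← pow_succ']
    exact h

/-- Iterated saturation. -/
theorem pow_sat (B : Subring R) (hsat : ∀ x : R, π * x ∈ B → x ∈ B) (n : ℕ) (x : R)
    (h : π ^ n * x ∈ B) : x ∈ B := by
  induction n with
  | zero => simpa using h
  | succ n ih =>
    apply ih
    apply hsat
    rw [← mul_assoc, ← pow_succ']
    exact h

/-- `(1 + x) ^ m = 1 + m x` when `x ^ 2 = 0`. -/
theorem one_add_pow_of_sq_eq_zero {S : Type*} [CommRing S] (x : S) (hx : x ^ 2 = 0) (m : ℕ) :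
    (1 + x) ^ m = 1 + m * x := by
  induction m with
  | zero => simp
  | succ m ih =>
    rw [pow_succ, ih]
    push_cast
    linear_combination (m : S) * hx

end Basic

section Main

variable (π : R) (O B₁ B₂ : Subring R)

/-- `H⁰ = O/πⁿ` on the `n`-th thickening, by dévissage from the special fibre. -/
theorem h0_pow (hπO : π ∈ O)
    (hsat₂ : ∀ x : R, π * x ∈ B₂ → x ∈ B₂)
    (h0 : ∀ x₁ ∈ B₁, ∀ x₂ ∈ B₂, (∃ w : R, x₁ - x₂ = π * w) →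
      ∃ l ∈ O, ∃ y ∈ B₁, x₁ = l + π * y)
    (n : ℕ) (x₁ x₂ : R) (hx₁ : x₁ ∈ B₁) (hx₂ : x₂ ∈ B₂) (hO₂ : O ≤ B₂)
    (h : ∃ w : R, x₁ - x₂ = π ^ n * w) :
    ∃ l ∈ O, ∃ y₁ ∈ B₁, ∃ y₂ ∈ B₂, x₁ = l + π ^ n * y₁ ∧ x₂ = l + π ^ n * y₂ := by
  induction n with
  | zero =>
    exact ⟨0, O.zero_mem, x₁, hx₁, x₂, hx₂, by ring, by ring⟩
  | succ n ih =>
    obtain ⟨w, hw⟩ := h
    obtain ⟨l, hl, y₁, hy₁, y₂, hy₂, e₁, e₂⟩ := ih ⟨π * w, by rw [hw]; ring⟩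
    -- `y₁ - y₂ = π w`
    have hy : π ^ n * (y₁ - y₂ - π * w) = 0 := by
      linear_combination e₂ - e₁ + hw
    -- we do not assume `π` is a non-zero-divisor here: use `y₂' := y₁ - π w` instead of `y₂`
    have hy₂' : y₁ - π * w ∈ B₂ := by
      -- `π ^ n * (y₁ - π w) = x₂ - l ∈ B₂`
      apply pow_sat π B₂ hsat₂ n
      have : π ^ n * (y₁ - π * w) = x₂ - l := by linear_combination hw - e₁
      rw [this]
      exact B₂.sub_mem hx₂ (hO₂ hl)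
    obtain ⟨l', hl', z, hz, e⟩ := h0 y₁ hy₁ (y₁ - π * w) hy₂' ⟨w, by ring⟩
    have hz₂ : z - w ∈ B₂ := by
      apply hsat₂
      have : π * (z - w) = (y₁ - π * w) - l' := by linear_combination -e
      rw [this]
      exact B₂.sub_mem hy₂' (hO₂ hl')
    refine ⟨l + π ^ n * l', O.add_mem hl (O.mul_mem (O.pow_mem hπO n) hl'), z, hz, z - w, hz₂,
      ?_, ?_⟩
    · rw [e₁, e]; ring
    · have : x₂ = x₁ - π ^ (n + 1) * w := by linear_combination -hw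
      rw [this, e₁, e]; ring

variable {π O B₁ B₂}

/-- **(R3), one step of the `π`-adic induction.** -/
theorem approx_step (hπO : π ∈ O) (hO₁ : O ≤ B₁) (hO₂ : O ≤ B₂)
    (hnzd : ∀ x : R, π * x = 0 → x = 0)
    (hsat₂ : ∀ x : R, π * x ∈ B₂ → x ∈ B₂)
    (h0 : ∀ x₁ ∈ B₁, ∀ x₂ ∈ B₂, (∃ w : R, x₁ - x₂ = π * w) →
      ∃ l ∈ O, ∃ y ∈ B₁, x₁ = l + π * y)
    (hOk : ∀ l ∈ O, URed B₁ π l → ∃ μ ∈ O, ∃ ν ∈ O, l * μ = 1 + π * ν)
    (m : ℕ) (hm : ∃ μ ∈ O, ∃ ν ∈ O, (m : R) * μ = 1 + π * ν)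
    (u a₁ a₂ : R) (ha₁ : a₁ ∈ B₁) (ha₂ : a₂ ∈ B₂) (hua₁ : URed B₁ π a₁)
    (hma : u ^ m * a₂ = a₁)
    (n : ℕ) (hn : 1 ≤ n) (b₁ b₂ : R) (hb₁ : b₁ ∈ B₁) (hb₂ : b₂ ∈ B₂)
    (hub₁ : URed B₁ π b₁) (hub₂ : URed B₂ π b₂) (hb : ∃ w : R, u * b₂ - b₁ = π ^ n * w) :
    ∃ β₁ ∈ B₁, ∃ β₂ ∈ B₂, URed B₁ π β₁ ∧ URed B₂ π β₂ ∧
      ∃ w : R, u * β₂ - β₁ = π ^ (n + 1) * w := by
  have hπ₁ : π ∈ B₁ := hO₁ hπO
  have hπ₂ : π ∈ B₂ := hO₂ hπO
  obtain ⟨w, hw⟩ := hb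
  obtain ⟨b₁', hb₁', z₁, hz₁, hi₁⟩ := hub₁.exists_inv_pow hπ₁ (n + 1)
  obtain ⟨b₂', hb₂', z₂, hz₂, hi₂⟩ := hub₂.exists_inv_pow hπ₂ (n + 1)
  obtain ⟨μm, hμm, νm, hνm, hmm⟩ := hm
  -- the quotient ring modulo `π ^ (n + 1)`
  set I : Ideal R := Ideal.span {π ^ (n + 1)} with hI
  set q : R →+* R ⧸ I := Ideal.Quotient.mk I with hq
  have qπ : q π ^ (n + 1) = 0 := by
    rw [← map_pow]
    exact Ideal.Quotient.eq_zero_iff_mem.mpr (Ideal.subset_span rfl)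
  have qπ2 : (q π ^ n) ^ 2 = 0 := by
    have : (q π ^ n) ^ 2 = q π ^ (n + 1) * q π ^ (n - 1) := by
      rw [← pow_mul, ← pow_add]; congr 1; omega
    rw [this, qπ, zero_mul]
  have q1 : q b₁ * q b₁' = 1 := by
    rw [← map_mul, hi₁, map_add, map_one, map_mul, map_pow, qπ, zero_mul, add_zero]
  have q2 : q b₂ * q b₂' = 1 := by
    rw [← map_mul, hi₂, map_add, map_one, map_mul, map_pow, qπ, zero_mul, add_zero]
  have qUB : q u * q b₂ = q b₁ + q π ^ n * q w := by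
    have := congrArg q hw
    rw [map_sub, map_mul, map_mul, map_pow] at this
    linear_combination this
  -- `u b₁' = b₂' (1 + πⁿ c)` with `c := w b₁'`
  have E1 : q u * q b₁' = q b₂' * (1 + q π ^ n * (q w * q b₁')) := by
    linear_combination (q b₁' * q b₂') * qUB + q b₂' * q1 - q u * q b₁' * q2
  -- the `m`-th power relation
  have E2 : q a₁ * q b₁' ^ m = q a₂ * q b₂' ^ m * (1 + m * (q π ^ n * (q w * q b₁'))) := by
    have hx : (q π ^ n * (q w * q b₁')) ^ 2 = 0 := by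
      rw [mul_pow, qπ2, zero_mul]
    have hp := congrArg (fun t => t ^ m) E1
    simp only [mul_pow] at hp
    rw [one_add_pow_of_sq_eq_zero _ hx m] at hp
    have hma' := congrArg q hma
    rw [map_mul, map_pow] at hma'
    calc q a₁ * q b₁' ^ m = q a₂ * (q u ^ m * q b₁' ^ m) := by rw [← hma']; ring
      _ = q a₂ * q b₂' ^ m * (1 + m * (q π ^ n * (q w * q b₁'))) := by rw [hp]; ring
  -- back in `R`
  set α₁ : R := a₁ * b₁' ^ m with hα₁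
  set α₂ : R := a₂ * b₂' ^ m with hα₂
  have hα₁B : α₁ ∈ B₁ := B₁.mul_mem ha₁ (B₁.pow_mem hb₁' m)
  have hα₂B : α₂ ∈ B₂ := B₂.mul_mem ha₂ (B₂.pow_mem hb₂' m)
  have hub₁' : URed B₁ π b₁' :=
    ⟨b₁, hb₁, π ^ n * z₁, B₁.mul_mem (B₁.pow_mem hπ₁ n) hz₁, by
      rw [mul_comm b₁' b₁, hi₁]; ring⟩
  have hα₁U : URed B₁ π α₁ := hua₁.mul hπ₁ (hub₁'.pow hπ₁ m)
  obtain ⟨e, he⟩ : ∃ e : R, α₁ - α₂ - π ^ n * (m * (w * b₁') * α₂) = π ^ (n + 1) * e := by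
    have hmem : α₁ - α₂ - π ^ n * (m * (w * b₁') * α₂) ∈ I := by
      rw [← Ideal.Quotient.eq_zero_iff_mem]
      change q (α₁ - α₂ - π ^ n * (m * (w * b₁') * α₂)) = 0
      simp only [hα₁, hα₂, map_sub, map_mul, map_pow, map_natCast]
      linear_combination E2
    obtain ⟨e, he⟩ := Ideal.mem_span_singleton'.mp hmem
    exact ⟨e, by rw [← he]; ring⟩
  -- `H⁰` at level `n`
  obtain ⟨l, hl, d₁, hd₁, d₂, hd₂, e₁, e₂⟩ :=
    h0_pow π O B₁ B₂ hπO hsat₂ h0 n α₁ α₂ hα₁B hα₂B hO₂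
      ⟨m * (w * b₁') * α₂ + π * e, by linear_combination he⟩
  -- `l` has unit reduction, hence is invertible modulo `π` in `O`
  have hlU : URed B₁ π l := by
    refine hα₁U.congr (z := -(π ^ (n - 1) * d₁))
      (B₁.neg_mem (B₁.mul_mem (B₁.pow_mem hπ₁ _) hd₁)) ?_
    have : π ^ n = π * π ^ (n - 1) := by
      rw [← pow_succ']; congr 1; omega
    rw [e₁, this]; ring
  obtain ⟨μ, hμ, ν, hν, hlμ⟩ := hOk l hl hlU
  -- `d₁ - d₂ = m c α₂ + π e`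
  have hd : d₁ - d₂ - (m * (w * b₁') * α₂ + π * e) = 0 := by
    apply pow_mul_eq_zero π hnzd n
    linear_combination -e₁ + e₂ + he
  -- the corrected elements
  set κ : R := μ * μm with hκ
  have hκO : κ ∈ O := O.mul_mem hμ hμm
  have hπn : π ^ n = π * π ^ (n - 1) := by
    rw [← pow_succ']; congr 1; omega
  refine ⟨b₁ * (1 + π ^ n * (κ * d₁)), B₁.mul_mem hb₁ (B₁.add_mem B₁.one_mem
      (B₁.mul_mem (B₁.pow_mem hπ₁ n) (B₁.mul_mem (hO₁ hκO) hd₁))),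
    b₂ * (1 + π ^ n * (κ * d₂)), B₂.mul_mem hb₂ (B₂.add_mem B₂.one_mem
      (B₂.mul_mem (B₂.pow_mem hπ₂ n) (B₂.mul_mem (hO₂ hκO) hd₂))), ?_, ?_, ?_⟩
  · refine hub₁.mul hπ₁ ?_
    rw [hπn, mul_assoc]
    exact URed.one_add_mul (B₁.mul_mem (B₁.pow_mem hπ₁ _) (B₁.mul_mem (hO₁ hκO) hd₁))
  · refine hub₂.mul hπ₂ ?_
    rw [hπn, mul_assoc]
    exact URed.one_add_mul (B₂.mul_mem (B₂.pow_mem hπ₂ _) (B₂.mul_mem (hO₂ hκO) hd₂))
  · -- the congruence modulo `π ^ (n + 1)`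
    have hmem : u * (b₂ * (1 + π ^ n * (κ * d₂))) - b₁ * (1 + π ^ n * (κ * d₁)) ∈ I := by
      rw [← Ideal.Quotient.eq_zero_iff_mem]
      change q (u * (b₂ * (1 + π ^ n * (κ * d₂))) - b₁ * (1 + π ^ n * (κ * d₁))) = 0
      -- `πⁿ c = πⁿ κ (d₁ - d₂)` modulo `π ^ (n + 1)`
      have hc : q π ^ n * (q w * q b₁') = q π ^ n * (q κ * (q d₁ - q d₂)) := by
        have h1 : π ^ n * (w * b₁') - π ^ n * (κ * (d₁ - d₂)) ∈ I := by
          refine Ideal.mem_span_singleton'.mpr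
            ⟨-(w * b₁') * (νm + ν + π * νm * ν + κ * m * π ^ (n - 1) * d₂) - κ * e, ?_⟩
          have hα₂' : α₂ = l + π * π ^ (n - 1) * d₂ := by rw [e₂, hπn]
          rw [pow_succ]
          linear_combination (π ^ n * κ) * hd + (π ^ n * (w * b₁') * κ * m) * hα₂'
            + (π ^ n * (w * b₁') * μm * m) * hlμ + (π ^ n * (w * b₁') * (1 + π * ν)) * hmm
        have h2 := Ideal.Quotient.eq_zero_iff_mem.mpr h1
        change q (π ^ n * (w * b₁') - π ^ n * (κ * (d₁ - d₂))) = 0 at h2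
        simp only [map_sub, map_mul, map_pow] at h2
        linear_combination h2
      have E1' : q u * q b₁' = q b₂' * (1 + q π ^ n * (q κ * (q d₁ - q d₂))) := by
        rw [E1, hc]
      have E3 : q u * q b₂ = q b₁ * (1 + q π ^ n * (q κ * (q d₁ - q d₂))) := by
        linear_combination (q b₁ * q b₂) * E1' - q u * q b₂ * q1
          + q b₁ * (1 + q π ^ n * (q κ * (q d₁ - q d₂))) * q2
      simp only [map_sub, map_mul, map_add, map_one, map_pow]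
      linear_combination (1 + q π ^ n * (q κ * q d₂)) * E3
        + (q b₁ * q κ ^ 2 * (q d₁ - q d₂) * q d₂) * qπ2
    obtain ⟨e', he'⟩ := Ideal.mem_span_singleton'.mp hmem
    exact ⟨e', by rw [← he']; ring⟩

/-- **(R3): the `π`-adic induction.** The bundle is trivial modulo every power of `π`. -/
theorem exists_approx (hπO : π ∈ O) (hO₁ : O ≤ B₁) (hO₂ : O ≤ B₂)
    (hnzd : ∀ x : R, π * x = 0 → x = 0)
    (hsat₂ : ∀ x : R, π * x ∈ B₂ → x ∈ B₂)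
    (h0 : ∀ x₁ ∈ B₁, ∀ x₂ ∈ B₂, (∃ w : R, x₁ - x₂ = π * w) →
      ∃ l ∈ O, ∃ y ∈ B₁, x₁ = l + π * y)
    (hOk : ∀ l ∈ O, URed B₁ π l → ∃ μ ∈ O, ∃ ν ∈ O, l * μ = 1 + π * ν)
    (m : ℕ) (hm : ∃ μ ∈ O, ∃ ν ∈ O, (m : R) * μ = 1 + π * ν)
    (u a₁ a₂ : R) (ha₁ : a₁ ∈ B₁) (ha₂ : a₂ ∈ B₂) (hua₁ : URed B₁ π a₁)
    (hma : u ^ m * a₂ = a₁)
    (b₁ b₂ : R) (hb₁ : b₁ ∈ B₁) (hb₂ : b₂ ∈ B₂)
    (hub₁ : URed B₁ π b₁) (hub₂ : URed B₂ π b₂) (hb : ∃ w : R, u * b₂ - b₁ = π * w)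
    (n : ℕ) :
    ∃ β₁ ∈ B₁, ∃ β₂ ∈ B₂, URed B₁ π β₁ ∧ URed B₂ π β₂ ∧
      ∃ w : R, u * β₂ - β₁ = π ^ (n + 1) * w := by
  induction n with
  | zero =>
    obtain ⟨w, hw⟩ := hb
    exact ⟨b₁, hb₁, b₂, hb₂, hub₁, hub₂, w, by rw [hw]; ring⟩
  | succ n ih =>
    obtain ⟨β₁, hβ₁, β₂, hβ₂, hU₁, hU₂, hw⟩ := ih
    exact approx_step hπO hO₁ hO₂ hnzd hsat₂ h0 hOk m hm u a₁ a₂ ha₁ ha₂ hua₁ hma (n + 1)
      (Nat.le_add_left 1 n) β₁ β₂ hβ₁ hβ₂ hU₁ hU₂ hw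

/-- **The two-chart theorem ((R3) + (R4)).** An `m`-torsion line bundle (`m` invertible modulo
`π`) on a two-chart arithmetic curve which is trivial on the special fibre, with bounded
`π`-power torsion in `H¹`, has a global section with unit reduction on the first chart. -/
theorem exists_section_of_torsion (hπO : π ∈ O) (hO₁ : O ≤ B₁) (hO₂ : O ≤ B₂)
    (hnzd : ∀ x : R, π * x = 0 → x = 0)
    (hsat₂ : ∀ x : R, π * x ∈ B₂ → x ∈ B₂)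
    (h0 : ∀ x₁ ∈ B₁, ∀ x₂ ∈ B₂, (∃ w : R, x₁ - x₂ = π * w) →
      ∃ l ∈ O, ∃ y ∈ B₁, x₁ = l + π * y)
    (hOk : ∀ l ∈ O, URed B₁ π l → ∃ μ ∈ O, ∃ ν ∈ O, l * μ = 1 + π * ν)
    (m : ℕ) (hm : ∃ μ ∈ O, ∃ ν ∈ O, (m : R) * μ = 1 + π * ν)
    (u a₁ a₂ : R) (ha₁ : a₁ ∈ B₁) (ha₂ : a₂ ∈ B₂) (hua₁ : URed B₁ π a₁)
    (hma : u ^ m * a₂ = a₁)
    (b₁ b₂ : R) (hb₁ : b₁ ∈ B₁) (hb₂ : b₂ ∈ B₂)
    (hub₁ : URed B₁ π b₁) (hub₂ : URed B₂ π b₂) (hb : ∃ w : R, u * b₂ - b₁ = π * w)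
    (c : ℕ) (hc : ∀ (x : R) (n : ℕ), (∃ y₁ ∈ B₁, ∃ y₂ ∈ B₂, π ^ n * x = y₁ + u * y₂) →
      ∃ y₁ ∈ B₁, ∃ y₂ ∈ B₂, π ^ c * x = y₁ + u * y₂) :
    ∃ s₁ ∈ B₁, ∃ s₂ ∈ B₂, u * s₂ = s₁ ∧ URed B₁ π s₁ := by
  have hπ₁ : π ∈ B₁ := hO₁ hπO
  have hπ₂ : π ∈ B₂ := hO₂ hπO
  obtain ⟨β₁, hβ₁, β₂, hβ₂, hU₁, -, w, hw⟩ :=
    exists_approx hπO hO₁ hO₂ hnzd hsat₂ h0 hOk m hm u a₁ a₂ ha₁ ha₂ hua₁ hma b₁ b₂ hb₁ hb₂
      hub₁ hub₂ hb c
  obtain ⟨y₁, hy₁, y₂, hy₂, hy⟩ := hc w (c + 1)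
    ⟨-β₁, B₁.neg_mem hβ₁, β₂, hβ₂, by linear_combination -hw⟩
  refine ⟨β₁ + π * y₁, B₁.add_mem hβ₁ (B₁.mul_mem hπ₁ hy₁), β₂ - π * y₂,
    B₂.sub_mem hβ₂ (B₂.mul_mem hπ₂ hy₂), ?_, hU₁.congr hy₁ rfl⟩
  have : π ^ (c + 1) * w = π * (y₁ + u * y₂) := by rw [pow_succ', mul_assoc, hy]
  linear_combination hw + this

end Main

end Fermat.Agent.Red
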