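import Mathlib
import Fermat.Agent.Red.Charts
import Fermat.Agent.Red.TwoChart

/-!
# Program L (S18), L-RED, node [U]: unit reductions in the chart rings

Glue between the output of (R2) (elements of the chart rings `S.chart Z = O ∩ regularRing Z` whose
residues are units) and the hypotheses `URed B π b` of the abstract two-chart theorem
(`Red/TwoChart.lean`), for `B := S.chart Z` and `π := algebraMap K F a`, `a` a non-zero non-unit
of `A`.

* (U1) `RedSetup.exists_smul_of_resF_eq_zero` : a non-zero element of a chart ring with zero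
  residue is `a' • w` with `a'` a non-zero non-unit of `A` and `w` in the chart ring with non-zero
  residue.
* (U2) `RedSetup.eq_one_or_exists_smul_of_resF_mul_eq_one` : if `b b'` has residue `1` then
  `b b' = 1` or `b b' = 1 + a' • w`.
* (U3) `exists_common_modulus` : finitely many non-zero non-units of `A` are all multiples (in `A`)
  of one of them.
* `RedSetup.ured_of_eq_one_add_smul`, `RedSetup.exists_common_modulus_ured` : the `URed` forms,
  with one common modulus for finitely many elements of (possibly different) chart rings.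
* (U4) `RedSetup.exists_mul_eq_one_add_pow_smul` : units modulo `a` are units modulo `a ^ n`
  (geometric series).
-/

set_option autoImplicit false

namespace Fermat.Agent.Red

open AlgebraicCurve

variable {K F k Ft : Type*} [Field K] [Field F] [Algebra K F] [Field k] [Field Ft]
  [Algebra k Ft] {A : ValuationSubring K} {π : A →+* k}

/-- `a` is a non-zero non-unit of the valuation subring `A`. -/
def IsModulus (A : ValuationSubring K) (a : K) : Prop := a ∈ A ∧ a ≠ 0 ∧ a⁻¹ ∉ A

theorem IsModulus.mem {a : K} (h : IsModulus A a) : a ∈ A := h.1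

theorem IsModulus.ne_zero {a : K} (h : IsModulus A a) : a ≠ 0 := h.2.1

theorem IsModulus.inv_not_mem {a : K} (h : IsModulus A a) : a⁻¹ ∉ A := h.2.2

theorem isModulus_iff_valuation {a : K} :
    IsModulus A a ↔ a ≠ 0 ∧ A.valuation a < 1 := by
  constructor
  · rintro ⟨h1, h2, h3⟩
    refine ⟨h2, lt_of_le_of_ne ((A.valuation_le_one_iff a).2 h1) fun h => h3 ?_⟩
    rw [← A.valuation_le_one_iff, map_inv₀, h, inv_one]
  · rintro ⟨h2, h⟩
    refine ⟨(A.valuation_le_one_iff a).1 h.le, h2, fun h3 => ?_⟩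
    have h4 := (A.valuation_le_one_iff _).2 h3
    rw [map_inv₀] at h4
    have h0 : A.valuation a ≠ 0 := (A.valuation.ne_zero_iff).2 h2
    have h5 : 1 ≤ A.valuation a := by
      have := (inv_le_one₀ (zero_lt_iff.2 h0)).1 h4
      exact this
    exact absurd h (not_lt.2 h5)

theorem IsModulus.pow {a : K} (h : IsModulus A a) {n : ℕ} (hn : n ≠ 0) : IsModulus A (a ^ n) := by
  rw [isModulus_iff_valuation] at h ⊢
  refine ⟨pow_ne_zero _ h.1, ?_⟩
  rw [map_pow]
  exact pow_lt_one₀ zero_le h.2 hn

/-- **(U3) Common modulus.** Finitely many non-zero non-units of `A` are all multiples, in `A`, of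
one of them (the one of largest valuation). -/
theorem exists_common_modulus {ι : Type*} (s : Finset ι) (hs : s.Nonempty) (a' : ι → K)
    (ha' : ∀ j ∈ s, IsModulus A (a' j)) :
    ∃ j₀ ∈ s, ∀ j ∈ s, ∃ c : K, c ∈ A ∧ a' j = a' j₀ * c := by
  obtain ⟨j₀, hj₀, hmax⟩ := Finset.exists_max_image s (fun j => A.valuation (a' j)) hs
  refine ⟨j₀, hj₀, fun j hj => ⟨a' j / a' j₀, ?_, ?_⟩⟩
  · rw [← A.valuation_le_one_iff, map_div₀]
    exact div_le_one_of_le₀ (hmax j hj) zero_le
  · rw [mul_div_cancel₀ _ (ha' j₀ hj₀).ne_zero]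

/-- Variant of (U3): a common modulus `a` with explicit cofactors. -/
theorem exists_common_modulus' {ι : Type*} (s : Finset ι) (hs : s.Nonempty) (a' : ι → K)
    (ha' : ∀ j ∈ s, IsModulus A (a' j)) :
    ∃ a : K, IsModulus A a ∧ ∀ j ∈ s, ∃ c : K, c ∈ A ∧ a' j = a * c := by
  obtain ⟨j₀, hj₀, h⟩ := exists_common_modulus s hs a' ha'
  exact ⟨a' j₀, ha' j₀ hj₀, h⟩

namespace RedSetup

variable (S : RedSetup (F := F) (Ft := Ft) A π)

theorem smul_mem_chart {Z : Set (Place K F)} {a : K} (ha : a ∈ A) {w : F}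
    (hw : w ∈ S.chart Z) : a • w ∈ S.chart Z := by
  rw [Algebra.smul_def]
  exact (S.chart Z).mul_mem (S.algebraMap_mem_chart Z ha) hw

/-- **(U1)** A non-zero element of a chart ring with zero residue is a non-zero non-unit constant
times an element of the chart ring with non-zero residue. -/
theorem exists_smul_of_resF_eq_zero {Z : Set (Place K F)} {x : F} (hx : x ∈ S.chart Z)
    (hx0 : x ≠ 0) (hres : S.resF x = 0) :
    ∃ a' : K, IsModulus A a' ∧ ∃ w ∈ S.chart Z, x = a' • w ∧ S.resF w ≠ 0 := by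
  have hxO : x ∈ S.O := hx.1
  -- best approximation of `x` by the zero subspace
  obtain ⟨w₀, hw₀, c, hc0, hmem, hne⟩ :=
    S.approx ⊥ inferInstance x (by simpa using hx0)
  rw [Submodule.mem_bot] at hw₀
  subst hw₀
  have hres0 : S.resF (c • (x - 0)) ≠ 0 := by
    rw [S.resF_of_mem hmem]
    have := hne 0 (by simp)
    rw [map_zero] at this
    exact fun h => this h.symm
  rw [sub_zero] at hmem hres0
  have hres' : S.resF (c • x) ≠ 0 := hres0
  -- `c⁻¹ ∈ A`
  have hcinv : c⁻¹ ∈ A := by
    by_contra hnot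
    have := (S.resF_smul_eq_zero_of_not_mem hnot hxO).2
    rw [inv_inv] at this
    exact hres' this
  -- `c ∉ A`
  have hc : c ∉ A := by
    intro hcA
    apply hres'
    rw [S.resF_smul hcA hxO, hres, smul_zero]
  refine ⟨c⁻¹, ⟨hcinv, inv_ne_zero hc0, by rwa [inv_inv]⟩, c • x, ?_, ?_, hres'⟩
  · exact ⟨hmem, (smul_mem_regularRing_iff hc0).2 hx.2⟩
  · rw [smul_smul, inv_mul_cancel₀ hc0, one_smul]

/-- **(U2)** If the product of two elements of a chart ring has residue `1`, it is `1` or
`1 + a' • w` with `a'` a non-zero non-unit of `A` and `w` in the chart ring. -/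
theorem eq_one_or_exists_smul_of_resF_mul_eq_one {Z : Set (Place K F)} {b b' : F}
    (hb : b ∈ S.chart Z) (hb' : b' ∈ S.chart Z) (hres : S.resF (b * b') = 1) :
    b * b' = 1 ∨
      ∃ a' : K, IsModulus A a' ∧ ∃ w ∈ S.chart Z, b * b' = 1 + a' • w ∧ S.resF w ≠ 0 := by
  by_cases h1 : b * b' = 1
  · exact Or.inl h1
  right
  have hx : b * b' - 1 ∈ S.chart Z :=
    (S.chart Z).sub_mem ((S.chart Z).mul_mem hb hb') (S.chart Z).one_mem
  have hx0 : b * b' - 1 ≠ 0 := sub_ne_zero.2 h1
  have hr : S.resF (b * b' - 1) = 0 := by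
    rw [S.resF_sub (S.O.mul_mem _ _ hb.1 hb'.1) S.O.one_mem, hres, S.resF_one, sub_self]
  obtain ⟨a', ha', w, hw, hxw, hwres⟩ := S.exists_smul_of_resF_eq_zero hx hx0 hr
  exact ⟨a', ha', w, hw, by rw [← hxw]; ring, hwres⟩

/-- From `b b' = 1 + a' • w` and `a' = a c`, `c ∈ A`, to the `URed` hypothesis of the two-chart
theorem with modulus `a`. -/
theorem ured_of_eq_one_add_smul {Z : Set (Place K F)} {b b' w : F} {a a' c : K}
    (hb' : b' ∈ S.chart Z) (hw : w ∈ S.chart Z) (hc : c ∈ A) (hac : a' = a * c)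
    (h : b * b' = 1 + a' • w) : URed (S.chart Z) (algebraMap K F a) b := by
  refine ⟨b', hb', c • w, S.smul_mem_chart hc hw, ?_⟩
  rw [h, hac, mul_smul, Algebra.smul_def a]

/-- If `b b' = 1` then `b` has unit reduction for every modulus. -/
theorem ured_of_mul_eq_one {Z : Set (Place K F)} {b b' : F} (a : K)
    (hb' : b' ∈ S.chart Z) (h : b * b' = 1) : URed (S.chart Z) (algebraMap K F a) b :=
  ⟨b', hb', 0, (S.chart Z).zero_mem, by rw [h, mul_zero, add_zero]⟩

/-- Unit reduction passes to a modulus dividing the given one. -/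
theorem ured_of_ured_mul {Z : Set (Place K F)} {b : F} {a c : K} (hc : c ∈ A)
    (h : URed (S.chart Z) (algebraMap K F (a * c)) b) : URed (S.chart Z) (algebraMap K F a) b := by
  obtain ⟨b', hb', w, hw, hbw⟩ := h
  refine ⟨b', hb', c • w, S.smul_mem_chart hc hw, ?_⟩
  rw [hbw, map_mul, Algebra.smul_def]
  ring

/-- **(U2) + (U3), `URed` form.** Finitely many elements `b j` of chart rings `S.chart (Z j)`
whose residues are units (`resF (b j * b' j) = 1`) have unit reduction modulo one common non-zero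
non-unit `a` of `A`; moreover `a` divides (in `A`) any prescribed non-zero non-unit `a₀`. -/
theorem exists_common_modulus_ured {ι : Type*} (s : Finset ι) (Z : ι → Set (Place K F))
    (b b' : ι → F) {a₀ : K} (ha₀ : IsModulus A a₀)
    (hb : ∀ j ∈ s, b j ∈ S.chart (Z j)) (hb' : ∀ j ∈ s, b' j ∈ S.chart (Z j))
    (hres : ∀ j ∈ s, S.resF (b j * b' j) = 1) :
    ∃ a : K, IsModulus A a ∧ (∃ c : K, c ∈ A ∧ a₀ = a * c) ∧
      ∀ j ∈ s, URed (S.chart (Z j)) (algebraMap K F a) (b j) := by
  classical
  -- a modulus for each index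
  have hex : ∀ j ∈ s, ∃ a' : K, IsModulus A a' ∧
      URed (S.chart (Z j)) (algebraMap K F a') (b j) := by
    intro j hj
    rcases S.eq_one_or_exists_smul_of_resF_mul_eq_one (hb j hj) (hb' j hj) (hres j hj) with
      h1 | ⟨a', ha', w, hw, h, -⟩
    · exact ⟨a₀, ha₀, S.ured_of_mul_eq_one a₀ (hb' j hj) h1⟩
    · exact ⟨a', ha', S.ured_of_eq_one_add_smul (hb' j hj) hw A.one_mem (mul_one a').symm h⟩
  choose! a' ha' hured using hex
  -- the common modulus among `a₀` and the `a' j`
  let f : Option ι → K := fun o => o.elim a₀ a'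
  have hf : ∀ o ∈ insert none (s.image some), IsModulus A (f o) := by
    intro o ho
    rcases Finset.mem_insert.1 ho with rfl | ho
    · exact ha₀
    · obtain ⟨j, hj, rfl⟩ := Finset.mem_image.1 ho
      exact ha' j hj
  obtain ⟨a, ha, hdiv⟩ := exists_common_modulus' (insert none (s.image some))
    (Finset.insert_nonempty _ _) f hf
  refine ⟨a, ha, hdiv none (Finset.mem_insert_self _ _), fun j hj => ?_⟩
  obtain ⟨c, hc, hac⟩ := hdiv (some j)
    (Finset.mem_insert_of_mem (Finset.mem_image_of_mem _ hj))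
  have h := hured j hj
  have hac' : a' j = a * c := hac
  rw [hac'] at h
  exact S.ured_of_ured_mul hc h

/-- **(U4)** Units modulo `a` are units modulo `a ^ n` (geometric series). -/
theorem exists_mul_eq_one_add_pow_smul {Z : Set (Place K F)} {a : K} (ha : a ∈ A) {x w : F}
    (hw : w ∈ S.chart Z) (hx : x = 1 + a • w) (n : ℕ) :
    ∃ b'' ∈ S.chart Z, ∃ w'' ∈ S.chart Z, x * b'' = 1 + a ^ n • w'' := by
  have hπ : algebraMap K F a ∈ S.chart Z := S.algebraMap_mem_chart Z ha
  have h1 : URed (S.chart Z) (algebraMap K F a) x :=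
    ⟨1, (S.chart Z).one_mem, w, hw, by rw [mul_one, hx, Algebra.smul_def]⟩
  obtain ⟨b'', hb'', z, hz, h⟩ := h1.exists_inv_pow hπ n
  exact ⟨b'', hb'', z, hz, by rw [h, Algebra.smul_def, map_pow]⟩

end RedSetup

end Fermat.Agent.Red
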