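import Fermat.Agent.Red.NormalFormData
import Fermat.Agent.Red.LatticeKernel

/-!
# Track L-RED: the ending (from approximate sections to a section)

* `exists_bound_linearMap` : a `K`-linear map is bounded on a finite-dimensional subspace
  (with respect to the lattices cut out by `O`);
* `inf_ne_bot_of_forall_approx` : **two-lattice lemma**: if for every nonzero `a ∈ A` there are
  `h₀ ∈ W₀`, `h₁ ∈ W₁ ∩ O` with nonzero residue and `h₀ - h₁ ∈ a O`, then `W₀ ⊓ W₁ ≠ ⊥`;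
* `exists_lift_mod` : **lift lemma**: an approximate section `(β₁, β₂)` on the two charts,
  `g₂ β₂ ≡ β₁ mod a`, is congruent modulo `a` to an element of `L(D + E)` as soon as
  `res (L(D + E) ∩ O) = L~(r_* E)`;
* `mem_principal_of_forall_approx` : the conclusion `D ∈ principal`.
-/

set_option autoImplicit false

namespace Fermat.Agent.Red.Ending

open AlgebraicCurve Fermat.Agent.X0 Fermat.Agent.Red Module

variable {K F k Ft : Type*} [Field K] [Field F] [Algebra K F] [Field k] [Field Ft]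
  [Algebra k Ft] {A : ValuationSubring K} {π : A →+* k} (S : RedSetup (F := F) (Ft := Ft) A π)

/-- Every element of `F` can be scaled into `O` by a nonzero constant. -/
theorem exists_smul_mem_O (y : F) : ∃ c : K, c ≠ 0 ∧ c • y ∈ S.O := by
  rcases eq_or_ne y 0 with rfl | hy
  · exact ⟨1, one_ne_zero, by simp [S.O.zero_mem]⟩
  · obtain ⟨c, hc, h, -⟩ := NormalForm.exists_smul_mem S hy
    exact ⟨c, hc, h⟩

/-- **Boundedness** of a linear map on a finite-dimensional subspace. -/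
theorem exists_bound_linearMap (hπ : Function.Surjective π) (V : Submodule K F)
    [FiniteDimensional K V] (ψ : F →ₗ[K] F) :
    ∃ δ : K, δ ∈ A ∧ δ ≠ 0 ∧ ∀ y ∈ V, y ∈ S.O → δ • ψ y ∈ S.O := by
  classical
  obtain ⟨z, -, hzO, hzind, -, hzspan⟩ := S.exists_reducedBasis hπ V
  choose c hc0 hc using fun i => exists_smul_mem_O S (ψ (z i))
  obtain ⟨δ, hδ, hδ0, hδc⟩ := exists_common_denominator A
    (Finset.univ : Finset (Fin (finrank K V))) (fun i => (c i)⁻¹)
  refine ⟨δ, hδ, hδ0, fun y hyV hyO => ?_⟩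
  rw [← hzspan] at hyV
  obtain ⟨a, haA, rfl⟩ := S.exists_coeff_of_mem z hzO hzind hyV hyO
  rw [map_sum, Finset.smul_sum]
  refine S.O.sum_mem fun i _ => ?_
  have : δ • ψ (a i • z i) = a i • ((δ * (c i)⁻¹) • (c i • ψ (z i))) := by
    rw [map_smul, smul_smul, smul_smul, smul_smul]
    congr 1
    have := hc0 i
    field_simp
  rw [this]
  exact S.smul_mem (haA i) (S.smul_mem (hδc i (Finset.mem_univ i)) (hc i))

/-- **Two-lattice lemma.** -/
theorem inf_ne_bot_of_forall_approx (hπ : Function.Surjective π) (W₀ W₁ : Submodule K F)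
    [FiniteDimensional K W₀] [FiniteDimensional K W₁]
    {t : K} (ht : t ∈ A) (ht0 : t ≠ 0) (htu : t⁻¹ ∉ A)
    (h : ∀ a : K, a ∈ A → a ≠ 0 → a⁻¹ ∉ A → ∃ h₀ ∈ W₀, ∃ h₁ ∈ W₁, ∃ μ ∈ S.O,
      h₁ ∈ S.O ∧ S.resF h₁ ≠ 0 ∧ h₀ - h₁ = a • μ) :
    W₀ ⊓ W₁ ≠ ⊥ := by
  intro hbot
  -- the injective map `(w₀, w₁) ↦ w₀ - w₁`
  set T : (W₀ × W₁) →ₗ[K] F := W₀.subtype.coprod (-W₁.subtype) with hT
  have hTapp : ∀ p : W₀ × W₁, T p = (p.1 : F) - (p.2 : F) := by
    intro p
    simp [hT, LinearMap.coprod_apply, sub_eq_add_neg]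
  have hker : LinearMap.ker T = ⊥ := by
    rw [LinearMap.ker_eq_bot']
    rintro ⟨w₀, w₁⟩ hw
    rw [hTapp] at hw
    have heq : (w₀ : F) = (w₁ : F) := sub_eq_zero.mp hw
    have hmem : (w₀ : F) ∈ W₀ ⊓ W₁ := ⟨w₀.2, heq ▸ w₁.2⟩
    rw [hbot, Submodule.mem_bot] at hmem
    have h0 : w₀ = 0 := Subtype.ext hmem
    have h1 : w₁ = 0 := Subtype.ext (by rw [← heq, hmem]; rfl)
    rw [h0, h1]
    rfl
  obtain ⟨G, hG⟩ := T.exists_leftInverse_of_injective hker
  set ψ : F →ₗ[K] F := W₁.subtype ∘ₗ LinearMap.snd K W₀ W₁ ∘ₗ G with hψ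
  have hψT : ∀ (w₀ : F) (hw₀ : w₀ ∈ W₀) (w₁ : F) (hw₁ : w₁ ∈ W₁), ψ (w₀ - w₁) = w₁ := by
    intro w₀ hw₀ w₁ hw₁
    have h1 : T (⟨w₀, hw₀⟩, ⟨w₁, hw₁⟩) = w₀ - w₁ := hTapp _
    have h2 : G (T (⟨w₀, hw₀⟩, ⟨w₁, hw₁⟩)) = (⟨w₀, hw₀⟩, ⟨w₁, hw₁⟩) := by
      have := congrArg (fun f : (W₀ × W₁) →ₗ[K] (W₀ × W₁) => f (⟨w₀, hw₀⟩, ⟨w₁, hw₁⟩)) hG
      simpa using this
    rw [← h1, hψ]
    simp only [LinearMap.coe_comp, Function.comp_apply]
    rw [h2]
    rfl
  obtain ⟨δ, hδ, hδ0, hbound⟩ := exists_bound_linearMap S hπ (W₀ ⊔ W₁) ψ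
  have hδtu : (δ * t)⁻¹ ∉ A := by
    intro hinv
    apply htu
    have : t⁻¹ = δ * (δ * t)⁻¹ := by
      rw [mul_inv, ← mul_assoc, mul_inv_cancel₀ hδ0, one_mul]
    rw [this]
    exact A.mul_mem _ _ hδ hinv
  obtain ⟨h₀, hh₀, h₁, hh₁, μ, hμ, hh₁O, hres, hrel⟩ :=
    h (δ * t) (A.mul_mem _ _ hδ ht) (mul_ne_zero hδ0 ht0) hδtu
  have hμV : μ ∈ W₀ ⊔ W₁ := by
    have : μ = (δ * t)⁻¹ • (h₀ - h₁) := by
      rw [hrel, smul_smul, inv_mul_cancel₀ (mul_ne_zero hδ0 ht0), one_smul]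
    rw [this]
    exact Submodule.smul_mem _ _ (Submodule.sub_mem _ (Submodule.mem_sup_left hh₀)
      (Submodule.mem_sup_right hh₁))
  have hb := hbound μ hμV hμ
  have h1eq : h₁ = t • (δ • ψ μ) := by
    rw [← hψT h₀ hh₀ h₁ hh₁, hrel, map_smul, smul_smul, mul_comm]
  apply hres
  rw [h1eq, S.resF_smul ht hb]
  have : π ⟨t, ht⟩ = 0 := by
    rw [S.pi_eq_zero_iff, ValuationSubring.mem_nonunits_iff_or]
    right
    exact htu
  rw [this, zero_smul]


/-- **Lift lemma.** Data as produced by `NormalForm.exists_normalFormData`; `E ≥ 0` with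
`res (L(D + E) ∩ O) = L~(r_* E)`.  If `g₂ β₂ - β₁ ∈ a O` with `βᵢ` in the chart rings, then
`β₁` is congruent modulo `a O` to an element of `L(D + E)`. -/
theorem exists_lift_mod (hπ : Function.Surjective π) (hF : RiemannPkg K F)
    (Z1 Z2 : Set (Place K F)) (hdisj : Disjoint (S.r '' Z1) (S.r '' Z2))
    (D E : Divisor K F) (hE : 0 ≤ E) (hD0 : ∀ P : Place K F, P ∉ Z1 → D P = 0)
    (g2 : F) (hg2 : g2 ∈ S.O) (hg2i : g2⁻¹ ∈ S.O) (hg2r : S.resF g2 = 1)
    (hord : ∀ P : Place K F, P ∉ Z2 → P.ord g2 = - D P)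
    (hres : S.resSpace hπ (riemannRochSpace (D + E)) =
      riemannRochSpace (Finsupp.mapDomain S.r E))
    (β1 β2 : F) (hβ1 : β1 ∈ S.chart Z1) (hβ2 : β2 ∈ S.chart Z2)
    (a : K) (ha0 : a ≠ 0) (w' : F) (hw' : w' ∈ S.O)
    (hrel : g2 * β2 - β1 = a • w') :
    ∃ h ∈ riemannRochSpace (D + E), ∃ μ ∈ S.O, β1 - h = a • μ := by
  classical
  have hfin : Module.Finite K (riemannRochSpace (D + E)) := hF.finite_L _
  by_cases hβ : β1 ∈ riemannRochSpace (D + E)
  · exact ⟨β1, hβ, 0, S.O.zero_mem, by simp⟩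
  obtain ⟨w, hw, c, hc, hζ, hne⟩ := S.approx (riemannRochSpace (D + E)) hfin β1 hβ
  by_cases hac : (a * c)⁻¹ ∈ A
  · refine ⟨w, hw, (a * c)⁻¹ • (c • (β1 - w)), S.smul_mem hac hζ, ?_⟩
    rw [smul_smul, smul_smul]
    have : a * (a * c)⁻¹ * c = 1 := by field_simp
    rw [this, one_smul]
  exfalso
  have hacA : a * c ∈ A := (A.mem_or_inv_mem (a * c)).resolve_right hac
  have hπac : π ⟨a * c, hacA⟩ = 0 := by
    rw [S.pi_eq_zero_iff, ValuationSubring.mem_nonunits_iff_or]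
    exact Or.inr hac
  have hg20 : g2 ≠ 0 := by
    rintro rfl
    rw [S.resF_zero] at hg2r
    exact zero_ne_one hg2r
  -- the second representative
  set ζ : F := c • (β1 - w) with hζdef
  set ζ' : F := c • (β2 - w / g2) with hζ'def
  have hζ'eq : ζ' = g2⁻¹ * (ζ + (a * c) • w') := by
    have h1 : g2 * β2 = β1 + a • w' := by rw [← hrel]; ring
    have h2 : g2 * ζ' = ζ + (a * c) • w' := by
      rw [hζ'def, hζdef, mul_smul_comm, mul_sub, h1, mul_div_cancel₀ _ hg20, mul_smul, smul_sub,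
        smul_sub, smul_add, smul_comm c a w']
      ring
    rw [← h2, ← mul_assoc, inv_mul_cancel₀ hg20, one_mul]
  have hsumO : ζ + (a * c) • w' ∈ S.O := S.O.add_mem _ _ hζ (S.smul_mem hacA hw')
  have hζ'O : ζ' ∈ S.O := by rw [hζ'eq]; exact S.O.mul_mem _ _ hg2i hsumO
  have hresζ' : S.resF ζ' = S.resF ζ := by
    have hg2r' : S.resF g2 ≠ 0 := by rw [hg2r]; exact one_ne_zero
    rw [hζ'eq, S.resF_mul hg2i hsumO, S.resF_inv hg2r', hg2r, inv_one, one_mul,
      S.resF_add hζ (S.smul_mem hacA hw'), S.resF_smul hacA hw', hπac, zero_smul, add_zero]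
  -- pole bounds outside `Z1` resp. `Z2`
  have hζreg : ζ ∈ regularOutside Z1 E := by
    refine Submodule.smul_mem _ _ (Submodule.sub_mem _ ?_ ?_)
    · exact regularOutside_mono (le_refl Z1) hE (mem_regularRing_iff_mem_regularOutside.mp hβ1.2)
    · intro P hP
      have := hw P
      rwa [Finsupp.add_apply, hD0 P hP, zero_add] at this
  have hζ'reg : ζ' ∈ regularOutside Z2 E := by
    refine Submodule.smul_mem _ _ (Submodule.sub_mem _ ?_ ?_)
    · exact regularOutside_mono (le_refl Z2) hE (mem_regularRing_iff_mem_regularOutside.mp hβ2.2)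
    · rw [mem_regularOutside_iff]
      intro P hP
      rcases eq_or_ne w 0 with rfl | hw0
      · left; simp
      right
      have h1 := (mem_riemannRochSpace_iff.mp hw P).resolve_left hw0
      rw [Finsupp.add_apply] at h1
      rw [div_eq_mul_inv, P.ord_mul hw0 (inv_ne_zero hg20), P.ord_inv, hord P hP]
      omega
  have h1 := S.resF_mem_regularOutside hF Z1 E hζreg
  have h2 := S.resF_mem_regularOutside hF Z2 E hζ'reg
  rw [hresζ'] at h2
  have hmem : S.resF ζ ∈ riemannRochSpace (Finsupp.mapDomain S.r E) := by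
    intro Q
    by_cases hQ : Q ∈ S.r '' Z1
    · exact h2 Q fun hQ2 => Set.disjoint_left.mp hdisj hQ hQ2
    · exact h1 Q hQ
  rw [← hres] at hmem
  obtain ⟨z, hzW, hzO, hz⟩ := hmem
  apply hne ⟨z, hzO⟩ hzW
  rw [← S.resF_of_mem hzO, ← S.resF_of_mem hζ]
  exact hz


/-- **The ending of L-RED.** For `D` of degree zero with `r_* D = 0` and chart data `Z1, Z2, g₂`
as produced by `NormalForm.exists_normalFormData`: if the transition function `g₂` admits
approximate sections modulo every nonzero non-unit `a ∈ A` (output of (R3)), then `D` is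
principal. -/
theorem mem_principal_of_forall_approx (hF : RiemannPkg K F) (hFt : RiemannPkg k Ft)
    (hg : genusFF k Ft = genusFF K F) {t : K} (ht : t ∈ A) (ht0 : t ≠ 0) (htu : t⁻¹ ∉ A)
    (D : Divisor K F) (hdeg : Divisor.degree D = 0) (hrD : Finsupp.mapDomain S.r D = 0)
    (Z1 Z2 : Set (Place K F)) (hdisj : Disjoint (S.r '' Z1) (S.r '' Z2))
    (hD0 : ∀ P : Place K F, P ∉ Z1 → D P = 0)
    (g2 : F) (hg2 : g2 ∈ S.O) (hg2i : g2⁻¹ ∈ S.O) (hg2r : S.resF g2 = 1)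
    (hord : ∀ P : Place K F, P ∉ Z2 → P.ord g2 = - D P)
    (hR3 : ∀ a : K, a ∈ A → a ≠ 0 → a⁻¹ ∉ A → ∃ β1 ∈ S.chart Z1, ∃ β2 ∈ S.chart Z2, ∃ w ∈ S.O,
      S.resF β1 ≠ 0 ∧ g2 * β2 - β1 = a • w) :
    D ∈ Divisor.principal (K := K) (F := F) := by
  classical
  have hpr := hF.principal
  have hinf := hFt.infinite_places
  have hinfF := hF.infinite_places
  have hπ : Function.Surjective π := NormalForm.pi_surjective S hF.deg_one
  obtain ⟨c, hc⟩ := S.exists_bound_resSpace_eq hπ hF hFt hg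
  -- two distinct places and the two twists
  obtain ⟨P0⟩ : Nonempty (Place K F) := inferInstance
  obtain ⟨P1, hP1⟩ := Infinite.exists_notMem_finset ({P0} : Finset (Place K F))
  have hP01 : P1 ≠ P0 := by simpa using hP1
  set n : ℕ := c.toNat with hn
  have key : ∀ P' : Place K F,
      0 ≤ n • Finsupp.single P' (1 : ℤ) ∧
      S.resSpace hπ (riemannRochSpace (D + n • Finsupp.single P' (1 : ℤ))) =
        riemannRochSpace (Finsupp.mapDomain S.r (n • Finsupp.single P' (1 : ℤ))) := by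
    intro P'
    refine ⟨?_, ?_⟩
    · intro P
      rw [Finsupp.zero_apply, Finsupp.smul_apply, Finsupp.single_apply, nsmul_eq_mul]
      split_ifs <;> simp
    · have hdegE : c ≤ Divisor.degree (D + n • Finsupp.single P' (1 : ℤ)) := by
        rw [map_add, map_nsmul, Divisor.degree_single, hF.deg_one P', hdeg]
        have := Int.self_le_toNat c
        simp only [nsmul_eq_mul, Nat.cast_one, mul_one, zero_add]
        omega
      rw [hc _ hdegE, Finsupp.mapDomain_add, hrD, zero_add]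
  obtain ⟨hE0, hres0⟩ := key P0
  obtain ⟨hE1, hres1⟩ := key P1
  have hfin0 : Module.Finite K (riemannRochSpace (D + n • Finsupp.single P0 (1 : ℤ))) :=
    hF.finite_L _
  have hfin1 : Module.Finite K (riemannRochSpace (D + n • Finsupp.single P1 (1 : ℤ))) :=
    hF.finite_L _
  have hne := inf_ne_bot_of_forall_approx S hπ
    (riemannRochSpace (D + n • Finsupp.single P0 (1 : ℤ)))
    (riemannRochSpace (D + n • Finsupp.single P1 (1 : ℤ))) ht ht0 htu (by
      intro a ha ha0 hau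
      obtain ⟨β1, hβ1, β2, hβ2, w, hw, hβres, hrel⟩ := hR3 a ha ha0 hau
      obtain ⟨h₀, hh₀, μ₀, hμ₀, e₀⟩ := exists_lift_mod S hπ hF Z1 Z2 hdisj D _ hE0 hD0 g2 hg2
        hg2i hg2r hord hres0 β1 β2 hβ1 hβ2 a ha0 w hw hrel
      obtain ⟨h₁, hh₁, μ₁, hμ₁, e₁⟩ := exists_lift_mod S hπ hF Z1 Z2 hdisj D _ hE1 hD0 g2 hg2
        hg2i hg2r hord hres1 β1 β2 hβ1 hβ2 a ha0 w hw hrel
      have hπa : π ⟨a, ha⟩ = 0 := by
        rw [S.pi_eq_zero_iff, ValuationSubring.mem_nonunits_iff_or]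
        exact Or.inr hau
      have h1eq : h₁ = β1 - a • μ₁ := by rw [← e₁]; ring
      have h1O : h₁ ∈ S.O := by
        rw [h1eq]
        exact sub_mem hβ1.1 (S.smul_mem ha hμ₁)
      refine ⟨h₀, hh₀, h₁, hh₁, μ₁ - μ₀, sub_mem hμ₁ hμ₀, h1O, ?_, ?_⟩
      · rw [h1eq, S.resF_sub hβ1.1 (S.smul_mem ha hμ₁), S.resF_smul ha hμ₁, hπa, zero_smul,
          sub_zero]
        exact hβres
      · rw [smul_sub, ← e₁, ← e₀]
        ring)
  -- a nonzero element of the intersection lies in `L(D)`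
  obtain ⟨s, hs, hs0⟩ := (Submodule.ne_bot_iff _).mp hne
  apply mem_principal_of_degree_eq_zero_of_ne_bot hF hdeg
  rw [Submodule.ne_bot_iff]
  refine ⟨s, ?_, hs0⟩
  rw [mem_riemannRochSpace_iff]
  intro P
  right
  have h0 := (mem_riemannRochSpace_iff.mp hs.1 P).resolve_left hs0
  have h1 := (mem_riemannRochSpace_iff.mp hs.2 P).resolve_left hs0
  rw [Finsupp.add_apply, Finsupp.smul_apply, Finsupp.single_apply] at h0 h1
  by_cases hP : P0 = P
  · have hP1' : ¬ P1 = P := fun h => hP01 (h.trans hP.symm)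
    rw [if_neg hP1'] at h1
    simpa using h1
  · rw [if_neg hP] at h0
    simpa using h0

end Fermat.Agent.Red.Ending
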