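import Mathlib
import Fermat.Agent.Red.Charts

/-!
# Program L (S18), L-RED, node R1': the constants lemma

`H⁰` of every thickening of the special fibre consists of constants: if `x₁ ∈ B_{Z₁}`,
`x₂ ∈ B_{Z₂}` (charts with `r(Z₁) ∩ r(Z₂) = ∅`) agree modulo `a`, they are congruent to a
constant of `A` modulo `a`.  No discreteness of the valuation is used: the proof is one
application of the best-approximation property `approx` to the line `K · 1`.
-/

set_option autoImplicit false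

namespace Fermat.Agent.Red

open AlgebraicCurve Module WithZero

variable {K F k Ft : Type*} [Field K] [Field F] [Algebra K F] [Field k] [Field Ft]
  [Algebra k Ft] {A : ValuationSubring K} {π : A →+* k}

namespace RedSetup

variable (S : RedSetup (F := F) (Ft := Ft) A π)

/-- A function on the special fibre regular outside two disjoint sets is constant. -/
theorem exists_const_of_regular_disjoint (hFt : RiemannPkg k Ft) {Y₁ Y₂ : Set (Place k Ft)}
    (hdisj : Disjoint Y₁ Y₂) {t : Ft} (h₁ : t ∈ regularRing Y₁) (h₂ : t ∈ regularRing Y₂) :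
    ∃ c : k, t = algebraMap k Ft c := by
  apply hFt.L_zero
  intro Q
  have : Q ∉ Y₁ ∨ Q ∉ Y₂ := by
    by_contra hcon
    push Not at hcon
    exact (Set.disjoint_left.mp hdisj hcon.1) hcon.2
  have h1 : Q.adicValuation t ≤ 1 := by
    rcases this with h | h
    · exact h₁ Q h
    · exact h₂ Q h
  simpa using h1

/-- **(R1') The constants lemma.** -/
theorem const_lemma (hπ : Function.Surjective π) (hF : RiemannPkg K F) (hFt : RiemannPkg k Ft)
    (Z₁ Z₂ : Set (Place K F)) (hdisj : Disjoint (S.r '' Z₁) (S.r '' Z₂))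
    {a : K} (ha : a ∈ A) (ha0 : a ≠ 0) {x₁ x₂ w : F} (hx₁ : x₁ ∈ S.chart Z₁)
    (hx₂ : x₂ ∈ S.chart Z₂) (hw : w ∈ S.O) (h : x₁ - x₂ = a • w) :
    ∃ l : K, l ∈ A ∧ ∃ y ∈ S.chart Z₁, x₁ = algebraMap K F l + a • y := by
  set V : Submodule K F := Submodule.span K {(1 : F)} with hV
  have hVfin : Module.Finite K V := Module.Finite.span_singleton K (1 : F)
  have hconstV : ∀ b : K, algebraMap K F b ∈ V := fun b => by
    rw [hV, Submodule.mem_span_singleton]
    exact ⟨b, by rw [Algebra.smul_def, mul_one]⟩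
  by_cases hx : x₁ ∈ V
  · obtain ⟨l, hl⟩ := Submodule.mem_span_singleton.mp hx
    have hl' : algebraMap K F l = x₁ := by rw [← hl, Algebra.smul_def, mul_one]
    refine ⟨l, (S.algebraMap_mem_iff l).mp (hl' ▸ hx₁.1), 0, Subring.zero_mem _, ?_⟩
    rw [smul_zero, add_zero, hl']
  obtain ⟨w₀, hw₀, c, hc, hz, hne⟩ := S.approx V hVfin x₁ hx
  obtain ⟨l₀, hl₀⟩ := Submodule.mem_span_singleton.mp hw₀
  have hw₀' : w₀ = algebraMap K F l₀ := by rw [← hl₀, Algebra.smul_def, mul_one]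
  set z : F := c • (x₁ - w₀) with hzdef
  -- the residue of `z` is not the residue of a constant
  have hnc : ∀ b : K, b ∈ A → S.resF (algebraMap K F b) ≠ S.resF z := by
    intro b hb
    have h1 := hne ⟨algebraMap K F b, S.algebraMap_mem hb⟩ (hconstV b)
    rwa [← S.resF_of_mem (S.algebraMap_mem hb), ← S.resF_of_mem hz] at h1
  have hx₁O : x₁ ∈ S.O := hx₁.1
  -- Step 1: `l₀ ∈ A`
  have hl₀A : l₀ ∈ A := by
    by_contra hl₀A
    have hl₀0 : l₀ ≠ 0 := fun h => hl₀A (h ▸ A.zero_mem)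
    have hl₀i : l₀⁻¹ ∈ A := (A.mem_or_inv_mem l₀).resolve_left hl₀A
    obtain ⟨hmem1, hres1⟩ := S.resF_smul_eq_zero_of_not_mem hl₀A hx₁O
    have hzexp : z = c • x₁ - algebraMap K F (c * l₀) := by
      rw [hzdef, hw₀', smul_sub, Algebra.smul_def c (algebraMap K F l₀), ← map_mul]
    by_cases hμ : c * l₀ ∈ A
    · -- `c = (c l₀) l₀⁻¹` is a non-unit of `A`
      have hcx : c • x₁ = (c * l₀) • (l₀⁻¹ • x₁) := by
        rw [smul_smul, mul_assoc, mul_inv_cancel₀ hl₀0, mul_one]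
      have hcxO : c • x₁ ∈ S.O := by rw [hcx]; exact S.smul_mem hμ hmem1
      have hcxres : S.resF (c • x₁) = 0 := by
        rw [hcx, S.resF_smul hμ hmem1, hres1, smul_zero]
      have hneg : -(c * l₀) ∈ A := A.neg_mem _ hμ
      apply hnc (-(c * l₀)) hneg
      rw [hzexp, S.resF_sub hcxO (S.algebraMap_mem hμ), hcxres, zero_sub, map_neg,
        S.resF_neg (S.algebraMap_mem hμ)]
    · -- `(c l₀)⁻¹ • z = l₀⁻¹ • x₁ - 1` has residue `-1`, but also residue `0`
      have hμ0 : c * l₀ ≠ 0 := mul_ne_zero hc hl₀0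
      obtain ⟨-, hres2⟩ := S.resF_smul_eq_zero_of_not_mem hμ hz
      have hexp : (c * l₀)⁻¹ • z = l₀⁻¹ • x₁ - 1 := by
        rw [hzexp, smul_sub, smul_smul, Algebra.smul_def ((c * l₀)⁻¹) (algebraMap K F (c * l₀)),
          ← map_mul, inv_mul_cancel₀ hμ0, map_one]
        congr 2
        rw [mul_inv, mul_comm c⁻¹, mul_assoc, inv_mul_cancel₀ hc, mul_one]
      rw [hexp, S.resF_sub hmem1 S.O.one_mem, hres1, S.resF_one, zero_sub] at hres2
      exact one_ne_zero (neg_eq_zero.mp hres2)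
  -- Step 2: `z` is regular outside `Z₁`
  have hzreg : z ∈ regularRing Z₁ := by
    rw [hzdef, hw₀']
    exact Subalgebra.smul_mem _
      (Subalgebra.sub_mem _ hx₁.2 (Subalgebra.algebraMap_mem _ l₀)) c
  -- Step 3: `(a c)⁻¹ ∈ A`
  have hacA : (a * c)⁻¹ ∈ A := by
    by_contra hacA
    have hac0 : a * c ≠ 0 := mul_ne_zero ha0 hc
    have hw' : (a * c) • w ∈ S.O ∧ S.resF ((a * c) • w) = 0 := by
      have := S.resF_smul_eq_zero_of_not_mem hacA hw
      rwa [inv_inv] at this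
    set z₂ : F := c • (x₂ - w₀) with hz₂def
    have hz₂ : z₂ = z - (a * c) • w := by
      have hx₂e : x₂ = x₁ - a • w := by rw [← h]; ring
      rw [hz₂def, hzdef, hx₂e, smul_sub, smul_sub, smul_sub, smul_smul, mul_comm c a]
      abel
    have hz₂O : z₂ ∈ S.O := by rw [hz₂]; exact sub_mem hz hw'.1
    have hz₂res : S.resF z₂ = S.resF z := by
      rw [hz₂, S.resF_sub hz hw'.1, hw'.2, sub_zero]
    have hz₂reg : z₂ ∈ regularRing Z₂ := by
      rw [hz₂def, hw₀']
      exact Subalgebra.smul_mem _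
        (Subalgebra.sub_mem _ hx₂.2 (Subalgebra.algebraMap_mem _ l₀)) c
    have ht₁ := S.resF_mem_regularRing hF Z₁ hzreg
    have ht₂ := S.resF_mem_regularRing hF Z₂ hz₂reg
    rw [hz₂res] at ht₂
    obtain ⟨cbar, hcbar⟩ := exists_const_of_regular_disjoint hFt hdisj ht₁ ht₂
    obtain ⟨b, rfl⟩ := hπ cbar
    apply hnc (b : K) b.2
    rw [S.resF_algebraMap b.2, hcbar]
  -- Step 4
  refine ⟨l₀, hl₀A, (a * c)⁻¹ • z, ⟨S.smul_mem hacA hz, Subalgebra.smul_mem _ hzreg _⟩, ?_⟩
  rw [smul_smul, mul_inv, ← mul_assoc, mul_inv_cancel₀ ha0, one_mul, hzdef, smul_smul,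
    inv_mul_cancel₀ hc, one_smul, hw₀']
  ring

end RedSetup

end Fermat.Agent.Red
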