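import Fermat.Agent.Red.Setup
import Fermat.Agent.X0.Alg.PlaceBasic

/-!
# Track L-RED, node (R2): reduction to normal form and choice of the two charts

Everything is over an abstract `RedSetup A π` (file `Red/Setup.lean`); the only input from (R0) is
the surjectivity of reduction on Riemann-Roch spaces in large degree, taken as the hypothesis
`ResSurjLarge S`.

* basics of a `RedSetup`: `pi_eq_zero_iff` (kernel of `π` = non-units of `A`), `exists_smul_mem`
  (every nonzero function is a constant times a unit of `O`), `r_surjective`, and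
  `pi_surjective` (**`π` is surjective**, derived from conservation);
* `noTorsionInKernel_of_normalForm` : `NoTorsionInKernel S` follows from `NormalFormKernel S`
  (the same statement for `D` with `r_* D = 0` and `m D = div f`, `res f = 1`);
* `exists_chart_function`, `exists_two_chart_data` : the second chart and the transition function.
-/

set_option autoImplicit false

namespace Fermat.Agent.Red.NormalForm

open AlgebraicCurve Fermat.Agent.X0

section General

variable {L : Type*} [Field L]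

/-- A member of a valuation subring is a unit iff it is nonzero with inverse in the subring. -/
theorem isUnit_iff_inv_mem (B : ValuationSubring L) (x : B) :
    IsUnit x ↔ (x : L) ≠ 0 ∧ (x : L)⁻¹ ∈ B := by
  constructor
  · rintro ⟨u, rfl⟩
    refine ⟨fun h => ?_, ?_⟩
    · have : ((u : B) : L) * ((u⁻¹ : Bˣ) : B) = 1 := by
        rw [← B.coe_mul, Units.mul_inv]; rfl
      rw [h, zero_mul] at this
      exact zero_ne_one this
    · have h1 : ((u : B) : L) * (((u⁻¹ : Bˣ) : B) : L) = 1 := by
        rw [← B.coe_mul, Units.mul_inv]; rfl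
      have : ((u : B) : L)⁻¹ = (((u⁻¹ : Bˣ) : B) : L) :=
        inv_eq_of_mul_eq_one_right h1
      rw [this]
      exact Subtype.mem _
  · rintro ⟨h0, hinv⟩
    refine ⟨⟨x, ⟨(x : L)⁻¹, hinv⟩, ?_, ?_⟩, rfl⟩
    · ext; simp [mul_inv_cancel₀ h0]
    · ext; simp [inv_mul_cancel₀ h0]

end General

section Finsupp

variable {α β : Type*}

/-- Pointwise formula for `Finsupp.mapDomain`. -/
theorem mapDomain_apply_eq_sum [DecidableEq β] (f : α → β) (D : α →₀ ℤ) (b : β) :
    Finsupp.mapDomain f D b = ∑ a ∈ D.support, if f a = b then D a else 0 := by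
  rw [Finsupp.mapDomain, Finsupp.sum, Finsupp.finsetSum_apply]
  refine Finset.sum_congr rfl fun a _ => ?_
  rw [Finsupp.single_apply]

/-- If the push-forward vanishes at `b` and all coefficients in the fibre over `b` are
nonnegative, then they all vanish. -/
theorem eq_zero_of_mapDomain_apply_eq_zero (f : α → β) (D : α →₀ ℤ) (b : β)
    (h0 : Finsupp.mapDomain f D b = 0) (hpos : ∀ a, f a = b → 0 ≤ D a) (a : α) (ha : f a = b) :
    D a = 0 := by
  classical
  rw [mapDomain_apply_eq_sum] at h0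
  by_cases hs : a ∈ D.support
  · have := (Finset.sum_eq_zero_iff_of_nonneg (fun i _ => ?_)).mp h0 a hs
    · rwa [if_pos ha] at this
    · split_ifs with hi
      · exact hpos i hi
      · exact le_rfl
  · simpa using hs

/-- If the push-forward vanishes at `f a` and `0 < D a`, some coefficient in the fibre is
negative. -/
theorem exists_neg_of_mapDomain_apply_eq_zero (f : α → β) (D : α →₀ ℤ) (a : α)
    (h0 : Finsupp.mapDomain f D (f a) = 0) (hpos : 0 < D a) :
    ∃ a', f a' = f a ∧ D a' < 0 := by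
  by_contra hcon
  push Not at hcon
  have := eq_zero_of_mapDomain_apply_eq_zero f D (f a) h0 hcon a rfl
  omega

/-- A point of the support of a push-forward is the image of a point of the support. -/
theorem exists_of_mapDomain_apply_ne_zero (f : α → β) (D : α →₀ ℤ) (b : β)
    (h : Finsupp.mapDomain f D b ≠ 0) : ∃ a, f a = b ∧ D a ≠ 0 := by
  classical
  have hb : b ∈ (Finsupp.mapDomain f D).support := Finsupp.mem_support_iff.mpr h
  have := Finsupp.mapDomain_support hb
  obtain ⟨a, ha, rfl⟩ := Finset.mem_image.mp this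
  exact ⟨a, rfl, Finsupp.mem_support_iff.mp ha⟩

end Finsupp


section Places

variable {K F : Type*} [Field K] [Field F] [Algebra K F]

/-- Multiplying by a nonzero constant does not change orders. -/
theorem ord_const_smul (v : Place K F) {c : K} (hc : c ≠ 0) (f : F) :
    v.ord (c • f) = v.ord f := by
  rcases eq_or_ne f 0 with rfl | hf
  · simp
  · rw [Algebra.smul_def, v.ord_mul ((map_ne_zero _).mpr hc) hf, Place.ord_algebraMap, zero_add]

/-- At a place of degree one, a function regular at the place takes a value in `K`. -/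
theorem exists_ord_sub_pos_of_deg_one (v : Place K F) (hdeg : v.deg = 1) {x : F}
    (hx : ∀ c : K, x ≠ algebraMap K F c) (hv : 0 ≤ v.ord x) :
    ∃ a : K, 0 < v.ord (x - algebraMap K F a) := by
  have hxm : x ∈ v.toValuationSubring := Place.mem_of_ord_nonneg v hv
  -- the residue field is one-dimensional, spanned by `1`
  have hfin : Module.finrank K v.ResidueField = 1 := hdeg
  obtain ⟨a, ha⟩ : ∃ a : K, a • (1 : v.ResidueField) =
      IsLocalRing.residue v.toValuationSubring ⟨x, hxm⟩ :=
    (finrank_eq_one_iff_of_nonzero' (1 : v.ResidueField) one_ne_zero).mp hfin _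
  refine ⟨a, ?_⟩
  have hmem : (⟨x, hxm⟩ : v.toValuationSubring) - algebraMap K v.toValuationSubring a ∈
      IsLocalRing.maximalIdeal v.toValuationSubring := by
    rw [← IsLocalRing.residue_eq_zero_iff, map_sub, ← ha, Algebra.smul_def, mul_one]
    exact sub_self _
  have hne : x - algebraMap K F a ≠ 0 := sub_ne_zero.mpr (hx a)
  -- not a unit, so of positive order
  have hnu : ¬ IsUnit ((⟨x, hxm⟩ : v.toValuationSubring) - algebraMap K v.toValuationSubring a) :=
    (IsLocalRing.mem_maximalIdeal _).mp hmem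
  have h0 : 0 ≤ v.ord (x - algebraMap K F a) :=
    Place.ord_nonneg_of_mem v (sub_mem hxm (v.algebraMap_mem' a))
  rcases h0.lt_or_eq with h | h
  · exact h
  · exfalso
    apply hnu
    rw [isUnit_iff_inv_mem]
    refine ⟨hne, ?_⟩
    apply Place.mem_of_ord_nonneg
    rw [v.ord_inv]
    show 0 ≤ -v.ord (x - algebraMap K F a)
    omega

/-- A uniformiser at a place. -/
theorem exists_ord_eq_one (v : Place K F) : ∃ t : F, v.ord t = 1 := by
  obtain ⟨ϖ, hϖ⟩ := IsDiscreteValuationRing.exists_irreducible v.toValuationSubring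
  exact ⟨ϖ, v.ord_coe_irreducible hϖ⟩

end Places


section Setup

variable {K F k Ft : Type*} [Field K] [Field F] [Algebra K F] [Field k] [Field Ft]
  [Algebra k Ft] {A : ValuationSubring K} {π : A →+* k} (S : RedSetup (F := F) (Ft := Ft) A π)

theorem res_ne_zero_iff (x : S.O) : S.res x ≠ 0 ↔ IsUnit x := by
  rw [Ne, S.res_eq_zero_iff, not_not]

theorem coe_ne_zero_of_res_ne_zero {x : S.O} (hx : S.res x ≠ 0) : (x : F) ≠ 0 := by
  intro h
  apply hx
  have : x = 0 := Subtype.ext h
  rw [this, map_zero]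

/-- The constant `a ∈ A` as an element of `O`. -/
def const (a : A) : S.O := ⟨algebraMap K F a, (S.algebraMap_mem_iff a).mpr a.2⟩

@[simp] theorem coe_const (a : A) : ((const S a : S.O) : F) = algebraMap K F a := rfl

theorem res_const (a : A) : S.res (const S a) = algebraMap k Ft (π a) :=
  S.res_algebraMap a a.2 _

include S in
/-- The kernel of `π` is the maximal ideal of `A`. -/
theorem pi_eq_zero_iff (a : A) : π a = 0 ↔ ¬ IsUnit a := by
  have h1 : π a = 0 ↔ S.res (const S a) = 0 := by
    rw [res_const]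
    exact (map_eq_zero (algebraMap k Ft)).symm
  rw [h1, S.res_eq_zero_iff, not_iff_not, isUnit_iff_inv_mem, isUnit_iff_inv_mem, coe_const,
    ← map_inv₀, S.algebraMap_mem_iff, map_ne_zero]

include S in
theorem pi_ne_zero_iff (a : A) : π a ≠ 0 ↔ IsUnit a := by
  rw [Ne, pi_eq_zero_iff S, not_not]

/-- The value group of `O` is the value group of `A`: every nonzero function can be scaled by a
constant to a unit of `O`. -/
theorem exists_smul_mem {f : F} (hf : f ≠ 0) :
    ∃ c : K, c ≠ 0 ∧ ∃ h : c • f ∈ S.O, S.res ⟨c • f, h⟩ ≠ 0 := by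
  obtain ⟨w, hw, c, hc, h, hz⟩ := S.approx ⊥ inferInstance f (by simpa using hf)
  have hw0 : w = 0 := by simpa using hw
  subst hw0
  rw [sub_zero] at h
  refine ⟨c, hc, h, ?_⟩
  have := hz 0 (by simp)
  rw [map_zero] at this
  intro h0
  apply this
  rw [← h0]
  congr 1
  ext
  simp

variable [HasPrincipalDivisors K F]

/-- The reduction of places is surjective. -/
theorem r_surjective : Function.Surjective S.r := by
  intro Q
  obtain ⟨t, ht⟩ := exists_ord_eq_one Q
  obtain ⟨y, hy⟩ := S.res_surjective t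
  have ht0 : t ≠ 0 := by rintro rfl; simp at ht
  have hy1 : S.res y ≠ 0 := by rw [hy]; exact ht0
  obtain ⟨D, hD, -⟩ := HasPrincipalDivisors.exists_divisor (K := K) (y : F)
    (coe_ne_zero_of_res_ne_zero S hy1)
  have h := S.conservation y hy1 D hD Q
  rw [hy, ht] at h
  obtain ⟨P, hP, -⟩ := exists_of_mapDomain_apply_ne_zero S.r D Q (by rw [h]; exact one_ne_zero)
  exact ⟨P, hP⟩

/-- Key step for the surjectivity of `π`. -/
theorem exists_pole_of_value (x : S.O) (P : Place K F) (c : K)
    (hpos : 0 < P.ord ((x : F) - algebraMap K F c)) (y : S.O) (e : K) (he : e ≠ 0)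
    (hy : (y : F) = e • ((x : F) - algebraMap K F c)) (μ : k) (hμ : μ ≠ 0)
    (hres : S.res y = algebraMap k Ft μ) :
    ∃ P', S.r P' = S.r P ∧ P'.ord (x : F) < 0 := by
  have hy1 : S.res y ≠ 0 := by rw [hres]; exact (map_ne_zero _).mpr hμ
  obtain ⟨D, hD, -⟩ := HasPrincipalDivisors.exists_divisor (K := K) (y : F)
    (coe_ne_zero_of_res_ne_zero S hy1)
  have h := S.conservation y hy1 D hD (S.r P)
  rw [hres, Place.ord_algebraMap] at h
  have hDP : 0 < D P := by rw [hD, hy, ord_const_smul _ he]; exact hpos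
  obtain ⟨P', hP', hneg⟩ := exists_neg_of_mapDomain_apply_eq_zero S.r D P h hDP
  refine ⟨P', hP', ?_⟩
  rw [hD, hy, ord_const_smul _ he] at hneg
  by_contra hcon
  push Not at hcon
  have : 0 ≤ P'.ord ((x : F) - algebraMap K F c) :=
    Place.ord_nonneg_of_mem P' (sub_mem (Place.mem_of_ord_nonneg P' hcon) (P'.algebraMap_mem' c))
  omega

include S in
/-- **`π : A → k` is surjective.** (Not a field of `RedSetup`; it follows from conservation,
degree-one places on `F` and infinitely many places on the residue function field.) -/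
theorem pi_surjective (hdeg : ∀ P : Place K F, P.deg = 1) [Infinite (Place k Ft)] :
    Function.Surjective π := by
  classical
  intro κ
  by_contra hκ
  push Not at hκ
  obtain ⟨x, hx⟩ := S.res_surjective (algebraMap k Ft κ)
  by_cases hconst : ∃ c : K, (x : F) = algebraMap K F c
  · obtain ⟨c, hc⟩ := hconst
    have hcA : c ∈ A := (S.algebraMap_mem_iff c).mp (hc ▸ x.2)
    have hxc : x = const S ⟨c, hcA⟩ := Subtype.ext hc
    rw [hxc, res_const] at hx
    exact hκ ⟨c, hcA⟩ ((algebraMap k Ft).injective hx)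
  · push Not at hconst
    have hx0 : (x : F) ≠ 0 := fun h => hconst 0 (by rw [h, map_zero])
    obtain ⟨Dx, hDx, -⟩ := HasPrincipalDivisors.exists_divisor (K := K) (x : F) hx0
    obtain ⟨Q, hQ⟩ := Infinite.exists_notMem_finset (Dx.support.image S.r)
    obtain ⟨P, rfl⟩ := r_surjective S Q
    have hP : Dx P = 0 := by
      by_contra h
      exact hQ (Finset.mem_image_of_mem _ (Finsupp.mem_support_iff.mpr h))
    rw [hDx] at hP
    obtain ⟨c, hc⟩ := exists_ord_sub_pos_of_deg_one P (hdeg P) hconst hP.ge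
    obtain ⟨P', hP', hneg⟩ : ∃ P', S.r P' = S.r P ∧ P'.ord (x : F) < 0 := by
      by_cases hcA : c ∈ A
      · refine exists_pole_of_value S x P c hc (x - const S ⟨c, hcA⟩) 1 one_ne_zero
          (by rw [one_smul]; rfl) (κ - π ⟨c, hcA⟩) (sub_ne_zero.mpr (Ne.symm (hκ _))) ?_
        rw [map_sub, hx, res_const, map_sub]
      · have hc0 : c ≠ 0 := fun h => hcA (h ▸ A.zero_mem)
        have hci : c⁻¹ ∈ A := (A.mem_or_inv_mem c).resolve_left hcA
        have hnu : ¬ IsUnit (⟨c⁻¹, hci⟩ : A) := by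
          rw [isUnit_iff_inv_mem]
          rintro ⟨-, h⟩
          apply hcA
          simpa using h
        have hπ0 : π ⟨c⁻¹, hci⟩ = 0 := (pi_eq_zero_iff S _).mpr hnu
        refine exists_pole_of_value S x P c hc (1 - const S ⟨c⁻¹, hci⟩ * x) (-c⁻¹)
          (neg_ne_zero.mpr (inv_ne_zero hc0)) ?_ 1 one_ne_zero ?_
        · show (1 : F) - algebraMap K F c⁻¹ * (x : F) = (-c⁻¹) • ((x : F) - algebraMap K F c)
          rw [Algebra.smul_def, map_neg, map_inv₀]
          have : algebraMap K F c ≠ 0 := (map_ne_zero _).mpr hc0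
          field_simp
          ring
        · rw [map_sub, map_one, map_mul, res_const, hπ0, map_zero, zero_mul, sub_zero, map_one]
    apply hQ
    rw [← hP']
    refine Finset.mem_image_of_mem _ (Finsupp.mem_support_iff.mpr ?_)
    rw [hDx]
    omega

end Setup

section NormalForm

variable {K F k Ft : Type*} [Field K] [Field F] [Algebra K F] [Field k] [Field Ft]
  [Algebra k Ft] {A : ValuationSubring K} {π : A →+* k} (S : RedSetup (F := F) (Ft := Ft) A π)

/-- (I8) in hypothesis form: in large degree every element of `L~(r_* E)` is the reduction of an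
element of `L(E) ∩ O`. -/
def ResSurjLarge : Prop :=
  ∃ c : ℤ, ∀ E : Divisor K F, c ≤ Divisor.degree E →
    ∀ y ∈ riemannRochSpace (Finsupp.mapDomain S.r E),
      ∃ x : S.O, (x : F) ∈ riemannRochSpace E ∧ S.res x = y

/-- The target of L-RED in normal form: `r_* D = 0` and `m D = div f` with `res f = 1`. -/
def NormalFormKernel : Prop :=
  ∀ m : ℕ, (m : k) ≠ 0 → ∀ D : Divisor K F, Divisor.degree D = 0 →
    Finsupp.mapDomain S.r D = 0 →
    (∃ f : S.O, S.res f = 1 ∧ ∀ P : Place K F, (m • D) P = P.ord (f : F)) →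
    D ∈ Divisor.principal (K := K) (F := F)

theorem mapDomain_sub' {α β : Type*} (f : α → β) (D E : α →₀ ℤ) :
    Finsupp.mapDomain f (D - E) = Finsupp.mapDomain f D - Finsupp.mapDomain f E :=
  map_sub (Finsupp.mapDomain.addMonoidHom f) D E

/-- **Reduction to normal form.** -/
theorem noTorsionInKernel_of_normalForm (hF : RiemannPkg K F) (hFt : RiemannPkg k Ft)
    (h : NormalFormKernel S) : NoTorsionInKernel S := by
  have := hF.principal
  have := hFt.infinite_places
  intro m hm D hdegD hmD hrD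
  obtain ⟨f, hf0, hfD⟩ := hmD
  obtain ⟨g, hg0, hgD⟩ := hrD
  obtain ⟨G, hG⟩ := S.res_surjective g
  have hG1 : S.res G ≠ 0 := by rw [hG]; exact hg0
  have hG0 : (G : F) ≠ 0 := coe_ne_zero_of_res_ne_zero S hG1
  obtain ⟨DG, hDG, hDGdeg⟩ := HasPrincipalDivisors.exists_divisor (K := K) (G : F) hG0
  have hcons := S.conservation G hG1 DG hDG
  have hD'deg : Divisor.degree (D - DG) = 0 := by rw [map_sub, hdegD, hDGdeg, sub_zero]
  have hrD' : Finsupp.mapDomain S.r (D - DG) = 0 := by
    ext Q
    rw [mapDomain_sub', Finsupp.sub_apply, hgD, hcons, hG, sub_self, Finsupp.zero_apply]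
  -- the function `f / G ^ m`
  have hf1 : f * ((G : F) ^ m)⁻¹ ≠ 0 := mul_ne_zero hf0 (inv_ne_zero (pow_ne_zero m hG0))
  have hord1 : ∀ P : Place K F, (m • (D - DG)) P = P.ord (f * ((G : F) ^ m)⁻¹) := by
    intro P
    rw [P.ord_mul hf0 (inv_ne_zero (pow_ne_zero m hG0)), P.ord_inv, Place.ord_pow, ← hfD, ← hDG,
      Finsupp.smul_apply, Finsupp.smul_apply, Finsupp.sub_apply, nsmul_eq_mul, nsmul_eq_mul]
    ring
  obtain ⟨c, hc, hmem, hres⟩ := exists_smul_mem S hf1
  have hord2 : ∀ P : Place K F, (m • (D - DG)) P = P.ord (c • (f * ((G : F) ^ m)⁻¹)) := by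
    intro P
    rw [ord_const_smul _ hc, hord1]
  -- its reduction is a nonzero constant
  have hcons2 := S.conservation ⟨_, hmem⟩ hres (m • (D - DG)) hord2
  have hconst : S.res ⟨_, hmem⟩ ∈ riemannRochSpace (0 : Divisor k Ft) := by
    rw [mem_riemannRochSpace_iff]
    intro Q
    right
    rw [← hcons2 Q, Finsupp.mapDomain_smul, hrD']
    simp
  obtain ⟨κ, hκ⟩ := hFt.L_zero _ hconst
  have hκ0 : κ ≠ 0 := by
    rintro rfl
    rw [map_zero] at hκ
    exact hres hκ
  obtain ⟨a, rfl⟩ := pi_surjective S hF.deg_one κ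
  obtain ⟨u, rfl⟩ := (pi_ne_zero_iff S a).mp hκ0
  have hu0 : (((u⁻¹ : Aˣ) : A) : K) ≠ 0 := by
    intro h0
    have : ((u⁻¹ : Aˣ) : A) = 0 := Subtype.ext h0
    exact (u⁻¹).ne_zero this
  -- normalise the reduction to `1`
  have hD' : D - DG ∈ Divisor.principal (K := K) (F := F) := by
    refine h m hm (D - DG) hD'deg hrD' ⟨const S ((u⁻¹ : Aˣ) : A) * ⟨_, hmem⟩, ?_, ?_⟩
    · rw [map_mul, res_const, hκ, ← map_mul, ← map_mul, ← Units.val_mul, inv_mul_cancel,
        Units.val_one, map_one, map_one]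
    · intro P
      rw [hord2 P]
      show _ = P.ord (algebraMap K F _ * _)
      rw [← Algebra.smul_def, ord_const_smul _ hu0]
  have hDG' : DG ∈ Divisor.principal (K := K) (F := F) := ⟨G, hG0, hDG⟩
  have := add_mem hD' hDG'
  rwa [sub_add_cancel] at this

/-- **Choice of the second chart.** If `r_* D = 0`, there are a place `P₀` whose reduction avoids
`r(supp D)`, an `n`, and `g ∈ L(D + n P₀) ∩ O` with `res g = 1`; conservation forces
`div g = -D` at all places not reducing to `r P₀`. -/
theorem exists_chart_function (hF : RiemannPkg K F) (hFt : RiemannPkg k Ft)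
    (hsurj : ResSurjLarge S) (D : Divisor K F) (hrD : Finsupp.mapDomain S.r D = 0) :
    ∃ (P₀ : Place K F) (n : ℕ) (g : S.O), (∀ P ∈ D.support, S.r P ≠ S.r P₀) ∧ S.res g = 1 ∧
      (g : F) ∈ riemannRochSpace (D + n • Finsupp.single P₀ (1 : ℤ)) ∧
      (∀ P : Place K F, S.r P ≠ S.r P₀ → P.ord (g : F) = - D P) := by
  classical
  have := hF.principal
  have := hFt.infinite_places
  obtain ⟨c, hc⟩ := hsurj
  obtain ⟨Q₀, hQ₀⟩ := Infinite.exists_notMem_finset (D.support.image S.r)
  obtain ⟨P₀, rfl⟩ := r_surjective S Q₀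
  set n : ℕ := (c - Divisor.degree D).toNat with hn
  set E : Divisor K F := D + n • Finsupp.single P₀ (1 : ℤ) with hE
  have hdegE : c ≤ Divisor.degree E := by
    rw [hE, map_add, map_nsmul, Divisor.degree_single, hF.deg_one P₀]
    have := Int.self_le_toNat (c - Divisor.degree D)
    simp only [nsmul_eq_mul, Nat.cast_one, mul_one]
    omega
  have hrE : Finsupp.mapDomain S.r E = n • Finsupp.single (S.r P₀) (1 : ℤ) := by
    rw [hE, Finsupp.mapDomain_add, hrD, zero_add, Finsupp.mapDomain_smul,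
      Finsupp.mapDomain_single]
  have h1mem : (1 : Ft) ∈ riemannRochSpace (Finsupp.mapDomain S.r E) := by
    rw [mem_riemannRochSpace_iff]
    intro Q
    right
    rw [hrE, Place.ord_one, Finsupp.smul_apply, Finsupp.single_apply, nsmul_eq_mul]
    split_ifs <;> simp
  obtain ⟨g, hgE, hg1⟩ := hc E hdegE 1 h1mem
  have hg1' : S.res g ≠ 0 := by rw [hg1]; exact one_ne_zero
  have hg0 : (g : F) ≠ 0 := coe_ne_zero_of_res_ne_zero S hg1'
  obtain ⟨Dg, hDg, -⟩ := HasPrincipalDivisors.exists_divisor (K := K) (g : F) hg0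
  have hcons := S.conservation g hg1' Dg hDg
  refine ⟨P₀, n, g, ?_, hg1, hgE, ?_⟩
  · intro P hP hr
    exact hQ₀ (hr ▸ Finset.mem_image_of_mem _ hP)
  · intro P hP
    have h0 : Finsupp.mapDomain S.r (Dg + D) (S.r P) = 0 := by
      rw [Finsupp.mapDomain_add, Finsupp.add_apply, hcons, hg1, Place.ord_one, hrD]
      simp
    have hpos : ∀ P' : Place K F, S.r P' = S.r P → 0 ≤ (Dg + D) P' := by
      intro P' hP'
      have hne : P₀ ≠ P' := by
        rintro rfl
        exact hP hP'.symm
      have := (mem_riemannRochSpace_iff.mp hgE P').resolve_left hg0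
      rw [hE, Finsupp.add_apply, Finsupp.smul_apply, Finsupp.single_apply, if_neg hne] at this
      rw [Finsupp.add_apply, hDg]
      simp only [smul_zero, add_zero] at this
      omega
    have := eq_zero_of_mapDomain_apply_eq_zero S.r (Dg + D) (S.r P) h0 hpos P rfl
    rw [Finsupp.add_apply, hDg] at this
    omega


/-- An element of `O` with reduction `1`, as a unit of `O`. -/
theorem exists_unit_of_res_eq_one (x : S.O) (hx : S.res x = 1) :
    ∃ u : S.Oˣ, (u : S.O) = x ∧ S.res ((u⁻¹ : S.Oˣ) : S.O) = 1 := by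
  obtain ⟨u, rfl⟩ := (res_ne_zero_iff S x).mp (by rw [hx]; exact one_ne_zero)
  refine ⟨u, rfl, ?_⟩
  have : S.res (u : S.O) * S.res ((u⁻¹ : S.Oˣ) : S.O) = 1 := by
    rw [← map_mul, ← Units.val_mul, mul_inv_cancel, Units.val_one, map_one]
  rwa [hx, one_mul] at this

/-- **(R2): the two-chart data of a divisor in normal form.** For `D` with `r_* D = 0` and
`m D = div f`, `res f = 1`: a place `P₀` with `r P₀ ∉ r(supp D)`, a transition function `u`
(`= 1 / g`) and units `a₁`, `a₂` of `O`, all with reduction `1`, such that `u ^ m * a₂ = a₁`,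
`div u = D` and `div a₁ = 0` on the chart `{P | r P ≠ r P₀}`, `div a₂ = 0` off `supp D`, and
`div u ≤ D` off `P₀`, `ord_{P₀} u ≤ n`. -/
theorem exists_two_chart_data (hF : RiemannPkg K F) (hFt : RiemannPkg k Ft)
    (hsurj : ResSurjLarge S) (m : ℕ) (D : Divisor K F) (hrD : Finsupp.mapDomain S.r D = 0)
    (f : S.O) (hf : S.res f = 1) (hfD : ∀ P : Place K F, (m • D) P = P.ord (f : F)) :
    ∃ (P₀ : Place K F) (n : ℕ) (u a₁ a₂ : S.Oˣ),
      (∀ P ∈ D.support, S.r P ≠ S.r P₀) ∧
      S.res (u : S.O) = 1 ∧ S.res (a₁ : S.O) = 1 ∧ S.res (a₂ : S.O) = 1 ∧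
      u ^ m * a₂ = a₁ ∧
      (∀ P : Place K F, S.r P ≠ S.r P₀ → P.ord (((u : S.O) : F)) = D P) ∧
      (∀ P : Place K F, P ≠ P₀ → P.ord (((u : S.O) : F)) ≤ D P) ∧
      P₀.ord (((u : S.O) : F)) ≤ D P₀ + n ∧
      (∀ P : Place K F, D P = 0 → P.ord (((a₂ : S.O) : F)) = 0) ∧
      (∀ P : Place K F, S.r P ≠ S.r P₀ → P.ord (((a₁ : S.O) : F)) = 0) := by
  classical
  obtain ⟨P₀, n, g, hsupp, hg1, hgE, hgD⟩ := exists_chart_function S hF hFt hsurj D hrD
  obtain ⟨ug, rfl, hug⟩ := exists_unit_of_res_eq_one S g hg1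
  obtain ⟨uf, rfl, huf⟩ := exists_unit_of_res_eq_one S f hf
  have hg0 : (((ug : S.O)) : F) ≠ 0 :=
    coe_ne_zero_of_res_ne_zero S (by rw [hg1]; exact one_ne_zero)
  -- coercion of inverses
  have hinv : ∀ w : S.Oˣ, (((w⁻¹ : S.Oˣ) : S.O) : F) = (((w : S.O)) : F)⁻¹ := by
    intro w
    have h1 : (((w : S.O)) : F) * (((w⁻¹ : S.Oˣ) : S.O) : F) = 1 := by
      rw [← S.O.coe_mul, ← Units.val_mul, mul_inv_cancel]; rfl
    exact (inv_eq_of_mul_eq_one_right h1).symm
  have hcoe : (((uf⁻¹ * (ug ^ m)⁻¹ : S.Oˣ) : S.O) : F)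
      = (((uf : S.O)) : F)⁻¹ * ((((ug : S.O)) : F) ^ m)⁻¹ := by
    rw [Units.val_mul, S.O.coe_mul, hinv, hinv, Units.val_pow_eq_pow_val, S.O.coe_pow]
  refine ⟨P₀, n, ug⁻¹, uf⁻¹ * (ug ^ m)⁻¹, uf⁻¹, hsupp, hug, ?_, huf, ?_, ?_, ?_, ?_, ?_, ?_⟩
  · rw [Units.val_mul, map_mul, huf, one_mul]
    have : S.res ((ug ^ m : S.Oˣ) : S.O) * S.res (((ug ^ m)⁻¹ : S.Oˣ) : S.O) = 1 := by
      rw [← map_mul, ← Units.val_mul, mul_inv_cancel, Units.val_one, map_one]
    rwa [Units.val_pow_eq_pow_val, map_pow, hg1, one_pow, one_mul] at this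
  · rw [inv_pow, mul_comm]
  · intro P hP
    rw [hinv, P.ord_inv, hgD P hP, neg_neg]
  · intro P hP
    have := (mem_riemannRochSpace_iff.mp hgE P).resolve_left hg0
    rw [Finsupp.add_apply, Finsupp.smul_apply, Finsupp.single_apply, if_neg (Ne.symm hP)] at this
    simp only [smul_zero, add_zero] at this
    rw [hinv, P.ord_inv]
    omega
  · have := (mem_riemannRochSpace_iff.mp hgE P₀).resolve_left hg0
    rw [Finsupp.add_apply, Finsupp.smul_apply, Finsupp.single_apply, if_pos rfl] at this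
    simp only [nsmul_eq_mul, mul_one] at this
    rw [hinv, P₀.ord_inv]
    omega
  · intro P hP
    rw [hinv, P.ord_inv, ← hfD, Finsupp.smul_apply, hP, smul_zero, neg_zero]
  · intro P hP
    have hf0 : (((uf : S.O)) : F) ≠ 0 :=
      coe_ne_zero_of_res_ne_zero S (by rw [hf]; exact one_ne_zero)
    rw [hcoe, P.ord_mul (inv_ne_zero hf0) (inv_ne_zero (pow_ne_zero m hg0)), P.ord_inv,
      P.ord_inv, Place.ord_pow, ← hfD, hgD P hP, Finsupp.smul_apply, nsmul_eq_mul]
    ring

end NormalForm

end Fermat.Agent.Red.NormalForm
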