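import Mathlib

/-!
# Track L-RED, step (R4-alg): Smith normal form over a valuation ring

Pure commutative algebra over a valuation ring `A` (`[CommRing A] [IsDomain A] [ValuationRing A]`).

* `ValSmith.exists_dvd_all` : a nonempty finite family in a valuation ring has an element
  dividing all the others.
* `ValSmith.free_of_finite_of_torsion_eq_bot`, `ValSmith.free_of_finite_of_isTorsionFree` : (F)
  finitely generated torsion-free modules over a valuation ring are free.
* `ValSmith.eq_top_of_sup_maximalIdeal_smul_eq_top` : (N) Nakayama, `N + 𝔪 M = M ⇒ N = M`.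
* `ValSmith.HasSmithBases`, `ValSmith.hasSmithBases` : (S) every linear map between finite free
  modules has diagonalising bases.
* `ValSmith.mem_smul_top_iff_repr` : membership in `I • ⊤` is tested on coordinates.
* `ValSmith.exists_kernel_of_approx` : (K) the approximate kernel lemma (no rank-one hypothesis
  is needed).
-/

set_option autoImplicit false

universe u v w

namespace Fermat.Agent.Red.ValSmith

open Module

section Basics

variable {A : Type*} [CommRing A] [IsDomain A] [ValuationRing A]

/-- In a valuation ring, a nonempty finite family contains an element dividing all the others. -/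
theorem exists_dvd_all {ι : Type*} (s : Finset ι) (hs : s.Nonempty) (f : ι → A) :
    ∃ i ∈ s, ∀ j ∈ s, f i ∣ f j := by
  classical
  induction s using Finset.induction_on with
  | empty => exact absurd hs (by simp)
  | insert a s ha ih =>
    rcases s.eq_empty_or_nonempty with rfl | hne
    · exact ⟨a, by simp, by simp⟩
    · obtain ⟨i, hi, hdiv⟩ := ih hne
      rcases ValuationRing.dvd_total (f a) (f i) with h | h
      · refine ⟨a, Finset.mem_insert_self _ _, fun j hj => ?_⟩
        rcases Finset.mem_insert.1 hj with rfl | hj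
        · exact dvd_rfl
        · exact h.trans (hdiv j hj)
      · refine ⟨i, Finset.mem_insert_of_mem hi, fun j hj => ?_⟩
        rcases Finset.mem_insert.1 hj with rfl | hj
        · exact h
        · exact hdiv j hj

/-- (F) A finitely generated torsion-free module over a valuation ring is free. -/
theorem free_of_finite_of_torsion_eq_bot (M : Type*) [AddCommGroup M] [Module A M]
    [Module.Finite A M] (h : Submodule.torsion A M = ⊥) : Module.Free A M := by
  have : Module.Flat A M := Module.Flat.flat_iff_torsion_eq_bot_of_isBezout.2 h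
  exact Module.free_of_flat_of_isLocalRing

/-- (F') same with the `IsTorsionFree` class. -/
theorem free_of_finite_of_isTorsionFree (M : Type*) [AddCommGroup M] [Module A M]
    [Module.Finite A M] [Module.IsTorsionFree A M] : Module.Free A M := by
  apply free_of_finite_of_torsion_eq_bot
  rw [← Submodule.isTorsionFree_iff_torsion_eq_bot]
  infer_instance

/-- (N) Nakayama over a local ring: `N + 𝔪 M = M` with `M` finitely generated forces `N = M`. -/
theorem eq_top_of_sup_maximalIdeal_smul_eq_top {R : Type*} [CommRing R] [IsLocalRing R]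
    {M : Type*} [AddCommGroup M] [Module R M] [Module.Finite R M] (N : Submodule R M)
    (h : N ⊔ IsLocalRing.maximalIdeal R • (⊤ : Submodule R M) = ⊤) : N = ⊤ := by
  rw [eq_top_iff]
  apply Submodule.le_of_le_smul_of_le_jacobson_bot (I := IsLocalRing.maximalIdeal R)
    Module.Finite.fg_top (IsLocalRing.maximalIdeal_le_jacobson _)
  rw [h]

end Basics

section Split

variable {A : Type*} [CommRing A]
variable {N : Type*} [AddCommGroup N] [Module A N]

/-- A functional `ψ` with `ψ x₀ = 1` splits `N` as `A × ker ψ`. -/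
def splitEquiv (ψ : N →ₗ[A] A) (x₀ : N) (h : ψ x₀ = 1) : (A × LinearMap.ker ψ) ≃ₗ[A] N where
  toFun p := p.1 • x₀ + (p.2 : N)
  map_add' p q := by simp [add_smul]; abel
  map_smul' c p := by simp [mul_smul, smul_add]
  invFun x := (ψ x, ⟨x - ψ x • x₀, by simp [h]⟩)
  left_inv p := by
    have h2 : ψ (p.2 : N) = 0 := p.2.2
    ext <;> simp [h, h2]
  right_inv x := by simp

@[simp] theorem splitEquiv_apply (ψ : N →ₗ[A] A) (x₀ : N) (h : ψ x₀ = 1)
    (p : A × LinearMap.ker ψ) : splitEquiv ψ x₀ h p = p.1 • x₀ + (p.2 : N) := rfl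

end Split

section SplitVal

variable {A : Type*} [CommRing A] [IsDomain A] [ValuationRing A]
variable {N : Type*} [AddCommGroup N] [Module A N] [Module.Finite A N] [Module.Free A N]

omit [IsDomain A] [ValuationRing A] [Module.Free A N] in
theorem ker_finite_of_split (ψ : N →ₗ[A] A) (x₀ : N) (h : ψ x₀ = 1) :
    Module.Finite A (LinearMap.ker ψ) := by
  refine Module.Finite.of_surjective
    ((LinearMap.snd A A (LinearMap.ker ψ)).comp (splitEquiv ψ x₀ h).symm.toLinearMap) ?_
  intro z
  refine ⟨splitEquiv ψ x₀ h (0, z), ?_⟩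
  show ((splitEquiv ψ x₀ h).symm (splitEquiv ψ x₀ h (0, z))).2 = z
  rw [LinearEquiv.symm_apply_apply]

theorem ker_free_of_split (ψ : N →ₗ[A] A) (x₀ : N) (h : ψ x₀ = 1) :
    Module.Free A (LinearMap.ker ψ) := by
  have := ker_finite_of_split ψ x₀ h
  exact free_of_finite_of_isTorsionFree _

theorem finrank_ker_of_split (ψ : N →ₗ[A] A) (x₀ : N) (h : ψ x₀ = 1) :
    Module.finrank A (LinearMap.ker ψ) + 1 = Module.finrank A N := by
  have := ker_finite_of_split ψ x₀ h
  have := ker_free_of_split ψ x₀ h
  rw [← (splitEquiv ψ x₀ h).finrank_eq, Module.finrank_prod, Module.finrank_self, add_comm]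

end SplitVal

section Smith

variable {A : Type*} [CommRing A]
variable {M : Type*} [AddCommGroup M] [Module A M]
variable {T : Type*} [AddCommGroup T] [Module A T]

/-- `PP` admits diagonalising (Smith) bases: a basis `(x_i)_{i ∈ ι₁ ⊕ ι₂}` of `M` and a basis
`(y_j)_{j ∈ ι₁ ⊕ κ₂}` of `T` with `PP x_i = e_i y_i` for `i ∈ ι₁` and `PP x_i = 0` for `i ∈ ι₂`. -/
def HasSmithBases (PP : M →ₗ[A] T) : Prop :=
  ∃ (ι₁ ι₂ κ₂ : Type) (_ : Fintype ι₁) (_ : Fintype ι₂) (_ : Fintype κ₂)
    (bM : Basis (ι₁ ⊕ ι₂) A M) (bT : Basis (ι₁ ⊕ κ₂) A T) (e : ι₁ → A),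
    (∀ i, PP (bM (Sum.inl i)) = e i • bT (Sum.inl i)) ∧ ∀ i, PP (bM (Sum.inr i)) = 0

theorem hasSmithBases_zero [Nontrivial A] [Module.Finite A M] [Module.Free A M] [Module.Finite A T]
    [Module.Free A T] : HasSmithBases (0 : M →ₗ[A] T) :=
  ⟨Empty, Fin (finrank A M), Fin (finrank A T), inferInstance, inferInstance, inferInstance,
    (Module.finBasis A M).reindex (Equiv.emptySum _ _).symm,
    (Module.finBasis A T).reindex (Equiv.emptySum _ _).symm, Empty.elim,
    fun i => i.elim, fun _ => rfl⟩

theorem hasSmithBases_of_split (PP : M →ₗ[A] T) (ψ : M →ₗ[A] A) (x₀ : M) (hψ : ψ x₀ = 1)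
    (φ : T →ₗ[A] A) (y₀ : T) (hφ : φ y₀ = 1) (e : A) (hx₀ : PP x₀ = e • y₀)
    (hmaps : ∀ x ∈ LinearMap.ker ψ, PP x ∈ LinearMap.ker φ)
    (hrec : HasSmithBases (PP.restrict hmaps)) : HasSmithBases PP := by
  obtain ⟨ι₁, ι₂, κ₂, _, _, _, bM', bT', e', h1, h2⟩ := hrec
  refine ⟨Unit ⊕ ι₁, ι₂, κ₂, inferInstance, inferInstance, inferInstance,
    (((Basis.singleton Unit A).prod bM').map (splitEquiv ψ x₀ hψ)).reindex
      (Equiv.sumAssoc Unit ι₁ ι₂).symm,
    (((Basis.singleton Unit A).prod bT').map (splitEquiv φ y₀ hφ)).reindex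
      (Equiv.sumAssoc Unit ι₁ κ₂).symm,
    Sum.elim (fun _ => e) e', ?_, ?_⟩
  · rintro (u | i)
    · simp [hx₀]
    · have := congrArg (Subtype.val) (h1 i)
      simp only [LinearMap.coe_restrict_apply, Submodule.coe_smul] at this
      simp [this]
  · intro i
    have := congrArg (Subtype.val) (h2 i)
    simp only [LinearMap.coe_restrict_apply] at this
    simp [this]

end Smith

section SmithMain

variable {A : Type w} [CommRing A] [IsDomain A] [ValuationRing A]

theorem hasSmithBases_aux (n : ℕ) :
    ∀ (M : Type u) (T : Type v) [AddCommGroup M] [Module A M] [Module.Finite A M]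
      [Module.Free A M] [AddCommGroup T] [Module A T] [Module.Finite A T] [Module.Free A T]
      (PP : M →ₗ[A] T), Module.finrank A M = n → HasSmithBases PP := by
  induction n with
  | zero =>
    intro M T _ _ _ _ _ _ _ _ PP hn
    have : Subsingleton M := Module.finrank_zero_iff.1 hn
    have hPP : PP = 0 := by
      ext x
      rw [Subsingleton.elim x 0]
      simp
    subst hPP
    exact hasSmithBases_zero
  | succ n ih =>
    intro M T _ _ _ _ _ _ _ _ PP hn
    by_cases hPP : PP = 0
    · subst hPP
      exact hasSmithBases_zero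
    classical
    set b := Module.finBasis A M with hb
    set c := Module.finBasis A T with hc
    -- the matrix entries
    set f : Fin (finrank A M) × Fin (finrank A T) → A := fun p => c.repr (PP (b p.1)) p.2 with hf
    -- a nonzero entry
    obtain ⟨i₁, hi₁⟩ : ∃ i, PP (b i) ≠ 0 := by
      by_contra hcon
      push Not at hcon
      exact hPP (b.ext fun i => by simpa using hcon i)
    obtain ⟨j₁, hj₁⟩ : ∃ j, c.repr (PP (b i₁)) j ≠ 0 := by
      by_contra hcon
      push Not at hcon
      apply hi₁
      apply c.repr.injective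
      ext j
      simpa using hcon j
    obtain ⟨⟨i₀, j₀⟩, -, hdiv⟩ := exists_dvd_all (Finset.univ) ⟨(i₁, j₁), Finset.mem_univ _⟩ f
    set e : A := f (i₀, j₀) with he
    have he0 : e ≠ 0 := by
      intro h0
      have := hdiv (i₁, j₁) (Finset.mem_univ _)
      rw [h0, zero_dvd_iff] at this
      exact hj₁ this
    choose q hq using fun p => hdiv p (Finset.mem_univ p)
    have hq1 : q (i₀, j₀) = 1 := by
      have := hq (i₀, j₀)
      rw [← he] at this
      exact (mul_left_cancel₀ he0 (by rw [mul_one]; exact this)).symm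
    -- the two functionals
    set ψ : M →ₗ[A] A := b.constr A (fun i => q (i, j₀)) with hψdef
    set φ : T →ₗ[A] A := c.coord j₀ with hφdef
    set y₀ : T := c.equivFun.symm (fun j => q (i₀, j)) with hy₀
    have hrepr_y₀ : ∀ j, c.repr y₀ j = q (i₀, j) := by
      intro j
      have := congrFun (c.equivFun.apply_symm_apply (fun j => q (i₀, j))) j
      rwa [Basis.equivFun_apply] at this
    have hψ : ψ (b i₀) = 1 := by
      rw [hψdef, Basis.constr_basis, hq1]
    have hφ : φ y₀ = 1 := by
      rw [hφdef, Basis.coord_apply, hrepr_y₀, hq1]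
    have hx₀ : PP (b i₀) = e • y₀ := by
      apply c.repr.injective
      ext j
      rw [map_smul, Finsupp.smul_apply, hrepr_y₀, smul_eq_mul, ← hq (i₀, j)]
    have hcomp : ∀ x, φ (PP x) = e * ψ x := by
      have : φ.comp PP = e • ψ := by
        apply b.ext
        intro i
        rw [LinearMap.comp_apply, LinearMap.smul_apply, hψdef, Basis.constr_basis, hφdef,
          Basis.coord_apply, smul_eq_mul, ← hq (i, j₀)]
      intro x
      have := LinearMap.congr_fun this x
      simpa using this
    have hmaps : ∀ x ∈ LinearMap.ker ψ, PP x ∈ LinearMap.ker φ := by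
      intro x hx
      rw [LinearMap.mem_ker] at hx ⊢
      rw [hcomp, hx, mul_zero]
    have := ker_finite_of_split ψ (b i₀) hψ
    have := ker_free_of_split ψ (b i₀) hψ
    have := ker_finite_of_split φ y₀ hφ
    have := ker_free_of_split φ y₀ hφ
    have hrank : Module.finrank A (LinearMap.ker ψ) = n := by
      have := finrank_ker_of_split ψ (b i₀) hψ
      omega
    exact hasSmithBases_of_split PP ψ (b i₀) hψ φ y₀ hφ e hx₀ hmaps
      (ih (LinearMap.ker ψ) (LinearMap.ker φ) (PP.restrict hmaps) hrank)

/-- **(S) Smith normal form over a valuation ring.** Every linear map between finite free modules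
over a valuation ring admits diagonalising bases. -/
theorem hasSmithBases {M : Type u} {T : Type v} [AddCommGroup M] [Module A M] [Module.Finite A M]
    [Module.Free A M] [AddCommGroup T] [Module A T] [Module.Finite A T] [Module.Free A T]
    (PP : M →ₗ[A] T) : HasSmithBases PP :=
  hasSmithBases_aux _ M T PP rfl

end SmithMain

section Coord

variable {A : Type*} [CommRing A]
variable {M : Type*} [AddCommGroup M] [Module A M]

/-- Membership in `I • ⊤` is tested on the coordinates in any basis. -/
theorem mem_smul_top_iff_repr {ι : Type*} (b : Basis ι A M) (I : Ideal A) (x : M) :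
    x ∈ I • (⊤ : Submodule A M) ↔ ∀ i, b.repr x i ∈ I := by
  constructor
  · intro hx
    refine Submodule.smul_induction_on (p := fun x => ∀ i, b.repr x i ∈ I) hx ?_ ?_
    · intro r hr n _ i
      rw [map_smul, Finsupp.smul_apply, smul_eq_mul]
      exact I.mul_mem_right _ hr
    · intro x y hx hy i
      rw [map_add, Finsupp.add_apply]
      exact I.add_mem (hx i) (hy i)
  · intro h
    rw [← b.linearCombination_repr x, Finsupp.linearCombination_apply]
    refine Submodule.sum_mem _ fun i _ => ?_
    exact Submodule.smul_mem_smul (h i) Submodule.mem_top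

end Coord

section ApproxKernel

variable {A : Type*} [CommRing A] [IsDomain A] [ValuationRing A]
variable {M : Type*} [AddCommGroup M] [Module A M] [Module.Finite A M] [Module.Free A M]
variable {T : Type*} [AddCommGroup T] [Module A T] [Module.Finite A T] [Module.Free A T]

/-- An element of a valuation ring (more generally of a local domain) lying in the maximal ideal
and divisible by every nonzero element is zero. -/
theorem eq_zero_of_forall_dvd {R : Type*} [CommRing R] [IsDomain R] [IsLocalRing R] {e : R}
    (he : e ∈ IsLocalRing.maximalIdeal R) (h : ∀ a : R, a ≠ 0 → a ∣ e) : e = 0 := by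
  by_contra hne
  obtain ⟨t, ht⟩ := h (e ^ 2) (pow_ne_zero 2 hne)
  have h1 : e * (e * t) = e * 1 := by rw [mul_one]; nth_rewrite 3 [ht]; ring
  have h2 : e * t = 1 := mul_left_cancel₀ hne h1
  have : IsUnit e := IsUnit.of_mul_eq_one t h2
  exact (IsLocalRing.mem_maximalIdeal e).1 he this

/-- **(K) Approximate kernel lemma.** Let `PP : M → T` be a linear map of finite free modules over
a valuation ring `A` with maximal ideal `𝔪`. Assume the kernel of the reduction of `PP` modulo
`𝔪` is the line spanned by the class of `σ` (`hσ`, `hσker`, `hker`), and that for every nonzero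
`a` there is an approximate kernel vector `s ≡ σ mod 𝔪` with `PP s ∈ a T`. Then there is an exact
kernel vector `s` with `s ≡ u σ mod 𝔪` for a unit `u` (in particular `s ∉ 𝔪 M`). -/
theorem exists_kernel_of_approx (PP : M →ₗ[A] T) (σ : M)
    (hσ : σ ∉ IsLocalRing.maximalIdeal A • (⊤ : Submodule A M))
    (hσker : PP σ ∈ IsLocalRing.maximalIdeal A • (⊤ : Submodule A T))
    (hker : ∀ s : M, PP s ∈ IsLocalRing.maximalIdeal A • (⊤ : Submodule A T) →
      ∃ c : A, s - c • σ ∈ IsLocalRing.maximalIdeal A • (⊤ : Submodule A M))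
    (happrox : ∀ a : A, a ≠ 0 → ∃ s : M,
      s - σ ∈ IsLocalRing.maximalIdeal A • (⊤ : Submodule A M) ∧
        PP s ∈ Ideal.span {a} • (⊤ : Submodule A T)) :
    ∃ s : M, PP s = 0 ∧ ∃ u : Aˣ,
      s - (u : A) • σ ∈ IsLocalRing.maximalIdeal A • (⊤ : Submodule A M) := by
  classical
  obtain ⟨ι₁, ι₂, κ₂, _, _, _, bM, bT, e, h1, h2⟩ := hasSmithBases PP
  -- coordinates of `PP x`
  have hcoord : ∀ (x : M) (i : ι₁),
      bT.repr (PP x) (Sum.inl i) = e i * bM.repr x (Sum.inl i) := by
    intro x i
    have : (bT.coord (Sum.inl i)).comp PP = e i • bM.coord (Sum.inl i) := by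
      apply bM.ext
      rintro (i' | k)
      · rw [LinearMap.comp_apply, h1 i', LinearMap.smul_apply, Basis.coord_apply,
          Basis.coord_apply, map_smul, Finsupp.smul_apply, Basis.repr_self, Basis.repr_self,
          smul_eq_mul, smul_eq_mul]
        by_cases hii : i' = i
        · subst hii; simp
        · have hne : (Sum.inl i' : ι₁ ⊕ κ₂) ≠ Sum.inl i := fun h => hii (Sum.inl_injective h)
          have hne' : (Sum.inl i' : ι₁ ⊕ ι₂) ≠ Sum.inl i := fun h => hii (Sum.inl_injective h)
          rw [Finsupp.single_eq_of_ne' hne, Finsupp.single_eq_of_ne' hne']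
          simp
      · rw [LinearMap.comp_apply, h2 k, map_zero, LinearMap.smul_apply, Basis.coord_apply,
          Basis.repr_self,
          Finsupp.single_eq_of_ne' (show (Sum.inr k : ι₁ ⊕ ι₂) ≠ Sum.inl i from Sum.inr_ne_inl),
          smul_zero]
    have := LinearMap.congr_fun this x
    simpa [Basis.coord_apply] using this
  -- a basis vector congruent to a multiple of `σ` forces the multiplier to be a unit
  have hunit : ∀ (k : ι₁ ⊕ ι₂) (c : A),
      bM k - c • σ ∈ IsLocalRing.maximalIdeal A • (⊤ : Submodule A M) → IsUnit c := by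
    intro k c hc
    by_contra hcu
    have hcm : c ∈ IsLocalRing.maximalIdeal A := (IsLocalRing.mem_maximalIdeal c).2 hcu
    have h3 : c • σ ∈ IsLocalRing.maximalIdeal A • (⊤ : Submodule A M) :=
      Submodule.smul_mem_smul hcm Submodule.mem_top
    have h4 : bM k ∈ IsLocalRing.maximalIdeal A • (⊤ : Submodule A M) := by
      have := Submodule.add_mem _ hc h3
      simpa using this
    have h5 := (mem_smul_top_iff_repr bM _ _).1 h4 k
    rw [Basis.repr_self, Finsupp.single_eq_same] at h5
    exact (IsLocalRing.mem_maximalIdeal (1 : A)).1 h5 isUnit_one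
  by_cases hι₂ : Nonempty ι₂
  · -- a basis vector in the exact kernel
    obtain ⟨k⟩ := hι₂
    obtain ⟨c, hc⟩ := hker (bM (Sum.inr k)) (by rw [h2 k]; exact Submodule.zero_mem _)
    obtain ⟨u, rfl⟩ := hunit _ c hc
    exact ⟨bM (Sum.inr k), h2 k, u, hc⟩
  · rw [not_nonempty_iff] at hι₂
    -- there is a non-unit elementary divisor
    obtain ⟨i₀, hi₀⟩ : ∃ i₀, e i₀ ∈ IsLocalRing.maximalIdeal A := by
      by_contra hcon
      push Not at hcon
      apply hσ
      rw [mem_smul_top_iff_repr bM]
      rintro (i | k)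
      · have h3 := (mem_smul_top_iff_repr bT _ _).1 hσker (Sum.inl i)
        rw [hcoord] at h3
        have hu : IsUnit (e i) := by
          by_contra hnu
          exact hcon i ((IsLocalRing.mem_maximalIdeal _).2 hnu)
        exact (Ideal.unit_mul_mem_iff_mem _ hu).1 h3
      · exact (hι₂.false k).elim
    have hPPi₀ : PP (bM (Sum.inl i₀)) ∈ IsLocalRing.maximalIdeal A • (⊤ : Submodule A T) := by
      rw [h1 i₀]
      exact Submodule.smul_mem_smul hi₀ Submodule.mem_top
    obtain ⟨c, hc⟩ := hker (bM (Sum.inl i₀)) hPPi₀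
    obtain ⟨u, rfl⟩ := hunit _ c hc
    -- the `i₀`-coordinate of `σ` is a unit
    have hσi₀ : bM.repr σ (Sum.inl i₀) ∉ IsLocalRing.maximalIdeal A := by
      intro hmem
      have h3 := (mem_smul_top_iff_repr bM _ _).1 hc (Sum.inl i₀)
      rw [map_sub, map_smul, Finsupp.sub_apply, Finsupp.smul_apply, Basis.repr_self,
        Finsupp.single_eq_same, smul_eq_mul] at h3
      have h4 : (u : A) * bM.repr σ (Sum.inl i₀) ∈ IsLocalRing.maximalIdeal A :=
        Ideal.mul_mem_left _ _ hmem
      have h5 : (1 : A) ∈ IsLocalRing.maximalIdeal A := by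
        have h6 := Ideal.add_mem _ h3 h4
        rwa [sub_add_cancel] at h6
      exact (IsLocalRing.mem_maximalIdeal (1 : A)).1 h5 isUnit_one
    -- the elementary divisor `e i₀` is divisible by every nonzero `a`
    have hdvd : ∀ a : A, a ≠ 0 → a ∣ e i₀ := by
      intro a ha
      obtain ⟨s, hs1, hs2⟩ := happrox a ha
      have h3 := (mem_smul_top_iff_repr bM _ _).1 hs1 (Sum.inl i₀)
      rw [map_sub, Finsupp.sub_apply] at h3
      have hsu : IsUnit (bM.repr s (Sum.inl i₀)) := by
        by_contra hnu
        have h4 : bM.repr s (Sum.inl i₀) ∈ IsLocalRing.maximalIdeal A :=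
          (IsLocalRing.mem_maximalIdeal _).2 hnu
        apply hσi₀
        have := Ideal.sub_mem _ h4 h3
        simp at this
        exact this
      have h5 := (mem_smul_top_iff_repr bT _ _).1 hs2 (Sum.inl i₀)
      rw [hcoord, Ideal.mem_span_singleton] at h5
      exact (IsUnit.dvd_mul_right hsu).1 h5
    have he0 : e i₀ = 0 := eq_zero_of_forall_dvd hi₀ hdvd
    refine ⟨bM (Sum.inl i₀), ?_, u, hc⟩
    rw [h1 i₀, he0, zero_smul]

/-- Corollary of (K): an exact kernel vector which is nonzero modulo `𝔪`. -/
theorem exists_kernel_notMem_of_approx (PP : M →ₗ[A] T) (σ : M)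
    (hσ : σ ∉ IsLocalRing.maximalIdeal A • (⊤ : Submodule A M))
    (hσker : PP σ ∈ IsLocalRing.maximalIdeal A • (⊤ : Submodule A T))
    (hker : ∀ s : M, PP s ∈ IsLocalRing.maximalIdeal A • (⊤ : Submodule A T) →
      ∃ c : A, s - c • σ ∈ IsLocalRing.maximalIdeal A • (⊤ : Submodule A M))
    (happrox : ∀ a : A, a ≠ 0 → ∃ s : M,
      s - σ ∈ IsLocalRing.maximalIdeal A • (⊤ : Submodule A M) ∧
        PP s ∈ Ideal.span {a} • (⊤ : Submodule A T)) :
    ∃ s : M, PP s = 0 ∧ s ∉ IsLocalRing.maximalIdeal A • (⊤ : Submodule A M) := by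
  obtain ⟨s, hs, u, hu⟩ := exists_kernel_of_approx PP σ hσ hσker hker happrox
  refine ⟨s, hs, fun hmem => hσ ?_⟩
  have h1 : (u : A) • σ ∈ IsLocalRing.maximalIdeal A • (⊤ : Submodule A M) := by
    have h0 := Submodule.sub_mem _ hmem hu
    rwa [sub_sub_cancel] at h0
  have h2 := Submodule.smul_mem _ ((u⁻¹ : Aˣ) : A) h1
  rwa [smul_smul, Units.inv_mul, one_smul] at h2

end ApproxKernel

end Fermat.Agent.Red.ValSmith
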