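import Fermat.Agent.Red.TwoChartLocal

/-!
# Track L-RED, step (R3): the two-chart approximation theorem for subrings of an ambient ring

`Red/TwoChartLocal.lean` is stated for subrings `A ≤ B₁, B₂` of a ring `R` (in practice
`R = B₁₂`, the ring of the intersection of the two charts), with congruences modulo `a R`.
Here the same statement is given for subrings `A ≤ B₁, B₂ ≤ R'` of an arbitrary ambient
commutative ring `F` (in practice the function field), with congruences modulo `a R'`: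
`exists_approx_all_sub`.  The proof is a transfer to the subtype `↥R'`.
-/

set_option autoImplicit false

namespace Fermat.Agent.Red

variable {F : Type*} [CommRing F]

section Transfer

variable (R' : Subring F)

/-- A subring of `F` viewed inside the subtype `↥R'`. -/
def subIn (C : Subring F) : Subring R' := C.comap R'.subtype

variable {R'}

theorem mem_subIn {C : Subring F} {x : R'} : x ∈ subIn R' C ↔ (x : F) ∈ C := Iff.rfl

theorem subIn_mono {C C' : Subring F} (h : C ≤ C') : subIn R' C ≤ subIn R' C' :=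
  fun _ hx => h hx

theorem isUnitIn_subIn {A : Subring F} (hA : A ≤ R') {l : R'} :
    IsUnitIn (subIn R' A) l ↔ IsUnitIn A (l : F) := by
  constructor
  · rintro ⟨l', hl', h⟩
    exact ⟨(l' : F), hl', by rw [← R'.coe_mul, h]; rfl⟩
  · rintro ⟨l', hl', h⟩
    exact ⟨⟨l', hA hl'⟩, hl', Subtype.ext (by rw [R'.coe_mul]; exact h)⟩

theorem uRedA_subIn {A B : Subring F} (hA : A ≤ R') (hB : B ≤ R') {b : R'}
    (h : URedA A B (b : F)) : URedA (subIn R' A) (subIn R' B) b := by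
  obtain ⟨b', hb', a', ha', hnu, w, hw, e⟩ := h
  refine ⟨⟨b', hB hb'⟩, hb', ⟨a', hA ha'⟩, ha', ?_, ⟨w, hB hw⟩, hw, Subtype.ext ?_⟩
  · intro hu
    exact hnu ((isUnitIn_subIn hA).mp hu)
  · simpa using e

end Transfer

/-- **(R3), corollary form, for subrings of an ambient ring.**  `A ≤ B₁, B₂ ≤ R'` subrings of `F`,
`A` local and archimedean with respect to the nonzero non-unit `a₀`; all congruences are modulo
`a R'`.  If the bundle given by `u` is trivial modulo `a₀` then it is trivial modulo every nonzero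
`a ∈ A`, by elements with the same reductions. -/
theorem exists_approx_all_sub {R' A B₁ B₂ : Subring F} (hA₁ : A ≤ B₁) (hA₂ : A ≤ B₂)
    (h₁ : B₁ ≤ R') (h₂ : B₂ ≤ R')
    (hloc : ∀ l ∈ A, ¬ IsUnitIn A l → ∀ a ∈ A, ¬ IsUnitIn A a →
      ∀ y₁ ∈ B₁, ∀ y₂ ∈ B₁, l * y₁ + a * y₂ ≠ 1)
    {a₀ : F} (ha₀ : a₀ ∈ A) (ha₀u : ¬ IsUnitIn A a₀)
    (hnzd : ∀ x ∈ R', a₀ * x = 0 → x = 0)
    (hsat₂ : ∀ x ∈ R', a₀ * x ∈ B₂ → x ∈ B₂)
    (h0 : ∀ x₁ ∈ B₁, ∀ x₂ ∈ B₂, (∃ w ∈ R', x₁ - x₂ = a₀ * w) →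
      ∃ l ∈ A, ∃ y ∈ B₁, x₁ = l + a₀ * y)
    (harch : ∀ a ∈ A, a ≠ 0 → ¬ IsUnitIn A a → ∃ n : ℕ, ∃ c ∈ A, a₀ ^ n = a * c)
    (harch' : ∀ a' ∈ A, ¬ IsUnitIn A a' → ∃ n : ℕ, ∃ c ∈ A, a' ^ n = a₀ * c)
    (m : ℕ) (hm : IsUnitIn A (m : F))
    (u a₁ a₂ : F) (hu : u ∈ R') (ha₁ : a₁ ∈ B₁) (ha₂ : a₂ ∈ B₂) (hua₁ : URedA A B₁ a₁)
    (hma : u ^ m * a₂ = a₁)
    (b₁ b₂ : F) (hb₁ : b₁ ∈ B₁) (hb₂ : b₂ ∈ B₂)
    (hub₁ : URedA A B₁ b₁) (hub₂ : URedA A B₂ b₂) (hb : ∃ w ∈ R', u * b₂ - b₁ = a₀ * w)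
    (a : F) (ha : a ∈ A) (ha0 : a ≠ 0) :
    ∃ y₁ ∈ B₁, ∃ y₂ ∈ B₂, ∃ w ∈ R',
      u * (b₂ + a₀ * y₂) - (b₁ + a₀ * y₁) = a * w := by
  have hAR : A ≤ R' := hA₁.trans h₁
  obtain ⟨w₀, hw₀, hbw⟩ := hb
  have key := exists_approx_all (R := R') (A := subIn R' A) (B₁ := subIn R' B₁)
    (B₂ := subIn R' B₂) (subIn_mono hA₁) (subIn_mono hA₂)
    (by
      intro l hl hlu a' ha' hau y₁ hy₁ y₂ hy₂ e
      refine hloc (l : F) hl (fun h => hlu ((isUnitIn_subIn hAR).mpr h)) (a' : F) ha'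
        (fun h => hau ((isUnitIn_subIn hAR).mpr h)) (y₁ : F) hy₁ (y₂ : F) hy₂ ?_
      have := congrArg (Subtype.val) e
      simpa using this)
    (a₀ := ⟨a₀, hAR ha₀⟩) ha₀ (fun h => ha₀u ((isUnitIn_subIn hAR).mp h))
    (by
      intro x hx
      apply Subtype.ext
      refine hnzd (x : F) x.2 ?_
      have := congrArg (Subtype.val) hx
      simpa using this)
    (by
      intro x hx
      exact hsat₂ (x : F) x.2 hx)
    (by
      rintro x₁ hx₁ x₂ hx₂ ⟨w, hw⟩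
      obtain ⟨l, hl, y, hy, e⟩ := h0 (x₁ : F) hx₁ (x₂ : F) hx₂ ⟨(w : F), w.2, by
        have := congrArg (Subtype.val) hw
        simpa using this⟩
      exact ⟨⟨l, hAR hl⟩, hl, ⟨y, h₁ hy⟩, hy, Subtype.ext (by simpa using e)⟩)
    (by
      intro a' ha' ha'0 ha'u
      obtain ⟨n, c, hc, e⟩ := harch (a' : F) ha'
        (fun h => ha'0 (Subtype.ext h)) (fun h => ha'u ((isUnitIn_subIn hAR).mpr h))
      exact ⟨n, ⟨c, hAR hc⟩, hc, Subtype.ext (by simpa using e)⟩)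
    (by
      intro a' ha' ha'u
      obtain ⟨n, c, hc, e⟩ := harch' (a' : F) ha'
        (fun h => ha'u ((isUnitIn_subIn hAR).mpr h))
      exact ⟨n, ⟨c, hAR hc⟩, hc, Subtype.ext (by simpa using e)⟩)
    m
    (by
      rw [isUnitIn_subIn hAR]
      simpa using hm)
    ⟨u, hu⟩ ⟨a₁, h₁ ha₁⟩ ⟨a₂, h₂ ha₂⟩ ha₁ ha₂ (uRedA_subIn hAR h₁ hua₁)
    (Subtype.ext (by simpa using hma))
    ⟨b₁, h₁ hb₁⟩ ⟨b₂, h₂ hb₂⟩ hb₁ hb₂ (uRedA_subIn hAR h₁ hub₁) (uRedA_subIn hAR h₂ hub₂)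
    ⟨⟨w₀, hw₀⟩, Subtype.ext (by simpa using hbw)⟩
    ⟨a, hAR ha⟩ ha (fun h => ha0 (congrArg Subtype.val h))
  obtain ⟨y₁, hy₁, y₂, hy₂, w, hw⟩ := key
  refine ⟨(y₁ : F), hy₁, (y₂ : F), hy₂, (w : F), w.2, ?_⟩
  have := congrArg (Subtype.val) hw
  simpa using this

end Fermat.Agent.Red
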