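import Fermat.Agent.Red.Charts
import Fermat.Agent.Red.NormalForm
import Fermat.Agent.Red.ConstLemma
import Fermat.Agent.Red.UnitRed
import Fermat.Agent.Red.TwoChartSub

/-!
# Track L-RED, node [I]: the two-chart approximation theorem in a `RedSetup`

Instantiation of `exists_approx_all_sub` (`Red/TwoChartSub.lean`) with ambient ring the function
field `F`, `R' := S.chart (Z₁ ∪ Z₂)`, `Bᵢ := S.chart Zᵢ` and base ring the constants from `A`.

* `constRing A` : the subring of constants `algebraMap K F '' A` of `F`;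
* `RedSetup.exists_approx_chart` : if the bundle with transition function `u` (with
  `u ^ m * a₂ = a₁`, `m` a unit of `A`) is trivial modulo one nonzero non-unit `a₀` of the
  rank-one valuation ring `A`, then it is trivial modulo every nonzero `a ∈ A`.
* `RedSetup.r3_output` : the same for the normal-form data of (R2) (`u = g₂` with residue `1`,
  `a₁ = f⁻¹`, `a₂ = f⁻¹ g₂⁻ᵐ`, `b₁ = b₂ = 1`), with the constants lemma plugged in: approximate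
  sections `(β₁, β₂)` with `g₂ β₂ - β₁ ∈ a O` for every nonzero `a ∈ A`.
-/

set_option autoImplicit false

namespace Fermat.Agent.Red

open AlgebraicCurve

variable {K F k Ft : Type*} [Field K] [Field F] [Algebra K F] [Field k] [Field Ft]
  [Algebra k Ft] {A : ValuationSubring K} {π : A →+* k}

section ConstRing

variable (F) in
/-- The constants from `A`, as a subring of `F`. -/
def constRing (A : ValuationSubring K) : Subring F := A.toSubring.map (algebraMap K F)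

theorem mem_constRing {x : F} : x ∈ constRing F A ↔ ∃ a ∈ A, algebraMap K F a = x := by
  unfold constRing
  rw [Subring.mem_map]
  rfl

theorem algebraMap_mem_constRing {a : K} (ha : a ∈ A) : algebraMap K F a ∈ constRing F A :=
  mem_constRing.mpr ⟨a, ha, rfl⟩

theorem isUnitIn_constRing_iff {a : K} :
    IsUnitIn (constRing F A) (algebraMap K F a) ↔ a ≠ 0 ∧ a⁻¹ ∈ A := by
  constructor
  · rintro ⟨l', hl', h⟩
    obtain ⟨b, hb, rfl⟩ := mem_constRing.mp hl'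
    rw [← map_mul, ← map_one (algebraMap K F)] at h
    have hab : a * b = 1 := (algebraMap K F).injective h
    have ha0 : a ≠ 0 := by
      rintro rfl
      rw [zero_mul] at hab
      exact zero_ne_one hab
    refine ⟨ha0, ?_⟩
    rw [inv_eq_of_mul_eq_one_right hab]
    exact hb
  · rintro ⟨ha0, hai⟩
    refine ⟨algebraMap K F a⁻¹, algebraMap_mem_constRing hai, ?_⟩
    rw [← map_mul, mul_inv_cancel₀ ha0, map_one]

end ConstRing

section RankOne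

/-- Rank one in terms of elements of `K`. -/
theorem IsRankOne.exists_pow_eq (hrank : IsRankOne A) {a : K} (ha : a ∈ A)
    (hau : ¬ (a ≠ 0 ∧ a⁻¹ ∈ A)) {b : K} (hb : b ∈ A) (hb0 : b ≠ 0) :
    ∃ n : ℕ, ∃ c ∈ A, a ^ n = b * c := by
  have h1 : ¬ IsUnit (⟨a, ha⟩ : A) := by
    rw [NormalForm.isUnit_iff_inv_mem]
    exact hau
  have h2 : (⟨b, hb⟩ : A) ≠ 0 := fun h => hb0 (congrArg Subtype.val h)
  obtain ⟨n, c, hc⟩ := hrank ⟨a, ha⟩ h1 ⟨b, hb⟩ h2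
  refine ⟨n, (c : K), c.2, ?_⟩
  have := congrArg Subtype.val hc
  simpa using this

end RankOne

namespace RedSetup

variable (S : RedSetup (F := F) (Ft := Ft) A π)

include S in
/-- A non-unit of `A` has zero residue. -/
theorem pi_eq_zero_of_not_unit {a : K} (ha : a ∈ A) (hau : ¬ (a ≠ 0 ∧ a⁻¹ ∈ A)) :
    π ⟨a, ha⟩ = 0 := by
  rw [S.pi_eq_zero_iff, ValuationSubring.mem_nonunits_iff_or]
  by_cases h0 : a = 0
  · exact Or.inl h0
  · exact Or.inr fun h => hau ⟨h0, h⟩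

/-- **Node [I].**  The two-chart approximation theorem for the chart rings of a `RedSetup` over a
rank-one valuation ring `A`: triviality modulo one nonzero non-unit `a₀` implies triviality
modulo every nonzero `a ∈ A`, by elements `βᵢ = bᵢ + a₀ yᵢ`. -/
theorem exists_approx_chart (hrank : IsRankOne A) (Z₁ Z₂ : Set (Place K F))
    {a₀ : K} (ha₀ : a₀ ∈ A) (ha₀0 : a₀ ≠ 0) (ha₀u : a₀⁻¹ ∉ A)
    (h0 : ∀ x₁ ∈ S.chart Z₁, ∀ x₂ ∈ S.chart Z₂, ∀ w ∈ S.chart (Z₁ ∪ Z₂), x₁ - x₂ = a₀ • w →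
      ∃ l ∈ A, ∃ y ∈ S.chart Z₁, x₁ = algebraMap K F l + a₀ • y)
    (m : ℕ) (hm0 : (m : K) ≠ 0) (hm : (m : K)⁻¹ ∈ A)
    (u a₁ a₂ : F) (hu : u ∈ S.chart (Z₁ ∪ Z₂)) (ha₁ : a₁ ∈ S.chart Z₁) (ha₂ : a₂ ∈ S.chart Z₂)
    (hua₁ : ∃ a₁' ∈ S.chart Z₁, ∃ w ∈ S.chart Z₁, a₁ * a₁' = 1 + a₀ • w)
    (hma : u ^ m * a₂ = a₁)
    (b₁ b₂ : F) (hb₁ : b₁ ∈ S.chart Z₁) (hb₂ : b₂ ∈ S.chart Z₂)
    (hub₁ : ∃ b₁' ∈ S.chart Z₁, ∃ w ∈ S.chart Z₁, b₁ * b₁' = 1 + a₀ • w)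
    (hub₂ : ∃ b₂' ∈ S.chart Z₂, ∃ w ∈ S.chart Z₂, b₂ * b₂' = 1 + a₀ • w)
    (hb : ∃ w₀ ∈ S.chart (Z₁ ∪ Z₂), u * b₂ - b₁ = a₀ • w₀)
    (a : K) (ha : a ∈ A) (ha0 : a ≠ 0) :
    ∃ y₁ ∈ S.chart Z₁, ∃ y₂ ∈ S.chart Z₂, ∃ w ∈ S.chart (Z₁ ∪ Z₂),
      u * (b₂ + a₀ • y₂) - (b₁ + a₀ • y₁) = a • w := by
  have hnu₀ : ¬ IsUnitIn (constRing F A) (algebraMap K F a₀) := by
    rw [isUnitIn_constRing_iff]
    exact fun h => ha₀u h.2
  have hnu₀' : ¬ (a₀ ≠ 0 ∧ a₀⁻¹ ∈ A) := fun h => ha₀u h.2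
  have hURedA : ∀ (Z : Set (Place K F)) (b : F),
      (∃ b' ∈ S.chart Z, ∃ w ∈ S.chart Z, b * b' = 1 + a₀ • w) →
        URedA (constRing F A) (S.chart Z) b := by
    rintro Z b ⟨b', hb', w, hw, e⟩
    exact ⟨b', hb', algebraMap K F a₀, algebraMap_mem_constRing ha₀, hnu₀, w, hw, by
      rw [e, Algebra.smul_def]⟩
  have hcA : ∀ Z : Set (Place K F), constRing F A ≤ S.chart Z := by
    intro Z x hx
    obtain ⟨c, hc, rfl⟩ := mem_constRing.mp hx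
    exact S.algebraMap_mem_chart Z hc
  obtain ⟨w₀, hw₀, hbw⟩ := hb
  have key := exists_approx_all_sub (F := F) (R' := S.chart (Z₁ ∪ Z₂)) (A := constRing F A)
    (B₁ := S.chart Z₁) (B₂ := S.chart Z₂) (hcA Z₁) (hcA Z₂)
    (S.chart_mono Set.subset_union_left) (S.chart_mono Set.subset_union_right)
    (by
      intro l hl hlu a' ha' hau y₁ hy₁ y₂ hy₂ e
      obtain ⟨l₀, hl₀, rfl⟩ := mem_constRing.mp hl
      obtain ⟨a₀', ha₀', rfl⟩ := mem_constRing.mp ha'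
      rw [isUnitIn_constRing_iff] at hlu hau
      have h1 := S.pi_eq_zero_of_not_unit hl₀ hlu
      have h2 := S.pi_eq_zero_of_not_unit ha₀' hau
      have e1 : S.resF (algebraMap K F l₀ * y₁ + algebraMap K F a₀' * y₂) = 0 := by
        rw [S.resF_add (S.O.mul_mem _ _ (S.algebraMap_mem hl₀) hy₁.1)
            (S.O.mul_mem _ _ (S.algebraMap_mem ha₀') hy₂.1),
          S.resF_mul (S.algebraMap_mem hl₀) hy₁.1, S.resF_mul (S.algebraMap_mem ha₀') hy₂.1,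
          S.resF_algebraMap hl₀, S.resF_algebraMap ha₀', h1, h2]
        simp
      rw [e, S.resF_one] at e1
      exact one_ne_zero e1)
    (a₀ := algebraMap K F a₀) (algebraMap_mem_constRing ha₀) hnu₀
    (by
      intro x _ hx
      rcases mul_eq_zero.mp hx with h | h
      · exact absurd ((map_eq_zero_iff _ (algebraMap K F).injective).mp h) ha₀0
      · exact h)
    (by
      intro x hx hax
      rw [← Algebra.smul_def] at hax
      exact S.mem_chart_of_smul_mem ha₀0 hx.1 hax)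
    (by
      rintro x₁ hx₁ x₂ hx₂ ⟨w, hw, e⟩
      rw [← Algebra.smul_def] at e
      obtain ⟨l, hl, y, hy, e'⟩ := h0 x₁ hx₁ x₂ hx₂ w hw e
      exact ⟨algebraMap K F l, algebraMap_mem_constRing hl, y, hy, by
        rw [e', Algebra.smul_def]⟩)
    (by
      intro a' ha' ha'0 ha'u
      obtain ⟨a'', ha'', rfl⟩ := mem_constRing.mp ha'
      rw [isUnitIn_constRing_iff] at ha'u
      have h0' : a'' ≠ 0 := by
        rintro rfl
        exact ha'0 (map_zero _)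
      obtain ⟨n, c, hc, e⟩ := hrank.exists_pow_eq ha₀ hnu₀' ha'' h0'
      exact ⟨n, algebraMap K F c, algebraMap_mem_constRing hc, by
        rw [← map_pow, e, map_mul]⟩)
    (by
      intro a' ha' ha'u
      obtain ⟨a'', ha'', rfl⟩ := mem_constRing.mp ha'
      rw [isUnitIn_constRing_iff] at ha'u
      obtain ⟨n, c, hc, e⟩ := hrank.exists_pow_eq ha'' ha'u ha₀ ha₀0
      exact ⟨n, algebraMap K F c, algebraMap_mem_constRing hc, by
        rw [← map_pow, e, map_mul]⟩)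
    m
    (by
      have : ((m : ℕ) : F) = algebraMap K F (m : K) := (map_natCast (algebraMap K F) m).symm
      rw [this, isUnitIn_constRing_iff]
      exact ⟨hm0, hm⟩)
    u a₁ a₂ hu ha₁ ha₂ (hURedA Z₁ a₁ hua₁) hma b₁ b₂ hb₁ hb₂ (hURedA Z₁ b₁ hub₁)
    (hURedA Z₂ b₂ hub₂)
    ⟨w₀, hw₀, by rw [hbw, Algebra.smul_def]⟩
    (algebraMap K F a) (algebraMap_mem_constRing ha)
    (fun h => ha0 ((map_eq_zero_iff _ (algebraMap K F).injective).mp h))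
  obtain ⟨y₁, hy₁, y₂, hy₂, w, hw, e⟩ := key
  refine ⟨y₁, hy₁, y₂, hy₂, w, hw, ?_⟩
  rw [Algebra.smul_def, Algebra.smul_def, Algebra.smul_def]
  exact e

include S in
/-- A natural number which is nonzero in the residue field is a unit of `A`. -/
theorem natCast_unit_of_ne_zero (m : ℕ) (hm : (m : k) ≠ 0) : (m : K) ≠ 0 ∧ (m : K)⁻¹ ∈ A := by
  have hmA : (m : K) ∈ A := natCast_mem A m
  have h1 : π ⟨(m : K), hmA⟩ ≠ 0 := by
    have : (⟨(m : K), hmA⟩ : A) = ((m : ℕ) : A) := by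
      ext
      simp
    rw [this, map_natCast]
    exact hm
  rw [Ne, S.pi_eq_zero_iff, ValuationSubring.mem_nonunits_iff_or] at h1
  push Not at h1
  exact h1

/-- **(R3) for the normal-form data.**  `Z₁ ⊇ supp D` and `Z₂` have disjoint reductions, `g₂` has
residue `1` (transition function, `s₁ = g₂ s₂`), `f` is a unit of the chart `Z₁` with
`f⁻¹ g₂⁻ᵐ` in the chart `Z₂`, and `g₂ - 1 = a₀ • w₀` for a modulus `a₀`.  Then for every nonzero
`a ∈ A` there are `β₁, β₂` in the two charts with `β₁ ≡ 1` and `g₂ β₂ - β₁ ∈ a O`. -/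
theorem r3_output (hF : RiemannPkg K F) (hFt : RiemannPkg k Ft) (hA : IsRankOne A)
    (m : ℕ) (hm : (m : k) ≠ 0) (Z₁ Z₂ : Set (Place K F))
    (hdisj : Disjoint (S.r '' Z₁) (S.r '' Z₂))
    (g₂ f : F) (hg₂r : S.resF g₂ ≠ 0) (hf : f ∈ S.chart Z₁) (hfi : f⁻¹ ∈ S.chart Z₁)
    (hfr : S.resF f ≠ 0) (ha₂ : f⁻¹ * (g₂ ^ m)⁻¹ ∈ S.chart Z₂)
    (hg₂ : g₂ ∈ S.chart (Z₁ ∪ Z₂))
    {a₀ : K} (ha₀ : IsModulus A a₀) {w₀ : F} (hw₀ : w₀ ∈ S.chart (Z₁ ∪ Z₂))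
    (hgw : g₂ - 1 = a₀ • w₀) :
    ∀ a : K, a ∈ A → a ≠ 0 → ∃ β₁ ∈ S.chart Z₁, ∃ β₂ ∈ S.chart Z₂, ∃ w ∈ S.O,
      S.resF β₁ ≠ 0 ∧ g₂ * β₂ - β₁ = a • w := by
  intro a ha ha0
  have hpr := hF.principal
  have hinf := hFt.infinite_places
  have hπ : Function.Surjective π := NormalForm.pi_surjective S hF.deg_one
  have hg₂0 : g₂ ≠ 0 := S.ne_zero_of_resF_ne_zero hg₂r
  have hf0 : f ≠ 0 := S.ne_zero_of_resF_ne_zero hfr
  obtain ⟨hm0, hmi⟩ := S.natCast_unit_of_ne_zero m hm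
  have hone : ∀ Z : Set (Place K F),
      ∃ b' ∈ S.chart Z, ∃ w ∈ S.chart Z, (1 : F) * b' = 1 + a₀ • w :=
    fun Z => ⟨1, (S.chart Z).one_mem, 0, (S.chart Z).zero_mem, by simp⟩
  obtain ⟨y₁, hy₁, y₂, hy₂, w, hw, e⟩ := S.exists_approx_chart hA Z₁ Z₂ ha₀.mem ha₀.ne_zero
    ha₀.inv_not_mem
    (fun x₁ hx₁ x₂ hx₂ w hw h =>
      S.const_lemma hπ hF hFt Z₁ Z₂ hdisj ha₀.mem ha₀.ne_zero hx₁ hx₂ hw.1 h)
    m hm0 hmi g₂ f⁻¹ (f⁻¹ * (g₂ ^ m)⁻¹) hg₂ hfi ha₂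
    ⟨f, hf, 0, (S.chart Z₁).zero_mem, by rw [inv_mul_cancel₀ hf0]; simp⟩
    (by
      rw [mul_comm f⁻¹, ← mul_assoc, mul_inv_cancel₀ (pow_ne_zero m hg₂0), one_mul])
    1 1 (S.chart Z₁).one_mem (S.chart Z₂).one_mem (hone Z₁) (hone Z₂)
    ⟨w₀, hw₀, by rw [mul_one, hgw]⟩ a ha ha0
  have hβ₁ : 1 + a₀ • y₁ ∈ S.chart Z₁ :=
    (S.chart Z₁).add_mem (S.chart Z₁).one_mem (S.smul_mem_chart ha₀.mem hy₁)
  have hβ₂ : 1 + a₀ • y₂ ∈ S.chart Z₂ :=
    (S.chart Z₂).add_mem (S.chart Z₂).one_mem (S.smul_mem_chart ha₀.mem hy₂)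
  refine ⟨1 + a₀ • y₁, hβ₁, 1 + a₀ • y₂, hβ₂, w, hw.1, ?_, e⟩
  have h0 : π ⟨a₀, ha₀.mem⟩ = 0 :=
    S.pi_eq_zero_of_not_unit ha₀.mem fun h => ha₀.inv_not_mem h.2
  rw [S.resF_add S.O.one_mem (S.smul_mem ha₀.mem hy₁.1), S.resF_one,
    S.resF_smul ha₀.mem hy₁.1, h0, zero_smul, add_zero]
  exact one_ne_zero

end RedSetup

end Fermat.Agent.Red
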