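import Fermat.Agent.Red.NormalFormData
import Fermat.Agent.Red.UnitRed
import Fermat.Agent.Red.ChartInst
import Fermat.Agent.Red.Ending

/-!
# Program L (S18), L-RED, node (R5): the main theorem

`mainStatement S : MainStatement S` for every `RedSetup`: over algebraically closed `K`, `k`, a
rank-one valuation ring `A`, with Riemann's theorem on both function fields and equal genera,
a degree-zero divisor of `F` killed by `m` (prime to the residue characteristic) in the class
group whose reduction is principal is principal.

Chain: `NormalForm.noTorsionInKernel_of_normalForm` (reduction to `r_* D = 0`, `res f = 1`) →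
`NormalForm.exists_normalFormData` (two charts, transition function `g₂` with residue `1`) →
case `g₂ = 1` (`D = 0`) / case `g₂ ≠ 1`: modulus `a₀` from `exists_smul_of_resF_eq_zero` →
`RedSetup.r3_output` (two-chart approximation, constants lemma inside) →
`Ending.mem_principal_of_forall_approx` (lift lemma + two-lattice lemma).
-/

set_option autoImplicit false

namespace Fermat.Agent.Red

open AlgebraicCurve

variable {K F k Ft : Type*} [Field K] [Field F] [Algebra K F] [Field k] [Field Ft]
  [Algebra k Ft] {A : ValuationSubring K} {π : A →+* k}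

/-- **Main theorem of L-RED.** -/
theorem mainStatement (S : RedSetup (F := F) (Ft := Ft) A π) : MainStatement S := by
  intro _ _ hA hF hFt hg
  have := hF.principal
  have := hFt.infinite_places
  refine NormalForm.noTorsionInKernel_of_normalForm S hF hFt ?_
  intro m hm D hdeg hrD hf
  obtain ⟨f, hf1, hfD⟩ := hf
  obtain ⟨Z1, Z2, P₀, g2, -, -, hsupp, hZ2r, hZ1r, hdisj, hg2O, hg2inv, hg2res, hord,
    hf1c, hf1c', hf2c, -, hg2c, -, -⟩ :=
    NormalForm.exists_normalFormData S hF hFt hg m D hrD f hf1 hfD
  have hD0 : ∀ P : Place K F, P ∉ (Z1 : Set (Place K F)) → D P = 0 := fun P hP =>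
    Finsupp.notMem_support_iff.mp fun h => hP (hsupp h)
  by_cases hg21 : g2 = 1
  · -- then `D = 0`
    have hDz : D = 0 := by
      ext P
      rw [Finsupp.zero_apply]
      by_cases hP : P ∈ Z2
      · exact hD0 P fun h1 => hZ1r P h1 (hZ2r P hP)
      · have := hord P hP
        rw [hg21, Place.ord_one] at this
        omega
    rw [hDz]
    exact zero_mem _
  · -- the modulus `a₀`
    have hx : g2 - 1 ∈ S.chart ((Z1 : Set (Place K F)) ∪ Z2) :=
      Subring.sub_mem _ hg2c (Subring.one_mem _)
    have hx0 : g2 - 1 ≠ 0 := sub_ne_zero.mpr hg21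
    have hres : S.resF (g2 - 1) = 0 := by
      rw [S.resF_sub hg2O (Subring.one_mem _), hg2res, S.resF_one, sub_self]
    obtain ⟨a₀, ha₀, w₀, hw₀, hxw, -⟩ := S.exists_smul_of_resF_eq_zero hx hx0 hres
    have hfres : S.resF (f : F) ≠ 0 := by
      rw [S.resF_of_mem f.2, Subtype.coe_eta, hf1]
      exact one_ne_zero
    have h3 := S.r3_output hF hFt hA m hm (Z1 : Set (Place K F)) (Z2 : Set (Place K F)) hdisj
      g2 (f : F) (by rw [hg2res]; exact one_ne_zero) hf1c hf1c' hfres hf2c hg2c ha₀ hw₀ hxw
    exact Ending.mem_principal_of_forall_approx S hF hFt hg ha₀.mem ha₀.ne_zero ha₀.inv_not_mem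
      D hdeg hrD (Z1 : Set (Place K F)) (Z2 : Set (Place K F)) hdisj hD0 g2 hg2O hg2inv hg2res
      (fun P hP => hord P hP) fun a ha ha0 _ => h3 a ha ha0

end Fermat.Agent.Red
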