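import Mathlib
import Fermat.Agent.Red.Setup
import Fermat.Prelude.Def_EllipticCurve_FrobeniusTrace

/-!
# Program L (S18): the assembly (I9)

`s18_of_deliverables` : the statement S18 follows from the deliverables of the four tracks
(L-VAL `ValDeliverable`, L-GEN `GenDeliverable`, rank one, the two Riemann packages and the main
theorem of L-RED `MainStatement`), all in hypothesis form.

Side lemmas:
* `isAlgClosed_residueField` : the residue field of a valuation subring of an algebraically
  closed field is algebraically closed.
* `natCast_residueField_ne_zero` : `(m : k) ≠ 0` when `A` lies over `ℓ` and `ℓ ∤ m`.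
-/

set_option autoImplicit false

namespace Fermat.Agent.Red

open AlgebraicCurve Polynomial

section ResidueField

variable {K : Type*} [Field K]

/-- The residue field of a valuation subring of an algebraically closed field is algebraically
closed. -/
theorem isAlgClosed_residueField [IsAlgClosed K] (A : ValuationSubring K) :
    IsAlgClosed (IsLocalRing.ResidueField A) := by
  refine IsAlgClosed.of_exists_root _ fun p hpm hpi => ?_
  have hsurj : Function.Surjective (IsLocalRing.residue A) := IsLocalRing.residue_surjective
  obtain ⟨P, hPmap, hPdeg, hPm⟩ :=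
    Polynomial.lifts_and_natDegree_eq_and_monic
      ((Polynomial.mem_lifts p).mpr (Polynomial.map_surjective _ hsurj p)) hpm
  have hdeg : (P.map (algebraMap A K)).degree ≠ 0 := by
    have hnd : (P.map (algebraMap A K)).natDegree = P.natDegree := hPm.natDegree_map _
    intro h0
    have h1 : p.natDegree = 0 := by
      rw [← hPdeg, ← hnd]
      exact Polynomial.natDegree_eq_zero_iff_degree_le_zero.mpr h0.le
    have hp1 : p = 1 := by
      have hlc := hpm.leadingCoeff
      rw [Polynomial.leadingCoeff, h1] at hlc
      rw [Polynomial.eq_C_of_natDegree_eq_zero h1, hlc, Polynomial.C_1]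
    exact hpi.not_isUnit (hp1 ▸ isUnit_one)
  obtain ⟨x, hx⟩ := IsAlgClosed.exists_root _ hdeg
  have hxint : IsIntegral A x := ⟨P, hPm, by rwa [Polynomial.eval₂_eq_eval_map]⟩
  obtain ⟨y, hy⟩ := IsIntegrallyClosed.isIntegral_iff.mp hxint
  refine ⟨IsLocalRing.residue A y, ?_⟩
  rw [← hPmap, Polynomial.eval_map, Polynomial.eval₂_hom]
  have hPy : Polynomial.eval y P = 0 := by
    apply Subtype.val_injective
    have := hx
    rw [Polynomial.IsRoot.def, Polynomial.eval_map, ← hy, Polynomial.eval₂_hom] at this
    simpa using this
  rw [hPy, map_zero]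

/-- If the valuation subring `A` lies over the prime `ℓ` and `ℓ ∤ m`, then `m` is nonzero in the
residue field. -/
theorem natCast_residueField_ne_zero (A : ValuationSubring K) {ℓ : ℕ} [Fact ℓ.Prime]
    (hA : A.LiesOverPrime ℓ) {m : ℕ} (hm : ¬ ℓ ∣ m) :
    ((m : ℕ) : IsLocalRing.ResidueField A) ≠ 0 := by
  have hℓ : ((ℓ : ℕ) : IsLocalRing.ResidueField A) = 0 := by
    have hmem : ((ℓ : ℕ) : A) ∈ IsLocalRing.maximalIdeal A := by
      rw [IsLocalRing.mem_maximalIdeal, mem_nonunits_iff]
      intro hu
      have h1 : ((ℓ : ℕ) : K) ∈ A.nonunits := hA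
      rw [ValuationSubring.mem_nonunits_iff_exists_mem_maximalIdeal] at h1
      obtain ⟨ha, hmax⟩ := h1
      rw [IsLocalRing.mem_maximalIdeal, mem_nonunits_iff] at hmax
      apply hmax
      convert hu using 1
      exact Subtype.ext (by simp)
    have := (IsLocalRing.residue_eq_zero_iff _).mpr hmem
    rwa [map_natCast] at this
  have hcop : Nat.Coprime ℓ m := (Nat.Prime.coprime_iff_not_dvd Fact.out).mpr hm
  intro hm0
  have hb := Nat.Coprime.isCoprime hcop
  obtain ⟨a, b, hab⟩ := hb
  have := congrArg (fun t : ℤ => (t : IsLocalRing.ResidueField A)) hab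
  simp only [Int.cast_add, Int.cast_mul, Int.cast_natCast, Int.cast_one] at this
  rw [hℓ, hm0, mul_zero, mul_zero, add_zero] at this
  exact zero_ne_one this

end ResidueField

section Assembly

open ModularCurve

set_option synthInstance.maxHeartbeats 400000
set_option maxHeartbeats 1000000

/-- **(I9)** S18 from the deliverables of the tracks of Program L, in hypothesis form. -/
theorem s18_of_deliverables (N : ℕ) [NeZero N] {ℓ : ℕ} [Fact ℓ.Prime]
    (A : ValuationSubring (AlgebraicClosure ℚ)) (hA : A.LiesOverPrime ℓ)
    (hVal : ValDeliverable N A) (hGen : GenDeliverable N A) (hRank : IsRankOne A)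
    (hBar : RiemannPkg (AlgebraicClosure ℚ) (modularFunctionFieldBar N))
    (hModL : RiemannPkg (IsLocalRing.ResidueField A)
      (modularFunctionFieldFullC (IsLocalRing.ResidueField A) N))
    (hMain : ∀ S : RedSetup (K := AlgebraicClosure ℚ) (F := modularFunctionFieldBar N)
        (k := IsLocalRing.ResidueField A)
        (Ft := modularFunctionFieldFullC (IsLocalRing.ResidueField A) N)
        A (IsLocalRing.residue A), MainStatement S)
    (h : ModularCurve.ReductionInputsModL A N) (m : ℕ) (hm : ¬ ℓ ∣ m)
    (z : ModularCurve.JZero N) (hmz : m • z = 0)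
    (hz : ModularCurve.reductionModL A N z = 0) : z = 0 := by
  obtain ⟨D, rfl⟩ := Pic0.mk_surjective z
  obtain ⟨S, hS⟩ := hVal (placeReductionModL h) (isPlaceReductionModL_placeReductionModL h)
  have hk : IsAlgClosed (IsLocalRing.ResidueField A) := isAlgClosed_residueField A
  have hNT : NoTorsionInKernel S :=
    hMain S inferInstance hk hRank hBar hModL (hGen h)
  -- `m • D` principal
  have h1 : m • (D : Divisor (AlgebraicClosure ℚ) (modularFunctionFieldBar N)) ∈
      Divisor.principal (K := AlgebraicClosure ℚ) (F := modularFunctionFieldBar N) := by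
    have : Pic0.mk (m • D) = 0 := hmz
    rw [Pic0.mk, QuotientAddGroup.eq_zero_iff, AddSubgroup.mem_addSubgroupOf] at this
    simpa using this
  -- reduction principal
  have h2 : Finsupp.mapDomain S.r (D : Divisor (AlgebraicClosure ℚ) (modularFunctionFieldBar N)) ∈
      Divisor.principal (K := IsLocalRing.ResidueField A)
        (F := modularFunctionFieldFullC (IsLocalRing.ResidueField A) N) := by
    rw [reductionModL_mk h D] at hz
    rw [Pic0.mk, QuotientAddGroup.eq_zero_iff, AddSubgroup.mem_addSubgroupOf] at hz
    rw [hS]
    exact hz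
  have h3 := hNT m (natCast_residueField_ne_zero A hA hm) D D.2 h1 h2
  show Pic0.mk D = 0
  rw [Pic0.mk, QuotientAddGroup.eq_zero_iff, AddSubgroup.mem_addSubgroupOf]
  exact h3

end Assembly

end Fermat.Agent.Red
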