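import Mathlib
import Fermat.Agent.Red.S18Assembly
import Fermat.Agent.Red.Main
import Fermat.Agent.Val.RankOne
import Fermat.Agent.Val.RiemannPkgBar
import Fermat.Agent.Val.RiemannPkgModL

/-!
# Program L (S18): reduction of S18 to the two remaining deliverables

With (I4) `Val.isRankOne`, (I5) `Val.riemannPkg_bar` / `Val.riemannPkg_modL_residueField`,
(I7) `Red.mainStatement` and the assembly (I9) `s18_of_deliverables` all proved, the statement S18
follows from

* (I3) `ValDeliverable N A` (L-VAL: the constant reduction of `F̄_N` along `A` is a `RedSetup`), and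
* (I6) `GenDeliverable N A` (L-GEN: genus preservation).
-/

set_option autoImplicit false

namespace Fermat.Agent.Red

open AlgebraicCurve ModularCurve

set_option synthInstance.maxHeartbeats 400000
set_option maxHeartbeats 1000000

/-- **S18 from (I3) and (I6).** -/
theorem s18_of_val_gen (N : ℕ) [NeZero N] {ℓ : ℕ} [Fact ℓ.Prime] (hℓN : ¬ ℓ ∣ N)
    (A : ValuationSubring (AlgebraicClosure ℚ)) (hA : A.LiesOverPrime ℓ)
    (hVal : ValDeliverable N A) (hGen : GenDeliverable N A)
    (h : ModularCurve.ReductionInputsModL A N) (m : ℕ) (hm : ¬ ℓ ∣ m)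
    (z : ModularCurve.JZero N) (hmz : m • z = 0)
    (hz : ModularCurve.reductionModL A N z = 0) : z = 0 :=
  s18_of_deliverables N A hA hVal hGen (Fermat.Agent.Val.isRankOne A hA)
    (Fermat.Agent.Val.riemannPkg_bar N)
    (Fermat.Agent.Val.riemannPkg_modL_residueField N hℓN A hA)
    (fun S => mainStatement S) h m hm z hmz hz

end Fermat.Agent.Red
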