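import Mathlib
import Fermat.Agent.Red.S18Reduced
import Fermat.Agent.Val.Deliverable

/-!
# Program L (S18): S18 from genus preservation alone

All interfaces except (I6) are proved: S18 follows from `GenDeliverable N A` (L-GEN: the genus of
`F̃_N` over the residue field equals the genus of `F̄_N` over `ℚ̄`).
-/

set_option autoImplicit false

namespace Fermat.Agent.Red

open AlgebraicCurve ModularCurve

set_option synthInstance.maxHeartbeats 400000
set_option maxHeartbeats 1000000

/-- **S18 from (I6) alone.** -/
theorem s18_of_gen (N : ℕ) [NeZero N] {ℓ : ℕ} [Fact ℓ.Prime] (hℓN : ¬ ℓ ∣ N)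
    (A : ValuationSubring (AlgebraicClosure ℚ)) (hA : A.LiesOverPrime ℓ)
    (hGen : GenDeliverable N A)
    (h : ModularCurve.ReductionInputsModL A N) (m : ℕ) (hm : ¬ ℓ ∣ m)
    (z : ModularCurve.JZero N) (hmz : m • z = 0)
    (hz : ModularCurve.reductionModL A N z = 0) : z = 0 :=
  s18_of_val_gen N hℓN A hA (Fermat.Agent.Val.valDeliverable N hℓN A hA) hGen h m hm z hmz hz

end Fermat.Agent.Red
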