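import Mathlib
import Fermat.Agent.Red.Charts

/-!
# Program L (S18), L-RED, node R1 (part 2): lifting regular functions from the special fibre

`RedSetup.exists_lift_regular` **(C3)**: under genus equality, every function on the special
fibre which is regular outside `r(Z)` (`Z` a finite nonempty set of places) is the residue of an
element of the chart ring `B_Z = O ∩ regularRing Z`.
-/

set_option autoImplicit false

namespace Fermat.Agent.Red

open AlgebraicCurve Module WithZero

variable {K F k Ft : Type*} [Field K] [Field F] [Algebra K F] [Field k] [Field Ft]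
  [Algebra k Ft] {A : ValuationSubring K} {π : A →+* k}

/-- The divisor `n · ∑_{P ∈ Z} P`. -/
noncomputable def finsetDivisor (Z : Finset (Place K F)) (n : ℤ) : Divisor K F :=
  ∑ P ∈ Z, Finsupp.single P n

theorem finsetDivisor_apply_of_notMem {Z : Finset (Place K F)} {n : ℤ} {P : Place K F}
    (hP : P ∉ Z) : finsetDivisor Z n P = 0 := by
  classical
  rw [finsetDivisor, Finsupp.finsetSum_apply]
  refine Finset.sum_eq_zero fun P' hP' => ?_
  rw [Finsupp.single_apply, if_neg]
  rintro rfl
  exact hP hP'

theorem finsetDivisor_apply_of_mem {Z : Finset (Place K F)} {n : ℤ} {P : Place K F}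
    (hP : P ∈ Z) : finsetDivisor Z n P = n := by
  classical
  rw [finsetDivisor, Finsupp.finsetSum_apply, Finset.sum_eq_single P]
  · rw [Finsupp.single_apply, if_pos rfl]
  · intro P' _ hne
    rw [Finsupp.single_apply, if_neg hne]
  · intro h; exact absurd hP h

theorem degree_finsetDivisor (hdeg : ∀ P : Place K F, P.deg = 1) (Z : Finset (Place K F))
    (n : ℤ) : Divisor.degree (finsetDivisor Z n) = n * Z.card := by
  rw [finsetDivisor, map_sum]
  simp only [Divisor.degree_single, hdeg, Nat.cast_one, mul_one, Finset.sum_const, nsmul_eq_mul]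
  ring

theorem mapDomain_finsetDivisor_apply {β : Type*} (r : Place K F → β) (Z : Finset (Place K F))
    (n : ℤ) (Q : β) :
    Finsupp.mapDomain r (finsetDivisor Z n) Q =
      ∑ P ∈ Z, (letI := Classical.propDecidable (r P = Q); if r P = Q then n else 0) := by
  classical
  rw [finsetDivisor, Finsupp.mapDomain_finsetSum, Finsupp.finsetSum_apply]
  refine Finset.sum_congr rfl fun P _ => ?_
  rw [Finsupp.mapDomain_single, Finsupp.single_apply]

theorem mapDomain_finsetDivisor_apply_of_notMem {β : Type*} (r : Place K F → β)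
    (Z : Finset (Place K F)) (n : ℤ) {Q : β} (hQ : Q ∉ r '' (Z : Set (Place K F))) :
    Finsupp.mapDomain r (finsetDivisor Z n) Q = 0 := by
  classical
  rw [mapDomain_finsetDivisor_apply]
  refine Finset.sum_eq_zero fun P hP => ?_
  rw [if_neg]
  intro h
  exact hQ ⟨P, hP, h⟩

theorem le_mapDomain_finsetDivisor_apply_of_mem {β : Type*} (r : Place K F → β)
    (Z : Finset (Place K F)) {n : ℤ} (hn : 0 ≤ n) {Q : β}
    (hQ : Q ∈ r '' (Z : Set (Place K F))) :
    n ≤ Finsupp.mapDomain r (finsetDivisor Z n) Q := by
  classical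
  obtain ⟨P, hP, rfl⟩ := hQ
  rw [mapDomain_finsetDivisor_apply]
  have h1 : (if r P = r P then n else 0) ≤
      ∑ P' ∈ Z, (if r P' = r P then n else 0) := by
    apply Finset.single_le_sum (f := fun P' => if r P' = r P then n else 0)
    · intro P' _
      show 0 ≤ if r P' = r P then n else 0
      split_ifs <;> [exact hn; exact le_rfl]
    · exact hP
  rw [if_pos rfl] at h1
  convert h1 using 2

namespace RedSetup

variable (S : RedSetup (F := F) (Ft := Ft) A π)

/-- **(C3)** Lifting of regular functions from the special fibre to the chart ring. -/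
theorem exists_lift_regular (hπ : Function.Surjective π) (hF : RiemannPkg K F)
    (hFt : RiemannPkg k Ft) (hg : genusFF k Ft = genusFF K F) (Z : Finset (Place K F))
    (hZ : Z.Nonempty) {t : Ft} (ht : t ∈ regularRing (S.r '' (Z : Set (Place K F)))) :
    ∃ h ∈ S.chart (Z : Set (Place K F)), S.resF h = t := by
  classical
  by_cases ht0 : t = 0
  · exact ⟨0, Subring.zero_mem _, by rw [ht0, S.resF_zero]⟩
  obtain ⟨Dt, hDt, -⟩ := hFt.principal.exists_divisor t ht0
  obtain ⟨c, hc⟩ := S.exists_bound_lift hπ hF hFt hg
  -- a bound for the pole orders of `t`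
  set n : ℤ := ∑ Q ∈ Dt.support, |Dt Q| with hn
  have hn0 : 0 ≤ n := Finset.sum_nonneg fun Q _ => abs_nonneg _
  have hbound : ∀ Q : Place k Ft, -n ≤ Q.ord t := by
    intro Q
    rw [← hDt Q]
    by_cases hQ : Q ∈ Dt.support
    · have h1 : |Dt Q| ≤ n := Finset.single_le_sum (f := fun Q => |Dt Q|)
        (fun Q _ => abs_nonneg _) hQ
      have h2 := neg_abs_le (Dt Q)
      linarith
    · rw [Finsupp.notMem_support_iff.mp hQ]
      linarith
  set N : ℤ := max n c with hN
  have hN0 : 0 ≤ N := le_trans hn0 (le_max_left _ _)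
  set E : Divisor K F := finsetDivisor Z N with hE
  have hcard : (1 : ℤ) ≤ Z.card := by exact_mod_cast Finset.card_pos.mpr hZ
  have hdegE : c ≤ Divisor.degree E := by
    rw [hE, degree_finsetDivisor hF.deg_one]
    have : N ≤ N * Z.card := le_mul_of_one_le_right hN0 hcard
    exact le_trans (le_max_right _ _) this
  have htE : t ∈ riemannRochSpace (Finsupp.mapDomain S.r E) := by
    rw [mem_riemannRochSpace_iff]
    intro Q
    right
    by_cases hQ : Q ∈ S.r '' (Z : Set (Place K F))
    · have h1 := le_mapDomain_finsetDivisor_apply_of_mem S.r Z hN0 hQ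
      have h2 := hbound Q
      have h3 : n ≤ N := le_max_left _ _
      rw [hE]
      linarith
    · rw [hE, mapDomain_finsetDivisor_apply_of_notMem S.r Z N hQ]
      have := (mem_regularRing_iff_ord.mp ht Q hQ).resolve_left ht0
      linarith
  obtain ⟨y, hyE, hyO, hyt⟩ := hc E hdegE t htE
  have hyR : y ∈ regularRing (Z : Set (Place K F)) := by
    rw [mem_regularRing_iff_mem_regularOutside]
    exact riemannRochSpace_le_regularOutside_zero
      (fun P hP => finsetDivisor_apply_of_notMem (fun h => hP h)) hyE
  exact ⟨y, S.mem_chart.mpr ⟨hyO, hyR⟩, hyt⟩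

end RedSetup

end Fermat.Agent.Red
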