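import Mathlib
import Fermat.Agent.Red.Values
import Fermat.Agent.Red.ChartsLift

/-!
# Program L (S18), L-RED, node [LP]: integral local parameters

* `RedSetup.sum_ord_le_ord_resF` : **fibre inequality** — for `y ∈ B_Z` with nonzero reduction and
  a finite set `T` of places in the fibre of `r` over `Q ∉ r(Z)`:
  `∑_{P ∈ T} ord_P y ≤ ord_Q (res y)`.
* `RedSetup.exists_integral_localParameter` : **[LP]** — under genus equality, for a place `P₀` and
  a finite nonempty `Z` with `r P₀ ∉ r(Z)` there is `t ∈ B_Z` with `ord_{P₀} t = 1`,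
  `ord_{r P₀} (res t) = 1`, and `ord_P t = 0` at every other place `P` of the residue disc of `P₀`.
-/

set_option autoImplicit false

namespace Fermat.Agent.Red

open AlgebraicCurve Fermat.Agent.X0 WithZero

namespace RedSetup

variable {K F k Ft : Type*} [Field K] [Field F] [Algebra K F] [Field k] [Field Ft]
  [Algebra k Ft] {A : ValuationSubring K} {π : A →+* k}

variable (S : RedSetup (F := F) (Ft := Ft) A π)

/-- Elements of `B_Z` have nonnegative order at every place whose reduction is not in `r(Z)`. -/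
theorem ord_nonneg_of_mem_chart {Z : Set (Place K F)} {y : F} (hy : y ∈ S.chart Z)
    {P : Place K F} (hP : S.r P ∉ S.r '' Z) : 0 ≤ P.ord y := by
  rcases eq_or_ne y 0 with rfl | hy0
  · simp
  have hPZ : P ∉ Z := fun hPZ => hP ⟨P, hPZ, rfl⟩
  exact ((mem_regularRing_iff_ord.1 hy.2) P hPZ).resolve_left hy0

/-- **Fibre inequality.** For `y ∈ B_Z` with nonzero reduction, `Q ∉ r(Z)` and a finite set `T`
of places in the fibre of `r` over `Q`, `∑_{P ∈ T} ord_P y ≤ ord_Q (res y)`. -/
theorem sum_ord_le_ord_resF (hF : RiemannPkg K F) {Z : Set (Place K F)} {y : F}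
    (hy : y ∈ S.chart Z) (hres : S.resF y ≠ 0) {Q : Place k Ft} (hQ : Q ∉ S.r '' Z)
    (T : Finset (Place K F)) (hT : ∀ P ∈ T, S.r P = Q) :
    ∑ P ∈ T, P.ord y ≤ Q.ord (S.resF y) := by
  classical
  have hy0 : y ≠ 0 := S.ne_zero_of_resF_ne_zero hres
  obtain ⟨D, hD, -⟩ := hF.principal.exists_divisor y hy0
  rw [← S.mapDomain_div_apply hres D hD Q, mapDomain_apply_eq_sum]
  have hnonneg : ∀ a ∈ D.support, a ∉ T ∩ D.support →
      (0 : ℤ) ≤ (if S.r a = Q then D a else 0) := by
    intro a _ _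
    split_ifs with ha
    · rw [hD a]
      exact S.ord_nonneg_of_mem_chart hy (by rw [ha]; exact hQ)
    · exact le_rfl
  have h1 : ∑ P ∈ T, P.ord y = ∑ P ∈ T ∩ D.support, (if S.r P = Q then D P else 0) := by
    rw [← Finset.sum_subset (Finset.inter_subset_left (s₁ := T) (s₂ := D.support))]
    · refine Finset.sum_congr rfl fun P hP => ?_
      rw [if_pos (hT P (Finset.mem_inter.1 hP).1), hD P]
    · intro P hPT hPn
      have : P ∉ D.support := fun h => hPn (Finset.mem_inter.2 ⟨hPT, h⟩)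
      rw [← hD P]
      exact Finsupp.notMem_support_iff.1 this
  rw [h1]
  have h2 := Finset.sum_le_sum_of_subset_of_nonneg
    (Finset.inter_subset_right (s₁ := T) (s₂ := D.support)) hnonneg
  convert h2 using 2

/-- Single-place form of the fibre inequality. -/
theorem ord_le_ord_resF (hF : RiemannPkg K F) {Z : Set (Place K F)} {y : F}
    (hy : y ∈ S.chart Z) (hres : S.resF y ≠ 0) {P : Place K F} (hP : S.r P ∉ S.r '' Z) :
    P.ord y ≤ (S.r P).ord (S.resF y) := by
  have := S.sum_ord_le_ord_resF hF hy hres hP {P} (by simp)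
  simpa using this

/-- **[LP] Integral local parameter.** -/
theorem exists_integral_localParameter [Infinite k] (hπ : Function.Surjective π)
    (hF : RiemannPkg K F) (hFt : RiemannPkg k Ft) (hg : genusFF k Ft = genusFF K F)
    (P₀ : Place K F) (Z : Finset (Place K F)) (hZ : Z.Nonempty)
    (hP₀ : S.r P₀ ∉ S.r '' (Z : Set (Place K F))) :
    ∃ t ∈ S.chart (Z : Set (Place K F)), P₀.ord t = 1 ∧ S.resF t ≠ 0 ∧
      (S.r P₀).ord (S.resF t) = 1 ∧
      ∀ P : Place K F, S.r P = S.r P₀ → P ≠ P₀ → P.ord t = 0 := by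
  classical
  obtain ⟨P₁, hP₁⟩ := hZ
  have hQne : S.r P₁ ∉ ({S.r P₀} : Finset (Place k Ft)) := by
    rw [Finset.mem_singleton]
    intro h
    exact hP₀ ⟨P₁, hP₁, h⟩
  -- a local parameter at `r P₀` on the special fibre with its only pole at `r P₁`
  obtain ⟨g, hg0, hgord, hgreg⟩ :=
    exists_ord_eq_on_finset' hFt ({S.r P₀} : Finset (Place k Ft)) (fun _ => 1) hQne
  have hgord' : (S.r P₀).ord g = 1 := hgord _ (Finset.mem_singleton_self _)
  have hgR : g ∈ regularRing (S.r '' (Z : Set (Place K F))) := by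
    rw [mem_regularRing_iff_ord]
    intro Q hQ
    right
    by_cases hQ0 : Q = S.r P₀
    · rw [hQ0, hgord']; norm_num
    · refine hgreg Q (by rwa [Finset.mem_singleton]) ?_
      rintro rfl
      exact hQ ⟨P₁, hP₁, rfl⟩
  -- lift it to the chart ring
  obtain ⟨t₀, ht₀, hres₀⟩ := S.exists_lift_regular hπ hF hFt hg Z ⟨P₁, hP₁⟩ hgR
  have hP₀Z : P₀ ∉ (Z : Set (Place K F)) := fun h => hP₀ ⟨P₀, h, rfl⟩
  have hval := isValueAt_evalAt P₀ (hF.deg_one P₀)
    (mem_toValuationSubring_of_mem_regularRing ht₀.2 hP₀Z)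
  set c := evalAt P₀ t₀ with hc
  have hcA : c ∈ A := S.mem_of_isValueAt hF ht₀ hP₀ hval
  have hvalres := S.isValueAt_resF hF ht₀ hP₀ hval hcA
  rw [hres₀] at hvalres
  -- the value of `g` at `r P₀` is zero
  have hg_zero : IsValueAt (S.r P₀) g 0 := by
    rw [isValueAt_zero_iff, adicValuation_lt_one_iff]
    right
    rw [hgord']; norm_num
  have hπc : π ⟨c, hcA⟩ = 0 := hvalres.unique hg_zero
  -- `t = t₀ - c`
  have hcchart : algebraMap K F c ∈ S.chart (Z : Set (Place K F)) := S.algebraMap_mem_chart _ hcA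
  have ht : t₀ - algebraMap K F c ∈ S.chart (Z : Set (Place K F)) := sub_mem ht₀ hcchart
  have hrest : S.resF (t₀ - algebraMap K F c) = g := by
    rw [S.resF_sub ht₀.1 hcchart.1, S.resF_algebraMap hcA, hres₀, hπc, map_zero, sub_zero]
  have hrest0 : S.resF (t₀ - algebraMap K F c) ≠ 0 := by rw [hrest]; exact hg0
  have ht0 : t₀ - algebraMap K F c ≠ 0 := S.ne_zero_of_resF_ne_zero hrest0
  have hpos : 0 < P₀.ord (t₀ - algebraMap K F c) :=
    ((adicValuation_lt_one_iff P₀).1 hval).resolve_left ht0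
  have hle : P₀.ord (t₀ - algebraMap K F c) ≤ 1 := by
    have := S.ord_le_ord_resF hF ht hrest0 hP₀
    rwa [hrest, hgord'] at this
  have hord : P₀.ord (t₀ - algebraMap K F c) = 1 := le_antisymm hle hpos
  refine ⟨t₀ - algebraMap K F c, ht, hord, hrest0, by rw [hrest, hgord'], ?_⟩
  intro P hP hPne
  have h0 : 0 ≤ P.ord (t₀ - algebraMap K F c) :=
    S.ord_nonneg_of_mem_chart ht (by rw [hP]; exact hP₀)
  have hsum := S.sum_ord_le_ord_resF hF ht hrest0 hP₀ {P₀, P} (by
    intro P' hP'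
    rcases Finset.mem_insert.1 hP' with rfl | hP'
    · rfl
    · rw [Finset.mem_singleton.1 hP']; exact hP)
  rw [Finset.sum_pair (Ne.symm hPne), hord, hrest, hgord'] at hsum
  omega

end RedSetup

end Fermat.Agent.Red
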