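import Fermat.Agent.Red.NormalForm
import Fermat.Agent.Red.Charts
import Fermat.Agent.Red.FFLemmas

/-!
# Track L-RED, node (R2), part 2: the normal-form data in the language of `Red/Charts.lean`

For a divisor `D` in normal form (`r_* D = 0`, `m D = div f`, `f ∈ O`, `res f = 1`) and under
genus equality, `exists_normalFormData` produces the two finite sets `Z1 ⊇ supp D`, `Z2 ∋ P₀`
(`Z2` inside the single fibre `r⁻¹(r P₀)`, which is disjoint from `r(Z1)`), and the transition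
function `g2` (a unit of `O` with reduction `1`, `div g2 = -D` outside `Z2`), together with the
chart memberships used by (R3)/(R4):
`f, f⁻¹ ∈ B_{Z1}`, `f⁻¹ g2⁻ᵐ, f g2ᵐ ∈ B_{Z2}`, `g2, g2⁻¹ ∈ B_{Z1 ∪ Z2}` and
`L(D) = {s | s ∈ regularRing Z1 ∧ s / g2 ∈ regularRing Z2}`.
-/

set_option autoImplicit false

namespace Fermat.Agent.Red.NormalForm

open AlgebraicCurve Fermat.Agent.X0 Fermat.Agent.Red

variable {K F k Ft : Type*} [Field K] [Field F] [Algebra K F] [Field k] [Field Ft]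
  [Algebra k Ft] {A : ValuationSubring K} {π : A →+* k} (S : RedSetup (F := F) (Ft := Ft) A π)

/-- (I8), from `Red/RRReduction.lean`, in the form used by `Red/NormalForm.lean`. -/
theorem resSurjLarge (hF : RiemannPkg K F) (hFt : RiemannPkg k Ft)
    (hg : genusFF k Ft = genusFF K F) : ResSurjLarge S := by
  have := hF.principal
  have := hFt.infinite_places
  obtain ⟨c, hc⟩ := S.exists_bound_lift (pi_surjective S hF.deg_one) hF hFt hg
  refine ⟨c, fun E hE y hy => ?_⟩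
  obtain ⟨x, hxE, hxO, hx⟩ := hc E hE y hy
  exact ⟨⟨x, hxO⟩, hxE, by rw [← hx, S.resF_of_mem hxO]⟩

theorem mem_regularRing_of_ord {Z : Set (Place K F)} {x : F}
    (h : ∀ P : Place K F, P ∉ Z → 0 ≤ P.ord x) : x ∈ regularRing Z :=
  mem_regularRing_iff_ord.mpr fun P hP => Or.inr (h P hP)

/-- **(R2), chart form.** -/
theorem exists_normalFormData (hF : RiemannPkg K F) (hFt : RiemannPkg k Ft)
    (hg : genusFF k Ft = genusFF K F) (m : ℕ) (D : Divisor K F)
    (hrD : Finsupp.mapDomain S.r D = 0) (f : S.O) (hf : S.res f = 1)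
    (hfD : ∀ P : Place K F, (m • D) P = P.ord (f : F)) :
    ∃ (Z1 Z2 : Finset (Place K F)) (P₀ : Place K F) (g2 : F),
      Z1.Nonempty ∧ P₀ ∈ Z2 ∧ D.support ⊆ Z1 ∧
      (∀ P ∈ Z2, S.r P = S.r P₀) ∧ (∀ P ∈ Z1, S.r P ≠ S.r P₀) ∧
      Disjoint (S.r '' (Z1 : Set (Place K F))) (S.r '' (Z2 : Set (Place K F))) ∧
      g2 ∈ S.O ∧ g2⁻¹ ∈ S.O ∧ S.resF g2 = 1 ∧
      (∀ P : Place K F, P ∉ Z2 → P.ord g2 = - D P) ∧
      (f : F) ∈ S.chart (Z1 : Set (Place K F)) ∧ (f : F)⁻¹ ∈ S.chart (Z1 : Set (Place K F)) ∧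
      (f : F)⁻¹ * (g2 ^ m)⁻¹ ∈ S.chart (Z2 : Set (Place K F)) ∧
      (f : F) * g2 ^ m ∈ S.chart (Z2 : Set (Place K F)) ∧
      g2 ∈ S.chart ((Z1 : Set (Place K F)) ∪ Z2) ∧ g2⁻¹ ∈ S.chart ((Z1 : Set (Place K F)) ∪ Z2) ∧
      (∀ s : F, s ∈ riemannRochSpace D ↔
        s ∈ regularRing (Z1 : Set (Place K F)) ∧ s / g2 ∈ regularRing (Z2 : Set (Place K F))) := by
  classical
  have hpr := hF.principal
  have hinf := hFt.infinite_places
  obtain ⟨P₀, n, g, hsupp, hg1, hgE, hgD⟩ :=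
    exists_chart_function S hF hFt (resSurjLarge S hF hFt hg) D hrD
  -- an extra place `P₁` with `r P₁ ≠ r P₀`
  obtain ⟨Q₁, hQ₁⟩ := Infinite.exists_notMem_finset ({S.r P₀} : Finset (Place k Ft))
  obtain ⟨P₁, rfl⟩ := r_surjective S Q₁
  have hP₁ : S.r P₁ ≠ S.r P₀ := by simpa using hQ₁
  have hg1' : S.res g ≠ 0 := by rw [hg1]; exact one_ne_zero
  have hg0 : (g : F) ≠ 0 := coe_ne_zero_of_res_ne_zero S hg1'
  have hf1' : S.res f ≠ 0 := by rw [hf]; exact one_ne_zero
  have hf0 : (f : F) ≠ 0 := coe_ne_zero_of_res_ne_zero S hf1'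
  have hgu : IsUnit g := (res_ne_zero_iff S g).mp hg1'
  have hfu : IsUnit f := (res_ne_zero_iff S f).mp hf1'
  have hginv : (g : F)⁻¹ ∈ S.O := ((isUnit_iff_inv_mem S.O g).mp hgu).2
  have hfinv : (f : F)⁻¹ ∈ S.O := ((isUnit_iff_inv_mem S.O f).mp hfu).2
  set Z1 : Finset (Place K F) := insert P₁ D.support with hZ1
  set Z2 : Finset (Place K F) := insert P₀ (divOf K (g : F) + D).support with hZ2
  have hZ2r : ∀ P ∈ Z2, S.r P = S.r P₀ := by
    intro P hP
    rcases Finset.mem_insert.mp hP with rfl | hP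
    · rfl
    · by_contra hne
      have := hgD P hne
      rw [Finsupp.mem_support_iff, Finsupp.add_apply, divOf_apply, this] at hP
      exact hP (by ring)
  have hZ1r : ∀ P ∈ Z1, S.r P ≠ S.r P₀ := by
    intro P hP
    rcases Finset.mem_insert.mp hP with rfl | hP
    · exact hP₁
    · exact hsupp P hP
  have hord : ∀ P : Place K F, P ∉ Z2 → P.ord (g : F) = - D P := by
    intro P hP
    have : P ∉ (divOf K (g : F) + D).support := fun h => hP (Finset.mem_insert_of_mem h)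
    rw [Finsupp.notMem_support_iff, Finsupp.add_apply, divOf_apply] at this
    omega
  have hD0 : ∀ P : Place K F, P ∉ Z1 → D P = 0 := by
    intro P hP
    have : P ∉ D.support := fun h => hP (Finset.mem_insert_of_mem h)
    exact Finsupp.notMem_support_iff.mp this
  have hordf : ∀ P : Place K F, P.ord (f : F) = m * D P := by
    intro P
    rw [← hfD, Finsupp.smul_apply, nsmul_eq_mul]
  have hdisj : ∀ P : Place K F, P ∈ Z1 → P ∉ Z2 := fun P h1 h2 => hZ1r P h1 (hZ2r P h2)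
  refine ⟨Z1, Z2, P₀, g, ⟨P₁, Finset.mem_insert_self _ _⟩, Finset.mem_insert_self _ _,
    Finset.subset_insert _ _, hZ2r, hZ1r, ?_, g.2, hginv, ?_, hord, ?_, ?_, ?_, ?_, ?_, ?_, ?_⟩
  · rw [Set.disjoint_left]
    rintro Q ⟨P, hP, rfl⟩ ⟨P', hP', hPP'⟩
    exact hZ1r P hP (hPP' ▸ hZ2r P' hP')
  · rw [S.resF_of_mem g.2]
    exact hg1
  · -- `f ∈ B_{Z1}`
    refine ⟨f.2, mem_regularRing_of_ord fun P hP => ?_⟩
    rw [hordf, hD0 P hP, mul_zero]
  · refine ⟨hfinv, mem_regularRing_of_ord fun P hP => ?_⟩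
    rw [P.ord_inv, hordf, hD0 P hP, mul_zero, neg_zero]
  · refine ⟨S.O.mul_mem _ _ hfinv (by rw [← inv_pow]; exact pow_mem hginv m),
      mem_regularRing_of_ord fun P hP => ?_⟩
    rw [P.ord_mul (inv_ne_zero hf0) (inv_ne_zero (pow_ne_zero m hg0)), P.ord_inv, P.ord_inv,
      Place.ord_pow, hordf, hord P hP]
    ring_nf
    exact le_rfl
  · refine ⟨S.O.mul_mem _ _ f.2 (pow_mem g.2 m), mem_regularRing_of_ord fun P hP => ?_⟩
    rw [P.ord_mul hf0 (pow_ne_zero m hg0), Place.ord_pow, hordf, hord P hP]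
    ring_nf
    exact le_rfl
  · refine ⟨g.2, mem_regularRing_of_ord fun P hP => ?_⟩
    have h1 : P ∉ Z1 := fun h => hP (Or.inl h)
    have h2 : P ∉ Z2 := fun h => hP (Or.inr h)
    rw [hord P h2, hD0 P h1, neg_zero]
  · refine ⟨hginv, mem_regularRing_of_ord fun P hP => ?_⟩
    have h1 : P ∉ Z1 := fun h => hP (Or.inl h)
    have h2 : P ∉ Z2 := fun h => hP (Or.inr h)
    rw [P.ord_inv, hord P h2, hD0 P h1, neg_zero, neg_zero]
  · intro s
    rcases eq_or_ne s 0 with rfl | hs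
    · simp
    rw [mem_riemannRochSpace_iff, mem_regularRing_iff_ord, mem_regularRing_iff_ord]
    constructor
    · intro h
      refine ⟨fun P hP => Or.inr ?_, fun P hP => Or.inr ?_⟩
      · have := (h P).resolve_left hs
        rwa [hD0 P hP, neg_zero] at this
      · have := (h P).resolve_left hs
        rw [div_eq_mul_inv, P.ord_mul hs (inv_ne_zero hg0), P.ord_inv, hord P hP]
        omega
    · rintro ⟨h1, h2⟩ P
      right
      by_cases hP : P ∈ Z1
      · have := (h2 P (hdisj P hP)).resolve_left (div_ne_zero hs hg0)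
        rw [div_eq_mul_inv, P.ord_mul hs (inv_ne_zero hg0), P.ord_inv, hord P (hdisj P hP)] at this
        omega
      · have := (h1 P hP).resolve_left hs
        rw [hD0 P hP, neg_zero]
        exact this

end Fermat.Agent.Red.NormalForm
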