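import Fermat.Agent.Red.Main
import Fermat.Agent.Red.S18Assembly
import Fermat.Agent.Val.RankOne
import Fermat.Agent.Val.RiemannPkgBar
import Fermat.Agent.Val.RiemannPkgModL

/-!
# Program L (S18): the statement from the two remaining deliverables

`s18_of_valDeliverable_genDeliverable` : S18 follows from `ValDeliverable N A` (L-VAL) and `GenDeliverable N A`
(L-GEN); everything else (`mainStatement`, rank one, the two Riemann packages) is plugged in.
-/

set_option autoImplicit false

namespace Fermat.Agent.Red

open ModularCurve AlgebraicCurve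

set_option synthInstance.maxHeartbeats 400000 in
/-- S18 from the deliverables of L-VAL and L-GEN. -/
theorem s18_of_valDeliverable_genDeliverable (N : ℕ) [NeZero N] {ℓ : ℕ} [Fact ℓ.Prime] (hℓN : ¬ ℓ ∣ N)
    (A : ValuationSubring (AlgebraicClosure ℚ)) (hA : A.LiesOverPrime ℓ)
    (hVal : ValDeliverable N A) (hGen : GenDeliverable N A)
    (h : ModularCurve.ReductionInputsModL A N) (m : ℕ) (hm : ¬ ℓ ∣ m)
    (z : ModularCurve.JZero N) (hmz : m • z = 0)
    (hz : ModularCurve.reductionModL A N z = 0) : z = 0 :=
  s18_of_deliverables N A hA hVal hGen (Val.isRankOne A hA) (Val.riemannPkg_bar N)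
    (Val.riemannPkg_modL_residueField N hℓN A hA) (fun S => mainStatement S) h m hm z hmz hz

end Fermat.Agent.Red
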