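import Fermat.Agent.Red.TwoChart

/-!
# Track L-RED, step (R3) over a local (valuation) base ring, and the ending (E1)

`Red/TwoChart.lean` runs the induction `πⁿ → πⁿ⁺¹` for a fixed element `π`.  Here the base is a
subring `A ≤ B₁, B₂ ≤ R` which is local and archimedean with respect to a fixed nonzero non-unit
`a₀` (in practice the rank-one valuation ring of `ℚ̄`), no uniformiser:

* `URedA A B b` : unit reduction modulo the maximal ideal of `A`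
  (`b * b' = 1 + a' * w`, `a' ∈ A` a non-unit);
* `approx_step'`, `exists_approx'` : the induction of `Red/TwoChart.lean`, keeping track of
  `βᵢ - bᵢ ∈ π Bᵢ` (the reductions of the `bᵢ` do not change);
* `exists_approx_all` : **(R3), corollary form**: from one level `a₀` to every level `a ≠ 0`;
* `exists_section_of_bounded` : **ending (E1)**: with a bound `c ≠ 0` on the torsion of
  `R / (B₁ + u B₂)` one gets an exact section.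
-/

set_option autoImplicit false

namespace Fermat.Agent.Red

variable {R : Type*} [CommRing R]

section Step

variable {π : R} {O B₁ B₂ : Subring R}

/-- One step of the `π`-adic induction, keeping track of `βᵢ - bᵢ ∈ πⁿ Bᵢ`. -/
theorem approx_step' (hπO : π ∈ O) (hO₁ : O ≤ B₁) (hO₂ : O ≤ B₂)
    (hnzd : ∀ x : R, π * x = 0 → x = 0)
    (hsat₂ : ∀ x : R, π * x ∈ B₂ → x ∈ B₂)
    (h0 : ∀ x₁ ∈ B₁, ∀ x₂ ∈ B₂, (∃ w : R, x₁ - x₂ = π * w) →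
      ∃ l ∈ O, ∃ y ∈ B₁, x₁ = l + π * y)
    (hOk : ∀ l ∈ O, URed B₁ π l → ∃ μ ∈ O, ∃ ν ∈ O, l * μ = 1 + π * ν)
    (m : ℕ) (hm : ∃ μ ∈ O, ∃ ν ∈ O, (m : R) * μ = 1 + π * ν)
    (u a₁ a₂ : R) (ha₁ : a₁ ∈ B₁) (ha₂ : a₂ ∈ B₂) (hua₁ : URed B₁ π a₁)
    (hma : u ^ m * a₂ = a₁)
    (n : ℕ) (hn : 1 ≤ n) (b₁ b₂ : R) (hb₁ : b₁ ∈ B₁) (hb₂ : b₂ ∈ B₂)
    (hub₁ : URed B₁ π b₁) (hub₂ : URed B₂ π b₂) (hb : ∃ w : R, u * b₂ - b₁ = π ^ n * w) :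
    ∃ y₁ ∈ B₁, ∃ y₂ ∈ B₂, ∃ w : R,
      u * (b₂ + π ^ n * y₂) - (b₁ + π ^ n * y₁) = π ^ (n + 1) * w := by
  have hπ₁ : π ∈ B₁ := hO₁ hπO
  have hπ₂ : π ∈ B₂ := hO₂ hπO
  obtain ⟨w, hw⟩ := hb
  obtain ⟨b₁', hb₁', z₁, hz₁, hi₁⟩ := hub₁.exists_inv_pow hπ₁ (n + 1)
  obtain ⟨b₂', hb₂', z₂, hz₂, hi₂⟩ := hub₂.exists_inv_pow hπ₂ (n + 1)
  obtain ⟨μm, hμm, νm, hνm, hmm⟩ := hm
  set I : Ideal R := Ideal.span {π ^ (n + 1)} with hI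
  set q : R →+* R ⧸ I := Ideal.Quotient.mk I with hq
  have qπ : q π ^ (n + 1) = 0 := by
    rw [← map_pow]
    exact Ideal.Quotient.eq_zero_iff_mem.mpr (Ideal.subset_span rfl)
  have qπ2 : (q π ^ n) ^ 2 = 0 := by
    have : (q π ^ n) ^ 2 = q π ^ (n + 1) * q π ^ (n - 1) := by
      rw [← pow_mul, ← pow_add]; congr 1; omega
    rw [this, qπ, zero_mul]
  have q1 : q b₁ * q b₁' = 1 := by
    rw [← map_mul, hi₁, map_add, map_one, map_mul, map_pow, qπ, zero_mul, add_zero]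
  have q2 : q b₂ * q b₂' = 1 := by
    rw [← map_mul, hi₂, map_add, map_one, map_mul, map_pow, qπ, zero_mul, add_zero]
  have qUB : q u * q b₂ = q b₁ + q π ^ n * q w := by
    have := congrArg q hw
    rw [map_sub, map_mul, map_mul, map_pow] at this
    linear_combination this
  have E1 : q u * q b₁' = q b₂' * (1 + q π ^ n * (q w * q b₁')) := by
    linear_combination (q b₁' * q b₂') * qUB + q b₂' * q1 - q u * q b₁' * q2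
  have E2 : q a₁ * q b₁' ^ m = q a₂ * q b₂' ^ m * (1 + m * (q π ^ n * (q w * q b₁'))) := by
    have hx : (q π ^ n * (q w * q b₁')) ^ 2 = 0 := by
      rw [mul_pow, qπ2, zero_mul]
    have hp := congrArg (fun t => t ^ m) E1
    simp only [mul_pow] at hp
    rw [one_add_pow_of_sq_eq_zero _ hx m] at hp
    have hma' := congrArg q hma
    rw [map_mul, map_pow] at hma'
    calc q a₁ * q b₁' ^ m = q a₂ * (q u ^ m * q b₁' ^ m) := by rw [← hma']; ring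
      _ = q a₂ * q b₂' ^ m * (1 + m * (q π ^ n * (q w * q b₁'))) := by rw [hp]; ring
  set α₁ : R := a₁ * b₁' ^ m with hα₁
  set α₂ : R := a₂ * b₂' ^ m with hα₂
  have hα₁B : α₁ ∈ B₁ := B₁.mul_mem ha₁ (B₁.pow_mem hb₁' m)
  have hα₂B : α₂ ∈ B₂ := B₂.mul_mem ha₂ (B₂.pow_mem hb₂' m)
  have hub₁' : URed B₁ π b₁' :=
    ⟨b₁, hb₁, π ^ n * z₁, B₁.mul_mem (B₁.pow_mem hπ₁ n) hz₁, by
      rw [mul_comm b₁' b₁, hi₁]; ring⟩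
  have hα₁U : URed B₁ π α₁ := hua₁.mul hπ₁ (hub₁'.pow hπ₁ m)
  obtain ⟨e, he⟩ : ∃ e : R, α₁ - α₂ - π ^ n * (m * (w * b₁') * α₂) = π ^ (n + 1) * e := by
    have hmem : α₁ - α₂ - π ^ n * (m * (w * b₁') * α₂) ∈ I := by
      rw [← Ideal.Quotient.eq_zero_iff_mem]
      change q (α₁ - α₂ - π ^ n * (m * (w * b₁') * α₂)) = 0
      simp only [hα₁, hα₂, map_sub, map_mul, map_pow, map_natCast]
      linear_combination E2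
    obtain ⟨e, he⟩ := Ideal.mem_span_singleton'.mp hmem
    exact ⟨e, by rw [← he]; ring⟩
  obtain ⟨l, hl, d₁, hd₁, d₂, hd₂, e₁, e₂⟩ :=
    h0_pow π O B₁ B₂ hπO hsat₂ h0 n α₁ α₂ hα₁B hα₂B hO₂
      ⟨m * (w * b₁') * α₂ + π * e, by linear_combination he⟩
  have hπn : π ^ n = π * π ^ (n - 1) := by
    rw [← pow_succ']; congr 1; omega
  have hlU : URed B₁ π l := by
    refine hα₁U.congr (z := -(π ^ (n - 1) * d₁))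
      (B₁.neg_mem (B₁.mul_mem (B₁.pow_mem hπ₁ _) hd₁)) ?_
    rw [e₁, hπn]; ring
  obtain ⟨μ, hμ, ν, hν, hlμ⟩ := hOk l hl hlU
  have hd : d₁ - d₂ - (m * (w * b₁') * α₂ + π * e) = 0 := by
    apply pow_mul_eq_zero π hnzd n
    linear_combination -e₁ + e₂ + he
  set κ : R := μ * μm with hκ
  have hκO : κ ∈ O := O.mul_mem hμ hμm
  refine ⟨b₁ * (κ * d₁), B₁.mul_mem hb₁ (B₁.mul_mem (hO₁ hκO) hd₁),
    b₂ * (κ * d₂), B₂.mul_mem hb₂ (B₂.mul_mem (hO₂ hκO) hd₂), ?_⟩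
  have hmem : u * (b₂ + π ^ n * (b₂ * (κ * d₂))) - (b₁ + π ^ n * (b₁ * (κ * d₁))) ∈ I := by
    rw [← Ideal.Quotient.eq_zero_iff_mem]
    change q (u * (b₂ + π ^ n * (b₂ * (κ * d₂))) - (b₁ + π ^ n * (b₁ * (κ * d₁)))) = 0
    have hc : q π ^ n * (q w * q b₁') = q π ^ n * (q κ * (q d₁ - q d₂)) := by
      have h1 : π ^ n * (w * b₁') - π ^ n * (κ * (d₁ - d₂)) ∈ I := by
        refine Ideal.mem_span_singleton'.mpr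
          ⟨-(w * b₁') * (νm + ν + π * νm * ν + κ * m * π ^ (n - 1) * d₂) - κ * e, ?_⟩
        have hα₂' : α₂ = l + π * π ^ (n - 1) * d₂ := by rw [e₂, hπn]
        rw [pow_succ]
        linear_combination (π ^ n * κ) * hd + (π ^ n * (w * b₁') * κ * m) * hα₂'
          + (π ^ n * (w * b₁') * μm * m) * hlμ + (π ^ n * (w * b₁') * (1 + π * ν)) * hmm
      have h2 := Ideal.Quotient.eq_zero_iff_mem.mpr h1
      change q (π ^ n * (w * b₁') - π ^ n * (κ * (d₁ - d₂))) = 0 at h2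
      simp only [map_sub, map_mul, map_pow] at h2
      linear_combination h2
    have E1' : q u * q b₁' = q b₂' * (1 + q π ^ n * (q κ * (q d₁ - q d₂))) := by
      rw [E1, hc]
    have E3 : q u * q b₂ = q b₁ * (1 + q π ^ n * (q κ * (q d₁ - q d₂))) := by
      linear_combination (q b₁ * q b₂) * E1' - q u * q b₂ * q1
        + q b₁ * (1 + q π ^ n * (q κ * (q d₁ - q d₂))) * q2
    simp only [map_sub, map_mul, map_add, map_pow]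
    linear_combination (1 + q π ^ n * (q κ * q d₂)) * E3
      + (q b₁ * q κ ^ 2 * (q d₁ - q d₂) * q d₂) * qπ2
  obtain ⟨e', he'⟩ := Ideal.mem_span_singleton'.mp hmem
  exact ⟨e', by rw [← he']; ring⟩

/-- The `π`-adic induction keeping the reductions fixed: for every `n` there are
`βᵢ ∈ bᵢ + π Bᵢ` with `u β₂ ≡ β₁` modulo `π ^ (n + 1)`. -/
theorem exists_approx' (hπO : π ∈ O) (hO₁ : O ≤ B₁) (hO₂ : O ≤ B₂)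
    (hnzd : ∀ x : R, π * x = 0 → x = 0)
    (hsat₂ : ∀ x : R, π * x ∈ B₂ → x ∈ B₂)
    (h0 : ∀ x₁ ∈ B₁, ∀ x₂ ∈ B₂, (∃ w : R, x₁ - x₂ = π * w) →
      ∃ l ∈ O, ∃ y ∈ B₁, x₁ = l + π * y)
    (hOk : ∀ l ∈ O, URed B₁ π l → ∃ μ ∈ O, ∃ ν ∈ O, l * μ = 1 + π * ν)
    (m : ℕ) (hm : ∃ μ ∈ O, ∃ ν ∈ O, (m : R) * μ = 1 + π * ν)
    (u a₁ a₂ : R) (ha₁ : a₁ ∈ B₁) (ha₂ : a₂ ∈ B₂) (hua₁ : URed B₁ π a₁)
    (hma : u ^ m * a₂ = a₁)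
    (b₁ b₂ : R) (hb₁ : b₁ ∈ B₁) (hb₂ : b₂ ∈ B₂)
    (hub₁ : URed B₁ π b₁) (hub₂ : URed B₂ π b₂) (hb : ∃ w : R, u * b₂ - b₁ = π * w)
    (n : ℕ) :
    ∃ y₁ ∈ B₁, ∃ y₂ ∈ B₂, ∃ w : R,
      u * (b₂ + π * y₂) - (b₁ + π * y₁) = π ^ (n + 1) * w := by
  have hπ₁ : π ∈ B₁ := hO₁ hπO
  have hπ₂ : π ∈ B₂ := hO₂ hπO
  induction n with
  | zero =>
    obtain ⟨w, hw⟩ := hb
    exact ⟨0, B₁.zero_mem, 0, B₂.zero_mem, w, by rw [← pow_one π] at hw; linear_combination hw⟩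
  | succ n ih =>
    obtain ⟨y₁, hy₁, y₂, hy₂, hw⟩ := ih
    have hβ₁ : b₁ + π * y₁ ∈ B₁ := B₁.add_mem hb₁ (B₁.mul_mem hπ₁ hy₁)
    have hβ₂ : b₂ + π * y₂ ∈ B₂ := B₂.add_mem hb₂ (B₂.mul_mem hπ₂ hy₂)
    obtain ⟨t₁, ht₁, t₂, ht₂, w', hw'⟩ :=
      approx_step' hπO hO₁ hO₂ hnzd hsat₂ h0 hOk m hm u a₁ a₂ ha₁ ha₂ hua₁ hma (n + 1)
        (Nat.le_add_left 1 n) (b₁ + π * y₁) (b₂ + π * y₂) hβ₁ hβ₂
        (hub₁.congr hy₁ rfl) (hub₂.congr hy₂ rfl) hw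
    refine ⟨y₁ + π ^ n * t₁, B₁.add_mem hy₁ (B₁.mul_mem (B₁.pow_mem hπ₁ n) ht₁),
      y₂ + π ^ n * t₂, B₂.add_mem hy₂ (B₂.mul_mem (B₂.pow_mem hπ₂ n) ht₂), w', ?_⟩
    rw [← hw']
    ring

end Step

section Local

variable (A B₁ B₂ : Subring R)

/-- `l ∈ A` is a unit of `A`. -/
def IsUnitIn (l : R) : Prop := ∃ l' ∈ A, l * l' = 1

/-- Unit reduction modulo the maximal ideal of `A`: `b * b' = 1 + a' * w` with `b', w ∈ B` and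
`a' ∈ A` a non-unit. -/
def URedA (B : Subring R) (b : R) : Prop :=
  ∃ b' ∈ B, ∃ a' ∈ A, ¬ IsUnitIn A a' ∧ ∃ w ∈ B, b * b' = 1 + a' * w

variable {A B₁ B₂}

/-- Unit reduction modulo the maximal ideal gives unit reduction modulo any `a₀` which is
archimedean-dominated (`a' ^ n ∈ a₀ A`). -/
theorem URedA.uRed {B : Subring R} (hAB : A ≤ B) {a₀ : R}
    (harch : ∀ a' ∈ A, ¬ IsUnitIn A a' → ∃ n : ℕ, ∃ c ∈ A, a' ^ n = a₀ * c)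
    {b : R} (hb : URedA A B b) : URed B a₀ b := by
  obtain ⟨b', hb', a', ha', hnu, w, hw, h⟩ := hb
  obtain ⟨n, c, hc, hn⟩ := harch a' ha' hnu
  have hx : -(a' * w) ∈ B := B.neg_mem (B.mul_mem (hAB ha') hw)
  have hsum : (∑ i ∈ Finset.range n, (-(a' * w)) ^ i) ∈ B :=
    B.sum_mem fun i _ => B.pow_mem hx i
  refine ⟨b' * ∑ i ∈ Finset.range n, (-(a' * w)) ^ i, B.mul_mem hb' hsum,
    -((-1) ^ n * (c * w ^ n)), B.neg_mem (B.mul_mem (B.pow_mem (B.neg_mem B.one_mem) n)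
      (B.mul_mem (hAB hc) (B.pow_mem hw n))), ?_⟩
  have hg := mul_neg_geom_sum (-(a' * w)) n
  have e : b * (b' * ∑ i ∈ Finset.range n, (-(a' * w)) ^ i) =
      (1 - -(a' * w)) * ∑ i ∈ Finset.range n, (-(a' * w)) ^ i := by
    rw [← mul_assoc, h]; ring
  rw [e, hg]
  have : (-(a' * w)) ^ n = (-1) ^ n * (a' ^ n * w ^ n) := by
    rw [neg_eq_neg_one_mul, mul_pow, mul_pow]
  rw [this, hn]; ring

/-- **(R3), corollary form over a local archimedean base.**  If the bundle is trivial modulo one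
nonzero non-unit `a₀` of `A`, it is trivial modulo every nonzero `a ∈ A`, by elements with the
same reductions (`βᵢ ∈ bᵢ + a₀ Bᵢ`). -/
theorem exists_approx_all (hA₁ : A ≤ B₁) (hA₂ : A ≤ B₂)
    (hloc : ∀ l ∈ A, ¬ IsUnitIn A l → ∀ a ∈ A, ¬ IsUnitIn A a →
      ∀ y₁ ∈ B₁, ∀ y₂ ∈ B₁, l * y₁ + a * y₂ ≠ 1)
    {a₀ : R} (ha₀ : a₀ ∈ A) (ha₀u : ¬ IsUnitIn A a₀)
    (hnzd : ∀ x : R, a₀ * x = 0 → x = 0)
    (hsat₂ : ∀ x : R, a₀ * x ∈ B₂ → x ∈ B₂)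
    (h0 : ∀ x₁ ∈ B₁, ∀ x₂ ∈ B₂, (∃ w : R, x₁ - x₂ = a₀ * w) →
      ∃ l ∈ A, ∃ y ∈ B₁, x₁ = l + a₀ * y)
    (harch : ∀ a ∈ A, a ≠ 0 → ¬ IsUnitIn A a → ∃ n : ℕ, ∃ c ∈ A, a₀ ^ n = a * c)
    (harch' : ∀ a' ∈ A, ¬ IsUnitIn A a' → ∃ n : ℕ, ∃ c ∈ A, a' ^ n = a₀ * c)
    (m : ℕ) (hm : IsUnitIn A (m : R))
    (u a₁ a₂ : R) (ha₁ : a₁ ∈ B₁) (ha₂ : a₂ ∈ B₂) (hua₁ : URedA A B₁ a₁)
    (hma : u ^ m * a₂ = a₁)
    (b₁ b₂ : R) (hb₁ : b₁ ∈ B₁) (hb₂ : b₂ ∈ B₂)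
    (hub₁ : URedA A B₁ b₁) (hub₂ : URedA A B₂ b₂) (hb : ∃ w : R, u * b₂ - b₁ = a₀ * w)
    (a : R) (ha : a ∈ A) (ha0 : a ≠ 0) :
    ∃ y₁ ∈ B₁, ∃ y₂ ∈ B₂, ∃ w : R,
      u * (b₂ + a₀ * y₂) - (b₁ + a₀ * y₁) = a * w := by
  have hOk : ∀ l ∈ A, URed B₁ a₀ l → ∃ μ ∈ A, ∃ ν ∈ A, l * μ = 1 + a₀ * ν := by
    intro l hl hU
    by_cases hlu : IsUnitIn A l
    · obtain ⟨l', hl', h⟩ := hlu
      exact ⟨l', hl', 0, A.zero_mem, by rw [h]; ring⟩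
    · exfalso
      obtain ⟨l', hl', w, hw, h⟩ := hU
      exact hloc l hl hlu a₀ ha₀ ha₀u l' hl' (-w) (B₁.neg_mem hw) (by rw [h]; ring)
  have hm' : ∃ μ ∈ A, ∃ ν ∈ A, (m : R) * μ = 1 + a₀ * ν := by
    obtain ⟨μ, hμ, h⟩ := hm
    exact ⟨μ, hμ, 0, A.zero_mem, by rw [h]; ring⟩
  have key : ∀ n : ℕ, ∃ y₁ ∈ B₁, ∃ y₂ ∈ B₂, ∃ w : R,
      u * (b₂ + a₀ * y₂) - (b₁ + a₀ * y₁) = a₀ ^ (n + 1) * w :=
    exists_approx' ha₀ hA₁ hA₂ hnzd hsat₂ h0 hOk m hm' u a₁ a₂ ha₁ ha₂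
      (hua₁.uRed hA₁ harch') hma b₁ b₂ hb₁ hb₂ (hub₁.uRed hA₁ harch') (hub₂.uRed hA₂ harch') hb
  by_cases hau : IsUnitIn A a
  · obtain ⟨a', -, haa'⟩ := hau
    obtain ⟨y₁, hy₁, y₂, hy₂, w, hw⟩ := key 0
    exact ⟨y₁, hy₁, y₂, hy₂, a' * (a₀ * w), by
      rw [hw, ← mul_assoc, haa']; ring⟩
  · obtain ⟨n, c, -, hn⟩ := harch a ha ha0 hau
    obtain ⟨y₁, hy₁, y₂, hy₂, w, hw⟩ := key n
    exact ⟨y₁, hy₁, y₂, hy₂, c * (a₀ * w), by rw [hw, pow_succ, hn]; ring⟩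

/-- **Ending (E1).**  If moreover the torsion of `R / (B₁ + u B₂)` is killed by one nonzero
`c ∈ A`, the bundle has an exact section `(s₁, s₂)`, `u s₂ = s₁`, with `s₁ ∈ b₁ + a₀ B₁`
(in particular with unit reduction). -/
theorem exists_section_of_bounded (hA₁ : A ≤ B₁) (hA₂ : A ≤ B₂)
    (hloc : ∀ l ∈ A, ¬ IsUnitIn A l → ∀ a ∈ A, ¬ IsUnitIn A a →
      ∀ y₁ ∈ B₁, ∀ y₂ ∈ B₁, l * y₁ + a * y₂ ≠ 1)
    {a₀ : R} (ha₀ : a₀ ∈ A) (ha₀u : ¬ IsUnitIn A a₀)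
    (hnzd : ∀ x : R, a₀ * x = 0 → x = 0)
    (hsat₂ : ∀ x : R, a₀ * x ∈ B₂ → x ∈ B₂)
    (h0 : ∀ x₁ ∈ B₁, ∀ x₂ ∈ B₂, (∃ w : R, x₁ - x₂ = a₀ * w) →
      ∃ l ∈ A, ∃ y ∈ B₁, x₁ = l + a₀ * y)
    (harch : ∀ a ∈ A, a ≠ 0 → ¬ IsUnitIn A a → ∃ n : ℕ, ∃ c ∈ A, a₀ ^ n = a * c)
    (harch' : ∀ a' ∈ A, ¬ IsUnitIn A a' → ∃ n : ℕ, ∃ c ∈ A, a' ^ n = a₀ * c)
    (m : ℕ) (hm : IsUnitIn A (m : R))
    (u a₁ a₂ : R) (ha₁ : a₁ ∈ B₁) (ha₂ : a₂ ∈ B₂) (hua₁ : URedA A B₁ a₁)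
    (hma : u ^ m * a₂ = a₁)
    (b₁ b₂ : R) (hb₁ : b₁ ∈ B₁) (hb₂ : b₂ ∈ B₂)
    (hub₁ : URedA A B₁ b₁) (hub₂ : URedA A B₂ b₂) (hb : ∃ w : R, u * b₂ - b₁ = a₀ * w)
    (c : R) (hcA : c ∈ A) (hc0 : c ≠ 0)
    (hc : ∀ x : R, ∀ a ∈ A, a ≠ 0 → (∃ y₁ ∈ B₁, ∃ y₂ ∈ B₂, a * x = y₁ + u * y₂) →
      ∃ y₁ ∈ B₁, ∃ y₂ ∈ B₂, c * x = y₁ + u * y₂) :
    ∃ s₁ ∈ B₁, ∃ s₂ ∈ B₂, u * s₂ = s₁ ∧ (∃ y ∈ B₁, s₁ = b₁ + a₀ * y) ∧ URed B₁ a₀ s₁ := by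
  have ha₀1 : a₀ ∈ B₁ := hA₁ ha₀
  have ha₀2 : a₀ ∈ B₂ := hA₂ ha₀
  have hca₀ : a₀ * c ≠ 0 := fun h => hc0 (hnzd c h)
  obtain ⟨y₁, hy₁, y₂, hy₂, w, hw⟩ :=
    exists_approx_all hA₁ hA₂ hloc ha₀ ha₀u hnzd hsat₂ h0 harch harch' m hm u a₁ a₂ ha₁ ha₂
      hua₁ hma b₁ b₂ hb₁ hb₂ hub₁ hub₂ hb (a₀ * c) (A.mul_mem ha₀ hcA) hca₀
  obtain ⟨t₁, ht₁, t₂, ht₂, ht⟩ := hc w (a₀ * c) (A.mul_mem ha₀ hcA) hca₀
    ⟨-(b₁ + a₀ * y₁), B₁.neg_mem (B₁.add_mem hb₁ (B₁.mul_mem ha₀1 hy₁)),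
      b₂ + a₀ * y₂, B₂.add_mem hb₂ (B₂.mul_mem ha₀2 hy₂), by linear_combination -hw⟩
  refine ⟨b₁ + a₀ * y₁ + a₀ * t₁,
    B₁.add_mem (B₁.add_mem hb₁ (B₁.mul_mem ha₀1 hy₁)) (B₁.mul_mem ha₀1 ht₁),
    b₂ + a₀ * y₂ - a₀ * t₂,
    B₂.sub_mem (B₂.add_mem hb₂ (B₂.mul_mem ha₀2 hy₂)) (B₂.mul_mem ha₀2 ht₂), ?_,
    ⟨y₁ + t₁, B₁.add_mem hy₁ ht₁, by ring⟩,
    (hub₁.uRed hA₁ harch').congr (B₁.add_mem hy₁ ht₁) (by ring)⟩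
  linear_combination hw + a₀ * ht

end Local

end Fermat.Agent.Red
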