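import Fermat.Agent.Red.LatticeReduction
import Fermat.Agent.Red.UnitRed

/-!
# Program L (S18), L-RED: the two-lattice lemma (ending, step (2))

* `RedSetup.exists_smul_mem_O` : every element of `F` is scaled into `O` by a nonzero element of
  `A`.
* `RedSetup.exists_common_denominator_sup` : for finite-dimensional `W0 W1 ≤ F` there is a nonzero
  `e ∈ A` with `e • ((W0 ⊔ W1) ∩ O) ⊆ (W0 ∩ O) + (W1 ∩ O)`.
* `RedSetup.exists_ne_zero_mem_inf` : if for every nonzero `a ∈ A` there are `h0 ∈ W0 ∩ O` with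
  nonzero residue and `h1 ∈ W1` with `h0 - h1 ∈ a • O`, then `W0 ⊓ W1 ≠ ⊥` (an explicit nonzero
  common element is produced), provided `A` has a nonzero non-unit `t`.
-/

set_option autoImplicit false

namespace Fermat.Agent.Red

open AlgebraicCurve Module

variable {K F k Ft : Type*} [Field K] [Field F] [Algebra K F] [Field k] [Field Ft]
  [Algebra k Ft] {A : ValuationSubring K} {π : A →+* k}

namespace RedSetup

variable (S : RedSetup (F := F) (Ft := Ft) A π)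

/-- Every element of `F` is scaled into `O` by a nonzero element of `A`. -/
theorem exists_smul_mem_O (x : F) : ∃ c : K, c ∈ A ∧ c ≠ 0 ∧ c • x ∈ S.O := by
  by_cases hx : x = 0
  · exact ⟨1, A.one_mem, one_ne_zero, by rw [hx, smul_zero]; exact S.O.zero_mem⟩
  · obtain ⟨w, hw, c, hc, h, -⟩ := S.approx ⊥ inferInstance x (by simpa using hx)
    have hw0 : w = 0 := by simpa using hw
    subst hw0
    rw [sub_zero] at h
    by_cases hcA : c ∈ A
    · exact ⟨c, hcA, hc, h⟩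
    · have hci : c⁻¹ ∈ A := (A.mem_or_inv_mem c).resolve_left hcA
      refine ⟨1, A.one_mem, one_ne_zero, ?_⟩
      rw [one_smul]
      have hxx : x = c⁻¹ • (c • x) := by rw [smul_smul, inv_mul_cancel₀ hc, one_smul]
      rw [hxx]
      exact S.smul_mem hci h

/-- Common denominator for the sum of two lattices. -/
theorem exists_common_denominator_sup (hπ : Function.Surjective π) (W0 W1 : Submodule K F)
    [FiniteDimensional K W0] [FiniteDimensional K W1] :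
    ∃ e : K, e ∈ A ∧ e ≠ 0 ∧ ∀ μ ∈ W0 ⊔ W1, μ ∈ S.O →
      ∃ y0 ∈ W0, ∃ y1 ∈ W1, y0 ∈ S.O ∧ y1 ∈ S.O ∧ e • μ = y0 + y1 := by
  classical
  obtain ⟨z, hzV, hzO, hzind, -, hzspan⟩ := S.exists_reducedBasis hπ (W0 ⊔ W1)
  have hdec : ∀ i, ∃ x0 ∈ W0, ∃ x1 ∈ W1, x0 + x1 = z i := fun i => Submodule.mem_sup.mp (hzV i)
  choose x0 hx0 x1 hx1 hx using hdec
  choose c0 hc0A hc00 hc0 using fun i => S.exists_smul_mem_O (x0 i)
  choose c1 hc1A hc10 hc1 using fun i => S.exists_smul_mem_O (x1 i)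
  set e : K := ∏ i, (c0 i * c1 i) with he
  set d : Fin (finrank K ↥(W0 ⊔ W1)) → K := fun i => ∏ j ∈ Finset.univ.erase i, (c0 j * c1 j)
    with hd
  have hdA : ∀ i, d i ∈ A := fun i =>
    prod_mem fun j _ => A.mul_mem _ _ (hc0A j) (hc1A j)
  have hed : ∀ i, e = (c0 i * c1 i) * d i := fun i =>
    (Finset.mul_prod_erase Finset.univ (fun j => c0 j * c1 j) (Finset.mem_univ i)).symm
  refine ⟨e, prod_mem fun j _ => A.mul_mem _ _ (hc0A j) (hc1A j),
    Finset.prod_ne_zero_iff.mpr fun i _ => mul_ne_zero (hc00 i) (hc10 i), ?_⟩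
  intro μ hμ hμO
  obtain ⟨a, haA, rfl⟩ := S.exists_coeff_of_mem z hzO hzind (hzspan.symm ▸ hμ) hμO
  refine ⟨∑ i, (a i * d i * c1 i) • (c0 i • x0 i),
    W0.sum_mem fun i _ => W0.smul_mem _ (W0.smul_mem _ (hx0 i)),
    ∑ i, (a i * d i * c0 i) • (c1 i • x1 i),
    W1.sum_mem fun i _ => W1.smul_mem _ (W1.smul_mem _ (hx1 i)),
    S.O.sum_mem fun i _ =>
      S.smul_mem (A.mul_mem _ _ (A.mul_mem _ _ (haA i) (hdA i)) (hc1A i)) (hc0 i),
    S.O.sum_mem fun i _ =>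
      S.smul_mem (A.mul_mem _ _ (A.mul_mem _ _ (haA i) (hdA i)) (hc0A i)) (hc1 i), ?_⟩
  rw [Finset.smul_sum, ← Finset.sum_add_distrib]
  refine Finset.sum_congr rfl fun i _ => ?_
  rw [← hx i, smul_smul, smul_smul, smul_smul, hed i, smul_add]
  congr 1
  · congr 1; ring
  · congr 1; ring

/-- **The two-lattice lemma.** -/
theorem exists_ne_zero_mem_inf (hπ : Function.Surjective π) (W0 W1 : Submodule K F)
    [FiniteDimensional K W0] [FiniteDimensional K W1] {t : K} (ht : IsModulus A t)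
    (h : ∀ a : K, a ∈ A → a ≠ 0 → ∃ h0 ∈ W0, ∃ h1 ∈ W1, ∃ μ ∈ S.O,
      h0 ∈ S.O ∧ S.resF h0 ≠ 0 ∧ h0 - h1 = a • μ) :
    ∃ s, s ∈ W0 ∧ s ∈ W1 ∧ s ≠ 0 := by
  obtain ⟨e, heA, he0, he⟩ := S.exists_common_denominator_sup hπ W0 W1
  have het0 : e * t ≠ 0 := mul_ne_zero he0 ht.ne_zero
  obtain ⟨h0, hh0, h1, hh1, μ, hμO, hh0O, hres, hdiff⟩ :=
    h (e * t) (A.mul_mem _ _ heA ht.mem) het0
  have hμV : μ ∈ W0 ⊔ W1 := by
    have hμ : μ = (e * t)⁻¹ • (h0 - h1) := by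
      rw [hdiff, smul_smul, inv_mul_cancel₀ het0, one_smul]
    rw [hμ]
    exact Submodule.smul_mem _ _
      (Submodule.sub_mem _ (Submodule.mem_sup_left hh0) (Submodule.mem_sup_right hh1))
  obtain ⟨y0, hy0, y1, hy1, hy0O, hy1O, hy⟩ := he μ hμV hμO
  have hkey : h0 - h1 = t • y0 + t • y1 := by
    rw [hdiff, ← smul_add, ← hy, smul_smul, mul_comm]
  refine ⟨h0 - t • y0, W0.sub_mem hh0 (W0.smul_mem _ hy0), ?_, ?_⟩
  · have h2 : h0 - t • y0 = h1 + t • y1 := by linear_combination hkey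
    rw [h2]
    exact W1.add_mem hh1 (W1.smul_mem _ hy1)
  · apply S.ne_zero_of_resF_ne_zero
    rw [S.resF_sub hh0O (S.smul_mem ht.mem hy0O), S.resF_smul ht.mem hy0O]
    have hπt : π ⟨t, ht.mem⟩ = 0 := by
      rw [S.pi_eq_zero_iff, ValuationSubring.mem_nonunits_iff_or]
      exact Or.inr ht.inv_not_mem
    rw [hπt, zero_smul, sub_zero]
    exact hres

end RedSetup

end Fermat.Agent.Red
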